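import Fermat.Agent.CFT.TWPrimes.AdModule
import Fermat.Agent.CFT.TWPrimes.Cocycle
import Fermat.Agent.CFT.TUnit.Exact
import Fermat.Agent.CFT.Euler.ExtMod
import Fermat.Agent.CFT.PT.Arith.Basic
import Fermat.Agent.CFT.Tangent.Dictionary

/-!
# Kummer cocycles of equivariant maps into `T`-units

An extension to the lattice of an equivariant map `S → U_T`, with values in the units of the
algebraic closure, differs from its conjugates by a cocycle in the twisted adjoint module. It is a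
coboundary only for restrictions, and at a place where the map is locally a restriction its trace
function vanishes on Frobenius elements of determinant one.

These are `IsKummer.isCocycle`, `IsKummer.mem_extSub` and `IsKummer.phi_eq_zero`.
-/

set_option autoImplicit false

noncomputable section

namespace Fermat.Agent.CFT.TWPrimes

open Fermat.Agent.Arith IntermediateField Fermat.Agent.CFT.Local Fermat.Agent.CFT.Idele
open Fermat.Agent.CFT.Euler Fermat.Agent.CFT.TUnit Fermat.Agent.CFT.PT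
open Matrix

/-! ### Powers of a root of unity -/

section Roots

variable {p : ℕ} [hp : Fact p.Prime] {ζ : QBar}

/-- The unit of a root of unity, additively. -/
def zetaA (hζ : IsPrimitiveRoot ζ p) : Additive QBarˣ :=
  Additive.ofMul (Units.mk0 ζ (hζ.ne_zero hp.out.ne_zero))

theorem nsmul_zetaA (hζ : IsPrimitiveRoot ζ p) : p • zetaA hζ = 0 :=
  Additive.toMul.injective (Units.ext (by
    show ((zetaA hζ).toMul ^ p : QBarˣ).val = 1
    rw [Units.val_pow_eq_pow_val]
    exact hζ.pow_eq_one))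

/-- Powers of the root of unity. -/
def expMu (hζ : IsPrimitiveRoot ζ p) : ZMod p →+ Additive QBarˣ :=
  ZMod.lift p ⟨zmultiplesHom (Additive QBarˣ) (zetaA hζ), by
    rw [zmultiplesHom_apply, natCast_zsmul, nsmul_zetaA]⟩

theorem expMu_intCast (hζ : IsPrimitiveRoot ζ p) (n : ℤ) :
    expMu hζ (n : ZMod p) = n • zetaA hζ := ZMod.lift_coe _ _ _

theorem expMu_natCast (hζ : IsPrimitiveRoot ζ p) (n : ℕ) :
    expMu hζ (n : ZMod p) = n • zetaA hζ := by
  rw [← Int.cast_natCast, expMu_intCast, natCast_zsmul]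

/-- The exponential `n ↦ ζ ^ n` on `ℤ/p` is injective. -/
theorem expMu_injective (hζ : IsPrimitiveRoot ζ p) : Function.Injective (expMu hζ) := by
  have : NeZero p := ⟨hp.out.ne_zero⟩
  rw [injective_iff_map_eq_zero]
  intro n hn
  rw [← ZMod.natCast_zmod_val n, expMu_natCast] at hn
  have h1 : ζ ^ n.val = 1 := by
    have := congrArg (fun z => ((z.toMul : QBarˣ) : QBar)) hn
    simpa [zetaA] using this
  rw [← ZMod.natCast_zmod_val n, ZMod.natCast_eq_zero_iff]
  exact (hζ.pow_eq_one_iff_dvd _).mp h1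

/-- Every element killed by `p` is a power of `ζ`. -/
theorem exists_expMu_eq (hζ : IsPrimitiveRoot ζ p) (x : Additive QBarˣ) (hx : p • x = 0) :
    ∃ n, expMu hζ n = x := by
  have : NeZero p := ⟨hp.out.ne_zero⟩
  obtain ⟨i, -, hi⟩ := hζ.eq_pow_of_pow_eq_one (ξ := ((x.toMul : QBarˣ) : QBar)) (by
    rw [← Units.val_pow_eq_pow_val, ← toMul_nsmul, hx, toMul_zero, Units.val_one])
  refine ⟨(i : ZMod p), Additive.toMul.injective (Units.ext ?_)⟩
  rw [expMu_natCast, toMul_nsmul, Units.val_pow_eq_pow_val]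
  exact hi

/-- An automorphism sending `ζ` to `ζ ^ a` multiplies exponents by `a`. -/
theorem smul_expMu (hζ : IsPrimitiveRoot ζ p) {σ : GQ} {a : ℕ} (ha : σ ζ = ζ ^ a) (n : ZMod p) :
    σ • expMu hζ n = expMu hζ ((a : ZMod p) * n) := by
  have : NeZero p := ⟨hp.out.ne_zero⟩
  rw [← ZMod.natCast_zmod_val n, ← Nat.cast_mul, expMu_natCast, expMu_natCast, smul_comm σ,
    mul_comm, mul_smul]
  congr 1
  refine Additive.toMul.injective (Units.ext ?_)
  show σ ζ = ((zetaA hζ).toMul ^ a : QBarˣ).val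
  rw [Units.val_pow_eq_pow_val]
  exact ha

end Roots

variable {k : Type} [Field k] [Finite k] {p : ℕ} [hp : Fact p.Prime] [CharP k p]
  {r : GQ →* Matrix (Fin 2) (Fin 2) k}
  {K : IntermediateField ℚ QBar} [FiniteDimensional ℚ K] [Normal ℚ K]
  {r₀ : (K ≃ₐ[ℚ] K) →* Matrix (Fin 2) (Fin 2) k}
  [Fintype (AdW r₀)]
  {ζ : QBar}

/-! ### Kummer data and extensions -/

/-- The data of a Kummer cocycle. -/
structure IsKummer (hζ : IsPrimitiveRoot ζ p)
    (x' : CFT.Lat (K ≃ₐ[ℚ] K) (AdW r₀) →+ Additive QBarˣ) (b : GQ → Matrix (Fin 2) (Fin 2) k) :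
    Prop where
  trace : ∀ σ, (b σ).trace = 0
  eq : ∀ (σ : GQ) (z : CFT.Lat (K ≃ₐ[ℚ] K) (AdW r₀)),
    σ • x' ((res K σ)⁻¹ • z) - x' z = expMu hζ (nu (b σ) (adEps z))

variable {T : Finset Nat.Primes}

/-- An extension of an equivariant map to the lattice. -/
def IsExtension (x : equivHom (C := tUnits K T)
    (presentation_adEps (p := p) (r := r₀)).isStable_ker)
    (x' : CFT.Lat (K ≃ₐ[ℚ] K) (AdW r₀) →+ Additive QBarˣ) : Prop :=
  ∀ s : (adEps (r := r₀)).ker, x' s = unitsToQ K (x.1 s : Additive Kˣ)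

variable (hζ : IsPrimitiveRoot ζ p)
  (x : equivHom (C := tUnits K T) (presentation_adEps (p := p) (r := r₀)).isStable_ker)

omit [Finite k] in
omit [FiniteDimensional ℚ K] in
theorem res_inv (σ : GQ) : (res K σ)⁻¹ = res K σ⁻¹ := (map_inv (res K) σ).symm

omit [Finite k] in
theorem exists_extension : ∃ x', IsExtension x x' := by
  have hε := presentation_adEps (p := p) (r := r₀)
  let M := (nsmulAddMonoidHom p : Additive QBarˣ →+ Additive QBarˣ).ker
  have hroot : ∀ i g, ∃ y : Additive QBarˣ,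
      p • y = unitsToQ K (x.1 (mulP hε.smul_mem (CFT.Lat.e i g)) : Additive Kˣ) := fun i g => by
    set u := (unitsToQ K (x.1 (mulP hε.smul_mem (CFT.Lat.e i g)) : Additive Kˣ)).toMul
    obtain ⟨y, hy⟩ := IsAlgClosed.exists_pow_nat_eq (u : QBar) hp.out.pos
    have hy0 : y ≠ 0 := fun h => u.ne_zero (by rw [← hy, h, zero_pow hp.out.ne_zero])
    exact ⟨Additive.ofMul (Units.mk0 y hy0), Additive.toMul.injective (Units.ext (by
      rw [toMul_nsmul, Units.val_pow_eq_pow_val]; exact hy))⟩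
  choose y hy using hroot
  let W : CFT.Lat (K ≃ₐ[ℚ] K) (AdW r₀) →+ Additive QBarˣ := CFT.Lat.ofBasis y
  let φ : (adEps (r := r₀)).ker →+ Additive QBarˣ :=
    (unitsToQ K).comp ((tUnits K T).subtype.comp x.1)
  have hW : p • W = φ.comp (mulP hε.smul_mem) := CFT.Lat.hom_ext fun i g => by
    show p • W (CFT.Lat.e i g) = _
    rw [CFT.Lat.ofBasis_e, hy]
    rfl
  have hWap : ∀ z, p • W z = φ (mulP hε.smul_mem z) := fun z => DFunLike.congr_fun hW z
  let δ : (adEps (r := r₀)).ker →+ M := (φ - W.comp (adEps (r := r₀)).ker.subtype).codRestrict M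
    fun s => by
      show p • (φ s - W s) = 0
      rw [nsmul_sub, hWap, mulP_coe, map_nsmul, sub_self]
  have hMk : ∀ m : M, p • m = 0 := fun m => Subtype.ext (by rw [AddSubgroup.coe_nsmul]; exact m.2)
  obtain ⟨η, hη⟩ := exists_extend_killed hMk (S := ⊤) le_top (fun s _ => hε.smul_mem s) δ
    (fun s hs => Subtype.ext (by
      show φ (mulP hε.smul_mem s) - W (p • s) = 0
      rw [map_nsmul, hWap, sub_self]))
  refine ⟨W + (M.subtype.comp η).comp (AddMonoidHom.mk' (fun z => (⟨z, AddSubgroup.mem_top _⟩ :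
    (⊤ : AddSubgroup (CFT.Lat (K ≃ₐ[ℚ] K) (AdW r₀))))) fun _ _ => rfl), fun s => ?_⟩
  rw [AddMonoidHom.add_apply]
  simp only [AddMonoidHom.comp_apply, AddMonoidHom.mk'_apply]
  show W (s : CFT.Lat (K ≃ₐ[ℚ] K) (AdW r₀)) +
    M.subtype (η (AddSubgroup.inclusion le_top s)) = φ s
  rw [hη]
  exact add_sub_cancel _ _

variable {x} {x' : CFT.Lat (K ≃ₐ[ℚ] K) (AdW r₀) →+ Additive QBarˣ}

include hζ in
theorem exists_isKummer (h2 : (2 : k) ≠ 0) (hx' : IsExtension x x') :
    ∃ b, IsKummer hζ x' b := by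
  have hε := presentation_adEps (p := p) (r := r₀)
  let δ : GQ → CFT.Lat (K ≃ₐ[ℚ] K) (AdW r₀) →+ Additive QBarˣ := fun σ =>
    (DistribSMul.toAddMonoidHom (Additive QBarˣ) σ).comp
      (x'.comp (DistribSMul.toAddMonoidHom (CFT.Lat (K ≃ₐ[ℚ] K) (AdW r₀)) (res K σ)⁻¹)) - x'
  have hδ : ∀ σ z, δ σ z = σ • x' ((res K σ)⁻¹ • z) - x' z := fun _ _ => rfl
  have hker : ∀ σ, (adEps (r := r₀)).ker ≤ (δ σ).ker := fun σ s hs => by
    show δ σ s = 0
    set s' : (adEps (r := r₀)).ker := ⟨s, hs⟩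
    rw [hδ, show (res K σ)⁻¹ • s = (smulS hε.isStable_ker (res K σ)⁻¹ s' : adEps.ker) from rfl,
      hx', show x.1 (smulS hε.isStable_ker (res K σ)⁻¹ s') = (res K σ)⁻¹ • x.1 s' from x.2 _ _,
      coe_smul_tUnits, res_inv, ← smul_unitsToQ, smul_inv_smul,
      show x' s = x' s' from rfl, hx', sub_self]
  have hex : ∀ σ, ∃ b : Matrix (Fin 2) (Fin 2) k, b.trace = 0 ∧
      ∀ z, δ σ z = expMu hζ (nu (r := r₀) b (adEps z)) := fun σ => by
    let d : AdW r₀ →+ Additive QBarˣ :=
      AddMonoidHom.liftOfSurjective adEps hε.surjective ⟨δ σ, hker σ⟩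
    have hd : ∀ z, d (adEps z) = δ σ z := fun z =>
      AddMonoidHom.liftOfRightInverse_comp_apply adEps _ _ ⟨δ σ, hker σ⟩ z
    choose n hn using fun a => exists_expMu_eq hζ (d a) (by
      rw [← map_nsmul, AdW.nsmul_eq_zero, map_zero])
    obtain ⟨β, hβ, hν⟩ := exists_nu_eq (p := p) h2 (AddMonoidHom.mk' n fun a a' =>
      expMu_injective hζ (by rw [map_add, hn, hn, hn, map_add]) : AdW r₀ →+ ZMod p)
    refine ⟨β, hβ, fun z => ?_⟩
    rw [hν, AddMonoidHom.mk'_apply, hn, hd]
  choose b hb1 hb2 using hex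
  exact ⟨b, hb1, fun σ z => (hδ σ z).symm.trans (hb2 σ z)⟩

variable {b : GQ → Matrix (Fin 2) (Fin 2) k} (hb : IsKummer hζ x' b)

include hb in
/-- For a Kummer cocycle `b`, only `b σ` among trace zero matrices satisfies the defining
relation at `σ`. -/
theorem IsKummer.unique (h2 : (2 : k) ≠ 0) {σ : GQ} {β : Matrix (Fin 2) (Fin 2) k}
    (hβ : β.trace = 0)
    (h : ∀ z, σ • x' ((res K σ)⁻¹ • z) - x' z = expMu hζ (nu (r := r₀) β (adEps z))) :
    b σ = β := by
  refine sub_eq_zero.mp (eq_zero_of_nu (r := r₀) (p := p) h2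
    (by rw [Matrix.trace_sub, hb.trace, hβ, sub_zero]) (AddMonoidHom.ext fun a => ?_))
  obtain ⟨z, rfl⟩ := (presentation_adEps (p := p) (r := r₀)).surjective a
  have e : nu (r := r₀) (p := p) (b σ) (adEps z) = nu β (adEps z) :=
    expMu_injective hζ ((hb.eq σ z).symm.trans (h z))
  have e' := DFunLike.congr_fun (nu_add (r := r₀) (p := p) (b σ - β) β) (adEps z)
  rw [sub_add_cancel, AddMonoidHom.add_apply, e] at e'
  rw [AddMonoidHom.zero_apply]
  exact right_eq_add.mp e'

variable (hr₀ : ∀ σ, r σ = r₀ (res K σ))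
  (hcyc : ∀ (σ : GQ) (a : ℕ), (∀ μ : QBar, μ ^ p = 1 → σ μ = μ ^ a) → (r σ).det = (a : k))

/-! ### The cocycle -/

include hr₀ hcyc in
omit [Fintype (AdW r₀)] [FiniteDimensional ℚ K] in
/-- The twist: conjugating a functional and multiplying by the cyclotomic character. -/
theorem smul_expMu_nu (σ : GQ) (β : Matrix (Fin 2) (Fin 2) k) (X : AdW r₀) :
    σ • expMu hζ (nu (r := r₀) β ((res K σ)⁻¹ • X)) = expMu hζ (nu (ad r σ β) X) := by
  have : NeZero p := ⟨hp.out.ne_zero⟩
  obtain ⟨a, ha⟩ := Tangent.exists_pow_eq_on_roots p σ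
  rw [smul_expMu hζ (ha ζ hζ.pow_eq_one)]
  congr 1
  have e : nu (r := r₀) (p := p) (r σ * β * r σ⁻¹) X = nu β ((res K σ)⁻¹ • X) := by
    conv_lhs => rw [← smul_inv_smul (res K σ) X, hr₀, hr₀, ← res_inv, nu_conj]
  rw [ad_apply, hcyc σ a ha, ← e, nu_apply, nu_apply, smul_mul_assoc, Matrix.trace_smul,
    Nat.cast_smul_eq_nsmul, map_nsmul, nsmul_eq_mul]

include hr₀ hcyc hb in
/-- A Kummer cocycle is a cocycle for the twisted adjoint action. -/
theorem IsKummer.isCocycle (h2 : (2 : k) ≠ 0) : IsCocycle r b := by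
  refine ⟨hb.trace, fun σ τ => hb.unique hζ h2 ?_ fun z => ?_⟩
  · rw [Matrix.trace_add, trace_ad, hb.trace, hb.trace, mul_zero, add_zero]
  · rw [nu_add, AddMonoidHom.add_apply, map_add, ← smul_expMu_nu hζ hr₀ hcyc,
      ← (presentation_adEps (p := p) (r := r₀)).map_smul, ← hb.eq τ, ← hb.eq σ, smul_sub, smul_smul,
      smul_smul, ← _root_.mul_inv_rev, ← map_mul]
    abel

include hζ hb in
/-- A Kummer cocycle vanishes on the group fixing a suitable finite extension of `ℚ`. -/
theorem IsKummer.exists_level (h2 : (2 : k) ≠ 0) :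
    ∃ L : IntermediateField ℚ QBar, FiniteDimensional ℚ L ∧
      ∀ σ : GQ, (∀ y ∈ L, σ y = y) → b σ = 0 := by
  classical
  let S : Set QBar := Set.range fun q : AdW r₀ × (K ≃ₐ[ℚ] K) =>
    (((x' (CFT.Lat.e q.1 q.2)).toMul : QBarˣ) : QBar)
  have : FiniteDimensional ℚ (IntermediateField.adjoin ℚ S) :=
    IntermediateField.finiteDimensional_adjoin fun y _ => Algebra.IsIntegral.isIntegral y
  refine ⟨K ⊔ IntermediateField.adjoin ℚ S, IntermediateField.finiteDimensional_sup _ _,
    fun σ hσ => hb.unique hζ h2 (Matrix.trace_zero _ _) fun z => ?_⟩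
  have hK : res K σ = 1 := AlgEquiv.ext fun y => Subtype.ext (by
    rw [res_apply, AlgEquiv.one_apply]
    exact hσ _ (le_sup_left (α := IntermediateField ℚ QBar) y.2))
  have e : (DistribSMul.toAddMonoidHom (Additive QBarˣ) σ).comp x' = x' :=
    CFT.Lat.hom_ext fun i g => Additive.toMul.injective (Units.ext
      (hσ _ (le_sup_right (α := IntermediateField ℚ QBar)
        (IntermediateField.subset_adjoin ℚ S ⟨(i, g), rfl⟩))))
  rw [hK, inv_one, one_smul, show σ • x' z = x' z from DFunLike.congr_fun e z, sub_self, nu_apply,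
    zero_mul, Matrix.trace_zero, map_zero, map_zero]

/-- The correction of an extension by a matrix. -/
def corr (hζ : IsPrimitiveRoot ζ p) (x' : CFT.Lat (K ≃ₐ[ℚ] K) (AdW r₀) →+ Additive QBarˣ)
    (Y : Matrix (Fin 2) (Fin 2) k) : CFT.Lat (K ≃ₐ[ℚ] K) (AdW r₀) →+ Additive QBarˣ :=
  x' - (expMu hζ).comp ((nu (r := r₀) Y).comp adEps)

include hr₀ hcyc in
theorem corr_delta (Y : Matrix (Fin 2) (Fin 2) k) (σ : GQ) (z : CFT.Lat (K ≃ₐ[ℚ] K) (AdW r₀)) :
    σ • corr hζ x' Y ((res K σ)⁻¹ • z) - corr hζ x' Y z =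
      (σ • x' ((res K σ)⁻¹ • z) - x' z) - expMu hζ (nu (cobd r Y σ) (adEps z)) := by
  have e := DFunLike.congr_fun (nu_add (r := r₀) (p := p) (cobd r Y σ) Y) (adEps z)
  rw [cobd, sub_add_cancel, AddMonoidHom.add_apply] at e
  simp only [corr, AddMonoidHom.sub_apply, AddMonoidHom.comp_apply, smul_sub,
    (presentation_adEps (p := p) (r := r₀)).map_smul, smul_expMu_nu hζ hr₀ hcyc]
  rw [cobd, e, map_add]
  abel

include hr₀ hcyc hb in
/-- A Kummer cocycle is a coboundary only for restrictions. -/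
theorem IsKummer.mem_extSub (hx' : IsExtension x x') {Y : Matrix (Fin 2) (Fin 2) k}
    (hY : ∀ σ, b σ = cobd r Y σ) :
    x ∈ extSub (presentation_adEps (p := p) (r := r₀)).isStable_ker := by
  have hε := presentation_adEps (p := p) (r := r₀)
  set W := corr hζ x' Y
  have hδ : ∀ σ z, σ • W ((res K σ)⁻¹ • z) = W z := fun σ z => by
    rw [← sub_eq_zero, corr_delta hζ hr₀ hcyc, hb.eq, hY, sub_self]
  have hWs : ∀ s : (adEps (r := r₀)).ker, W s = unitsToQ K (x.1 s : Additive Kˣ) := fun s => by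
    rw [show W (s : CFT.Lat (K ≃ₐ[ℚ] K) (AdW r₀)) = x' s - expMu hζ (nu Y (adEps s.1)) from rfl,
      AddMonoidHom.mem_ker.mp s.2, map_zero, map_zero, sub_zero, hx']
  have hval : ∀ z, (((W z).toMul : QBarˣ) : QBar) ∈ K := fun z => by
    refine (congrArg (fun F : IntermediateField ℚ QBar => (((W z).toMul : QBarˣ) : QBar) ∈ F)
      (InfiniteGalois.fixedField_fixingSubgroup K)).mp ?_
    rw [IntermediateField.mem_fixedField_iff]
    intro σ hσ
    have hK : res K σ = 1 := AlgEquiv.ext fun y => Subtype.ext (by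
      rw [res_apply, AlgEquiv.one_apply]
      exact (IntermediateField.mem_fixingSubgroup_iff _ _).mp hσ _ y.2)
    have e := hδ σ z
    rw [hK, inv_one, one_smul] at e
    exact congrArg (fun w => ((w.toMul : QBarˣ) : QBar)) e
  let u : CFT.Lat (K ≃ₐ[ℚ] K) (AdW r₀) → Additive Kˣ := fun z => Additive.ofMul (Units.mk0
    (⟨_, hval z⟩ : K) fun h => (W z).toMul.ne_zero (congrArg Subtype.val h))
  have hu : ∀ z, unitsToQ K (u z) = W z := fun z => Additive.toMul.injective (Units.ext rfl)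
  have hmem : ∀ z, u z ∈ tUnits K T := fun z q hq σ => by
    have e : p • u z = (x.1 (mulP hε.smul_mem z) : Additive Kˣ) := unitsToQ_injective K (by
      rw [map_nsmul, hu, ← map_nsmul]
      exact hWs (mulP hε.smul_mem z))
    have h1 := (x.1 (mulP hε.smul_mem z)).2 q hq σ
    rw [← e, map_nsmul, show val (p • diag K (u z)).toMul q σ =
      val (diag K (u z)).toMul q σ ^ p from
      map_pow (valHom q σ) _ p, ← ord_eq_one_iff, map_pow, pow_eq_one_iff_left hp.out.ne_zero] at h1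
    exact (ord_eq_one_iff _).mp h1
  refine ⟨AddMonoidHom.mk' (fun z => ⟨u z, hmem z⟩) fun z w => Subtype.ext
    (unitsToQ_injective K (by rw [AddSubgroup.coe_add, map_add, hu, hu, hu, map_add])),
    fun g z => Subtype.ext (unitsToQ_injective K ?_), fun s =>
    Subtype.ext (unitsToQ_injective K ?_)⟩
  · obtain ⟨σ, rfl⟩ := AlgEquiv.restrictNormalHom_surjective (K₁ := K) QBar g
    rw [coe_smul_tUnits, ← smul_unitsToQ]
    show unitsToQ K (u _) = σ • unitsToQ K (u z)
    rw [hu, hu]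
    rw [← hδ σ (res K σ • z), inv_smul_smul]
  · rw [AddMonoidHom.mk'_apply, hu, hWs]

include hr₀ hcyc hb in
/-- Where the map is locally a restriction, the trace function vanishes at Frobenius. -/
theorem IsKummer.phi_eq_zero (h2 : (2 : k) ≠ 0) (hx' : IsExtension x x') (q : Nat.Primes)
    (Yq : CFT.Lat (K ≃ₐ[ℚ] K) (AdW r₀) →+ CoInd (Duality.decomp K q) (LocUnits K q))
    (hYq : ∀ (g : K ≃ₐ[ℚ] K) z, Yq (g • z) = g • Yq z)
    (hxY : ∀ s : (adEps (r := r₀)).ker, valAt q (diag K (x.1 s : Additive Kˣ)) = Yq s)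
    {φ : GQ} (hφ : φ ∈ (padicPlace (q : ℕ)).decompositionSubgroup ℚ) (hdet : (r φ).det = 1) :
    phi r b φ = 0 := by
  classical
  have hε := presentation_adEps (p := p) (r := r₀)
  let em : Additive QBarˣ →+ Additive (PadicAlgCl q)ˣ :=
    MonoidHom.toAdditive (Units.map (padicEmbedding (q : ℕ)).toRingHom.toMonoidHom)
  have hem : Function.Injective em := fun a a' h => Additive.toMul.injective (Units.ext
    ((padicEmbedding (q : ℕ)).toRingHom.injective (congrArg Units.val (congrArg Additive.toMul h))))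
  let incl : LocUnits K q →+ Additive (PadicAlgCl q)ˣ :=
    (MonoidHom.toAdditive (Units.map (E K q).val.toRingHom.toMonoidHom)).comp
      (LocUnits.of K q).symm.toAddMonoidHom
  let y : CFT.Lat (K ≃ₐ[ℚ] K) (AdW r₀) →+ LocUnits K q := CoInd.ev.comp Yq
  -- the difference is killed by `p`
  let w := em.comp x' - incl.comp y
  have hws : ∀ s : (adEps (r := r₀)).ker, w s = 0 := fun s => by
    show em (x' s) - incl (CoInd.ev (Yq s)) = 0
    rw [sub_eq_zero, hx', ← hxY, CoInd.ev_apply, fn_valAt]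
    refine Additive.toMul.injective (Units.ext ?_)
    show padicEmbedding (q : ℕ) _ =
      (((LocUnits.of K q).symm (LocUnits.of K q _)).toMul : (E K q)ˣ).1.1
    rw [AddEquiv.symm_apply_apply]
    exact (congrArg Subtype.val ((val_prinL (x.1 s : Additive Kˣ).toMul q 1).trans
      (congrArg (localEmb (q : ℕ) K) (AlgEquiv.one_apply _)))).symm
  have hwp : ∀ z, ∃ n : ZMod p, em (expMu hζ n) = w z := fun z => by
    have h0 : p • w z = 0 := by
      rw [← map_nsmul]
      exact hws ⟨_, hε.smul_mem z⟩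
    have : NeZero p := ⟨hp.out.ne_zero⟩
    obtain ⟨i, -, hi⟩ := (hζ.map_of_injective (padicEmbedding (q : ℕ)).toRingHom.injective
      ).eq_pow_of_pow_eq_one (ξ := (((w z).toMul : (PadicAlgCl q)ˣ) : PadicAlgCl q)) (by
        rw [← Units.val_pow_eq_pow_val, ← toMul_nsmul, h0, toMul_zero, Units.val_one])
    refine ⟨(i : ZMod p), Additive.toMul.injective (Units.ext ?_)⟩
    rw [expMu_natCast, map_nsmul, toMul_nsmul, Units.val_pow_eq_pow_val]
    exact hi
  choose n hn using hwp
  let nh : CFT.Lat (K ≃ₐ[ℚ] K) (AdW r₀) →+ ZMod p := AddMonoidHom.mk' n fun z z' =>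
    expMu_injective hζ (hem (by rw [map_add, map_add, hn, hn, hn, map_add]))
  have hnker : (adEps (r := r₀)).ker ≤ nh.ker := fun s hs =>
    expMu_injective hζ (hem (by
      show em (expMu hζ (n s)) = em (expMu hζ 0)
      rw [hn, map_zero, map_zero]
      exact hws ⟨s, hs⟩))
  let ν : AdW r₀ →+ ZMod p := AddMonoidHom.liftOfSurjective adEps hε.surjective ⟨nh, hnker⟩
  have hν : ∀ z, ν (adEps z) = n z := fun z =>
    AddMonoidHom.liftOfRightInverse_comp_apply adEps _ _ ⟨nh, hnker⟩ z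
  obtain ⟨Y, hY, hνY⟩ := exists_nu_eq h2 ν
  have hW : ∀ z, em (corr hζ x' Y z) = incl (y z) := fun z => by
    show em (x' z - expMu hζ (nu Y (adEps z))) = incl (y z)
    rw [hνY, hν, map_sub, hn]
    exact sub_sub_cancel _ _
  -- a finite level for the values
  let S : Set QBar := Set.range fun a : AdW r₀ × (K ≃ₐ[ℚ] K) =>
    (((corr hζ x' Y (CFT.Lat.e a.1 a.2)).toMul : QBarˣ) : QBar)
  have : FiniteDimensional ℚ (IntermediateField.adjoin ℚ S) :=
    IntermediateField.finiteDimensional_adjoin fun y _ => Algebra.IsIntegral.isIntegral y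
  have : FiniteDimensional ℚ (K ⊔ IntermediateField.adjoin ℚ S : IntermediateField ℚ QBar) :=
    IntermediateField.finiteDimensional_sup _ _
  let F := IntermediateField.normalClosure ℚ
    (K ⊔ IntermediateField.adjoin ℚ S : IntermediateField ℚ QBar) QBar
  have : Normal ℚ F := normal_normalClosure _
  have : FiniteDimensional ℚ F := normalClosure.is_finiteDimensional ℚ _ QBar
  have hKF : K ⊔ IntermediateField.adjoin ℚ S ≤ F := IntermediateField.le_normalClosure _
  obtain ⟨t, ht⟩ := (mem_range_toGlobal_iff (q : ℕ) F (res F φ)).mpr fun z hz => by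
    rw [res_apply]; exact map_mem_of_mem_decomposition hφ hz
  set s := t.liftNormal (PadicAlgCl q)
  have hagree : ∀ z ∈ F, φ z = localGaloisToGlobal (q : ℕ) s z := fun z hz => by
    have e : res F φ = AlgEquiv.restrictNormalHom F (localGaloisToGlobal (q : ℕ) s) := ht.symm
    have e1 := congrArg (fun g : F ≃ₐ[ℚ] F => ((g ⟨z, hz⟩ : F) : QBar)) e
    simp only [res_apply] at e1
    exact e1
  set t' := AlgEquiv.restrictNormalHom (E K q) s
  have ht' : (decompEquiv K q t' : K ≃ₐ[ℚ] K) = res K φ := by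
    rw [coe_decompEquiv, toGlobal_restrict]
    refine AlgEquiv.ext fun z => Subtype.ext ?_
    rw [res_apply, res_apply, hagree _ (hKF (le_sup_left (α := IntermediateField ℚ QBar) z.2))]
  have key : (DistribSMul.toAddMonoidHom (Additive QBarˣ) φ).comp ((corr hζ x' Y).comp
      (DistribSMul.toAddMonoidHom (CFT.Lat (K ≃ₐ[ℚ] K) (AdW r₀)) (res K φ)⁻¹)) = corr hζ x' Y := by
    refine CFT.Lat.hom_ext fun i g => hem ?_
    simp only [AddMonoidHom.comp_apply, DistribSMul.toAddMonoidHom_apply, CFT.Lat.smul_e]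
    set z := CFT.Lat.e i ((res K φ)⁻¹ * g) with hz
    have h1 : em (φ • corr hζ x' Y z) =
        Additive.ofMul (Units.map (s : PadicAlgCl q →* PadicAlgCl q)
            (em (corr hζ x' Y z)).toMul) := by
      refine Additive.toMul.injective (Units.ext ?_)
      show padicEmbedding (q : ℕ) (φ _) = s (padicEmbedding (q : ℕ) _)
      rw [hagree _ (hKF (le_sup_right (α := IntermediateField ℚ QBar)
        (IntermediateField.subset_adjoin ℚ S ⟨(i, (res K φ)⁻¹ * g), rfl⟩))),
        padicEmbedding_localGaloisToGlobal]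
    have h2' : y (CFT.Lat.e i g) = decompEquiv K q t' • y z := by
      show CoInd.ev (Yq _) = decompEquiv K q t' • CoInd.ev (Yq z)
      rw [← CoInd.ev_smul_mem, ← hYq, ht', hz, CFT.Lat.smul_e, mul_inv_cancel_left]
    rw [h1, hW, hW, h2']
    obtain ⟨v, hv⟩ := (LocUnits.of K q).surjective (y z)
    rw [← hv, LocUnits.smul_of]
    refine Additive.toMul.injective (Units.ext ?_)
    simp only [incl, AddMonoidHom.comp_apply, AddEquiv.coe_toAddMonoidHom,
      AddEquiv.symm_apply_apply]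
    exact (AlgEquiv.restrictNormal_commutes s (E K q) _).symm
  have hbφ : b φ = cobd r Y φ := hb.unique hζ h2 (by rw [cobd, Matrix.trace_sub, trace_ad, hY,
    mul_zero, sub_zero]) fun z => by
      rw [← sub_eq_zero, ← corr_delta hζ hr₀ hcyc, sub_eq_zero]
      exact DFunLike.congr_fun key z
  rw [phi, hbφ, cobd, ad_apply, hdet, one_smul, sub_mul, Matrix.trace_sub, mul_assoc (r φ * Y),
    rinv_mul, mul_one, Matrix.trace_mul_comm (r φ), sub_self]

end Fermat.Agent.CFT.TWPrimes
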