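import Fermat.Agent.CFT.TWPrimes.Irred
import Fermat.Agent.CFT.Euler.SplitCompare
import Fermat.Agent.CFT.Euler.Values
import Fermat.Agent.CFT.Coh.Level

/-!
# The adjoint module of trace zero matrices

Trace zero matrices with conjugation, their presentation by the free lattice, the self duality by
the trace form, and the orders of the invariants.
-/

set_option autoImplicit false

noncomputable section

namespace Fermat.Agent.CFT.TWPrimes

open Matrix Fermat.Agent.CFT.Euler

variable {G : Type} [Group G] {k : Type} [Field k]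
  (r : G →* Matrix (Fin 2) (Fin 2) k)

local notation "M₂" => Matrix (Fin 2) (Fin 2) k

/-- Trace zero matrices, as a type attached to `r`. -/
def AdW (_r : G →* M₂) : Type := LinearMap.ker (Matrix.traceLinearMap (Fin 2) k k)

instance : AddCommGroup (AdW r) :=
  inferInstanceAs (AddCommGroup (LinearMap.ker (Matrix.traceLinearMap (Fin 2) k k)))

instance [Finite k] : Finite (AdW r) :=
  inferInstanceAs (Finite (LinearMap.ker (Matrix.traceLinearMap (Fin 2) k k)))

/-- The underlying matrix. -/
def AdW.val : AdW r →+ M₂ :=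
  (LinearMap.ker (Matrix.traceLinearMap (Fin 2) k k)).toAddSubgroup.subtype

/-- A trace zero matrix as an element of the module. -/
def AdW.mk (X : M₂) (hX : X.trace = 0) : AdW r := ⟨X, LinearMap.mem_ker.mpr hX⟩

theorem AdW.val_mk (X : M₂) (hX : X.trace = 0) : AdW.val r (AdW.mk r X hX) = X := rfl

variable {r}

theorem AdW.trace_val (X : AdW r) : (AdW.val r X).trace = 0 := LinearMap.mem_ker.mp X.2

theorem AdW.val_injective : Function.Injective (AdW.val r) := Subtype.val_injective

theorem conj_trace (g : G) (X : M₂) (hX : X.trace = 0) : (r g * X * r g⁻¹).trace = 0 :=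
  (trace_conj g X).trans hX

instance : DistribMulAction G (AdW r) where
  smul g X := AdW.mk r (r g * AdW.val r X * r g⁻¹) (conj_trace g _ X.trace_val)
  one_smul X := AdW.val_injective (by
    show r 1 * AdW.val r X * r 1⁻¹ = AdW.val r X
    rw [inv_one, _root_.map_one, one_mul, mul_one])
  mul_smul g h X := AdW.val_injective (by
    show r (g * h) * AdW.val r X * r (g * h)⁻¹ = r g * (r h * AdW.val r X * r h⁻¹) * r g⁻¹
    rw [_root_.mul_inv_rev, _root_.map_mul, _root_.map_mul]
    simp only [mul_assoc])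
  smul_zero g := AdW.val_injective (by
    show r g * AdW.val r 0 * r g⁻¹ = AdW.val r 0
    rw [map_zero, mul_zero, zero_mul])
  smul_add g X Y := AdW.val_injective (by
    show r g * AdW.val r (X + Y) * r g⁻¹ =
      r g * AdW.val r X * r g⁻¹ + r g * AdW.val r Y * r g⁻¹
    rw [map_add, mul_add, add_mul])

theorem AdW.val_smul (g : G) (X : AdW r) :
    AdW.val r (g • X) = r g * AdW.val r X * r g⁻¹ := rfl

variable {p : ℕ} [hp : Fact p.Prime] [CharP k p]

omit hp in
/-- The adjoint module is killed by `p`. -/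
theorem AdW.nsmul_eq_zero (X : AdW r) : p • X = 0 := AdW.val_injective (by
  rw [map_nsmul, map_zero, ← Nat.cast_smul_eq_nsmul k, CharP.cast_eq_zero, zero_smul])

variable [Finite k]

/-- The presentation of the adjoint module by the free lattice on its elements. -/
def adEps [Fintype G] [Fintype (AdW r)] : CFT.Lat G (AdW r) →+ AdW r :=
  CFT.Lat.ofBasis fun a g => g • a

omit [Finite k] hp in
/-- The free lattice on its elements presents the adjoint module. -/
theorem presentation_adEps [Fintype G] [Fintype (AdW r)] : Presentation p (adEps (r := r)) where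
  surjective a := ⟨CFT.Lat.e a 1, by rw [adEps, CFT.Lat.ofBasis_e, one_smul]⟩
  map_smul g := CFT.Lat.map_smul_of_basis _ g fun a x => by
    rw [adEps, CFT.Lat.ofBasis_e, CFT.Lat.ofBasis_e, mul_smul]
  killed := AdW.nsmul_eq_zero

variable (k p) in
/-- A finite field of characteristic `p` has a nonzero additive functional to `ℤ/p`. -/
theorem exists_functional : ∃ φ : k →+ ZMod p, φ ≠ 0 := by
  have h1 : Nat.card (k →+ ZMod p) = Nat.card k := card_dual fun a => by
    rw [← Nat.cast_smul_eq_nsmul k, CharP.cast_eq_zero, zero_smul]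
  by_contra h
  push Not at h
  have : Subsingleton (k →+ ZMod p) := ⟨fun a b => (h a).trans (h b).symm⟩
  rw [Nat.card_of_subsingleton (0 : k →+ ZMod p)] at h1
  exact (Finite.one_lt_card (α := k)).ne h1

variable (k p) in
/-- A nonzero functional on the coefficient field. -/
def lamk : k →+ ZMod p := (exists_functional k p).choose

theorem exists_lamk_ne (c : k) (hc : c ≠ 0) : ∃ x : k, lamk k p (x * c) ≠ 0 := by
  obtain ⟨y, hy⟩ := DFunLike.ne_iff.mp (exists_functional k p).choose_spec
  exact ⟨y * c⁻¹, by rw [inv_mul_cancel_right₀ hc]; exact hy⟩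

/-- The functional attached to a matrix by the trace form. -/
def nu (β : M₂) : AdW r →+ ZMod p :=
  (lamk k p).comp (AddMonoidHom.mk' (fun X => (β * AdW.val r X).trace) fun X Y => by
    rw [map_add, mul_add, Matrix.trace_add])

theorem nu_apply (β : M₂) (X : AdW r) : nu (p := p) β X = lamk k p (β * AdW.val r X).trace := rfl

theorem nu_add (β β' : M₂) : nu (r := r) (p := p) (β + β') = nu β + nu β' :=
  AddMonoidHom.ext fun X => by
    rw [AddMonoidHom.add_apply, nu_apply, nu_apply, nu_apply, add_mul, Matrix.trace_add, map_add]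

theorem nu_conj (g : G) (β : M₂) (X : AdW r) :
    nu (p := p) (r g * β * r g⁻¹) (g • X) = nu (p := p) β X := by
  rw [nu_apply, nu_apply, AdW.val_smul]
  congr 1
  calc (r g * β * r g⁻¹ * (r g * AdW.val r X * r g⁻¹)).trace
      = (r g * (β * AdW.val r X) * r g⁻¹).trace := by
        congr 1
        calc _ = r g * β * (r g⁻¹ * r g) * AdW.val r X * r g⁻¹ := by simp only [mul_assoc]
          _ = _ := by rw [rinv_mul, mul_one, mul_assoc (r g)]
    _ = _ := trace_conj g _

theorem eq_zero_of_nu (h2 : (2 : k) ≠ 0) {β : M₂} (hβ : β.trace = 0)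
    (h : nu (r := r) (p := p) β = 0) : β = 0 := by
  have key : ∀ X : M₂, X.trace = 0 → (β * X).trace = 0 := fun X hX => by
    by_contra hne
    obtain ⟨x, hx⟩ := exists_lamk_ne (p := p) _ hne
    refine hx ?_
    have hxX : (x • X).trace = 0 := by rw [Matrix.trace_smul, hX, smul_zero]
    have := DFunLike.congr_fun h (AdW.mk r (x • X) hxX)
    rw [nu_apply, AdW.val_mk, mul_smul_comm, Matrix.trace_smul, smul_eq_mul] at this
    exact this
  have e1 := key !![0, 1; 0, 0] (by simp [Matrix.trace_fin_two])
  have e2 := key !![0, 0; 1, 0] (by simp [Matrix.trace_fin_two])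
  have e3 := key !![1, 0; 0, -1] (by simp [Matrix.trace_fin_two])
  simp [Matrix.trace_fin_two, Matrix.mul_apply] at e1 e2 e3
  rw [Matrix.trace_fin_two] at hβ
  have e4 : β 0 0 = 0 := (mul_eq_zero.mp (show (2 : k) * β 0 0 = 0 by
    linear_combination e3 + hβ)).resolve_left h2
  ext i j
  fin_cases i <;> fin_cases j <;> simp [e1, e2, e4]
  linear_combination hβ - e4

/-- Every functional comes from a trace zero matrix. -/
theorem exists_nu_eq (h2 : (2 : k) ≠ 0) (ν : AdW r →+ ZMod p) :
    ∃ β : M₂, β.trace = 0 ∧ nu β = ν := by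
  have := finite_dual (p := p) (A := AdW r)
  have hinj : Function.Injective fun β : AdW r => nu (r := r) (p := p) (AdW.val r β) := by
    intro β β' h
    refine AdW.val_injective (sub_eq_zero.mp (eq_zero_of_nu (r := r) (p := p) h2 ?_ ?_))
    · rw [Matrix.trace_sub, β.trace_val, β'.trace_val, sub_zero]
    · refine AddMonoidHom.ext fun X => ?_
      have e := DFunLike.congr_fun (nu_add (r := r) (p := p) (AdW.val r β - AdW.val r β')
        (AdW.val r β')) X
      rw [sub_add_cancel, AddMonoidHom.add_apply,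
        show nu (r := r) (p := p) (AdW.val r β) = nu (AdW.val r β') from h] at e
      rw [AddMonoidHom.zero_apply]
      exact right_eq_add.mp e
  obtain ⟨β, hβ⟩ := ((Nat.bijective_iff_injective_and_card _).mpr
    ⟨hinj, (card_dual (p := p) (A := AdW r) AdW.nsmul_eq_zero).symm⟩).2 ν
  exact ⟨AdW.val r β, β.trace_val, hβ⟩

/-- The invariants and the invariant functionals have the same order. -/
theorem card_fixDual_eq (h2 : (2 : k) ≠ 0) (H : Subgroup G) :
    Nat.card (fixDual p H (AdW r)) = Nat.card (fixPts H (AdW r)) := by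
  symm
  refine Nat.card_eq_of_bijective (fun β => (⟨nu (p := p) (AdW.val r β.1), fun h a => ?_⟩ :
    fixDual p H (AdW r))) ⟨fun β β' e => ?_, fun ν => ?_⟩
  · have e := nu_conj (p := p) (h : G) (AdW.val r β.1) a
    rw [← AdW.val_smul, show (h : G) • β.1 = β.1 from β.2 h] at e
    exact e
  · refine Subtype.ext (AdW.val_injective
      (sub_eq_zero.mp (eq_zero_of_nu (r := r) (p := p) h2 ?_ ?_)))
    · rw [Matrix.trace_sub, β.1.trace_val, β'.1.trace_val, sub_zero]
    · refine AddMonoidHom.ext fun X => ?_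
      have e' := DFunLike.congr_fun (nu_add (r := r) (p := p) (AdW.val r β.1 - AdW.val r β'.1)
        (AdW.val r β'.1)) X
      rw [sub_add_cancel, AddMonoidHom.add_apply,
        show nu (r := r) (p := p) (AdW.val r β.1) = nu (AdW.val r β'.1) from
          congrArg Subtype.val e] at e'
      rw [AddMonoidHom.zero_apply]
      exact right_eq_add.mp e'
  · obtain ⟨β, hβ, hν⟩ := exists_nu_eq h2 ν.1
    refine ⟨⟨AdW.mk r β hβ, fun h => AdW.val_injective (sub_eq_zero.mp
      (eq_zero_of_nu (r := r) (p := p) h2 ?_ ?_))⟩, Subtype.ext hν⟩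
    · rw [Matrix.trace_sub, AdW.trace_val, AdW.trace_val, sub_zero]
    · refine AddMonoidHom.ext fun X => ?_
      obtain ⟨Y, rfl⟩ := (MulAction.toPerm (h : G)).surjective X
      have e' := DFunLike.congr_fun (nu_add (r := r) (p := p)
        (AdW.val r (h • AdW.mk r β hβ) - AdW.val r (AdW.mk r β hβ)) (AdW.val r (AdW.mk r β hβ)))
        ((h : G) • Y)
      rw [sub_add_cancel, AddMonoidHom.add_apply] at e'
      have e1 : nu (p := p) (AdW.val r (h • AdW.mk r β hβ)) ((h : G) • Y) =
          nu (p := p) (AdW.val r (AdW.mk r β hβ)) ((h : G) • Y) := by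
        rw [Subgroup.smul_def, AdW.val_smul, nu_conj, AdW.val_mk, hν]
        exact (ν.2 h Y).symm
      rw [e1] at e'
      rw [AddMonoidHom.zero_apply]
      exact right_eq_add.mp e'

omit hp [CharP k p] [Finite k] in
/-- The trace free part of a matrix. -/
theorem exists_traceFree (h2 : (2 : k) ≠ 0) {A : M₂} (hA : ∀ c : k, A ≠ c • (1 : M₂)) :
    ∃ C : M₂, C.trace = 0 ∧ C ≠ 0 ∧ C * A = A * C ∧ ∀ X : M₂, X * A = A * X → X * C = C * X := by
  refine ⟨A - (A.trace / 2) • 1, ?_, fun h => hA _ (sub_eq_zero.mp h), ?_, fun X hX => ?_⟩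
  · rw [Matrix.trace_sub, Matrix.trace_smul, Matrix.trace_one, Fintype.card_fin, smul_eq_mul]
    push_cast
    field_simp
    ring
  · rw [sub_mul, mul_sub, smul_mul_assoc, mul_smul_comm, one_mul, mul_one]
  · rw [mul_sub, sub_mul, smul_mul_assoc, mul_smul_comm, one_mul, mul_one, hX]

omit hp [CharP k p] in
/-- At a regular element at most a line is fixed. -/
theorem card_fixPts_le (h2 : (2 : k) ≠ 0) (H : Subgroup G) {g : G} (hg : g ∈ H)
    (hns : ∀ c : k, r g ≠ c • (1 : M₂)) : Nat.card (fixPts H (AdW r)) ≤ Nat.card k := by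
  obtain ⟨C, hC, hC0, -, hcomm⟩ := exists_traceFree h2 hns
  have key : ∀ X : fixPts H (AdW r), ∃ c : k, AdW.val r X.1 = c • C := fun X => by
    refine exists_smul_of_commute h2 X.1.trace_val hC hC0 (hcomm _ ?_)
    have e := congrArg (fun Y => AdW.val r Y * r g) (X.2 ⟨g, hg⟩)
    simp only [Subgroup.smul_def, AdW.val_smul, mul_assoc, rinv_mul, mul_one] at e
    exact e.symm
  choose c hc using key
  exact Nat.card_le_card_of_injective c fun X Y e =>
    Subtype.ext (AdW.val_injective (by rw [hc, hc, e]))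

omit hp [CharP k p] in
/-- An element with nonscalar image fixes a line. -/
theorem card_le_fixPts_zpowers (h2 : (2 : k) ≠ 0) {c : G} (hns : ∀ x : k, r c ≠ x • (1 : M₂)) :
    Nat.card k ≤ Nat.card (fixPts (Subgroup.zpowers c) (AdW r)) := by
  obtain ⟨C, hC, hC0, hCc, -⟩ := exists_traceFree h2 hns
  let X : k → AdW r := fun x => AdW.mk r (x • C) (by rw [Matrix.trace_smul, hC, smul_zero])
  have hfix : ∀ x, c • X x = X x := fun x => AdW.val_injective (by
    rw [AdW.val_smul, AdW.val_mk, mul_smul_comm, ← hCc, smul_mul_assoc, mul_assoc, mul_rinv,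
      mul_one])
  refine Nat.card_le_card_of_injective (fun x => (⟨X x, fun h => ?_⟩ :
    fixPts (Subgroup.zpowers c) (AdW r))) fun x y e => ?_
  · obtain ⟨_, n, rfl⟩ := h
    exact (Subgroup.zpowers_le.mpr (show c ∈ MulAction.stabilizer G (X x) from hfix x) : _ ≤ _)
      ⟨n, rfl⟩
  · exact smul_left_injective k hC0 (congrArg (fun z => AdW.val r z.1) e)

omit [Finite k] hp [CharP k p] in
/-- Without invariant lines the module has no invariants. -/
theorem fixPts_eq_bot (h : ∀ Y : M₂, Y.trace = 0 → (∀ g, r g * Y * r g⁻¹ = Y) → Y = 0) :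
    fixPts G (AdW r) = ⊥ := by
  refine (AddSubgroup.eq_bot_iff_forall _).mpr fun X hX => AdW.val_injective ?_
  rw [map_zero]
  exact h _ X.trace_val fun g => congrArg (AdW.val r) (hX g)

omit hp [CharP k p] in
/-- A matrix with two distinct nonzero eigenvalues in a finite field has order prime to the
characteristic. -/
theorem pow_card_sub_one_eq_one {A : M₂} {α β : k} (hne : α ≠ β) (hα : α ≠ 0) (hβ : β ≠ 0)
    (htr : A.trace = α + β) (hdet : A.det = α * β) : A ^ (Nat.card k - 1) = 1 := by
  have := Fintype.ofFinite k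
  rw [Nat.card_eq_fintype_card]
  set P : Polynomial k := Polynomial.X ^ (Fintype.card k - 1) - 1
  have hc : A.charpoly = (Polynomial.X - Polynomial.C α) * (Polynomial.X - Polynomial.C β) := by
    rw [Matrix.charpoly_fin_two, htr, hdet, map_add, map_mul]
    ring
  have hroot : ∀ x : k, x ≠ 0 → Polynomial.X - Polynomial.C x ∣ P := fun x hx => by
    rw [Polynomial.dvd_iff_isRoot]
    simp [P, FiniteField.pow_card_sub_one_eq_one x hx]
  have hdvd : A.charpoly ∣ P := hc ▸ (Polynomial.isCoprime_X_sub_C_of_isUnit_sub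
    (sub_ne_zero.mpr hne).isUnit).mul_dvd (hroot α hα) (hroot β hβ)
  obtain ⟨Q, hQ⟩ := hdvd
  have e : Polynomial.aeval A P = 0 := by
    rw [hQ, map_mul, Matrix.aeval_self_charpoly, zero_mul]
  simpa [P, sub_eq_zero] using e

end Fermat.Agent.CFT.TWPrimes
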