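import Fermat.Agent.CFT.TWPrimes.Mat

/-!
# Representations irreducible on subgroups of index two
-/

set_option autoImplicit false

noncomputable section

namespace Fermat.Agent.CFT.TWPrimes

open Matrix

variable {G : Type*} [Group G] {k : Type*} [Field k] (r : G →* Matrix (Fin 2) (Fin 2) k)

/-- No line is stable under `r` restricted to `H`. -/
def NoLine (H : Subgroup G) : Prop :=
  ¬∃ w : Fin 2 → k, w ≠ 0 ∧ ∀ g ∈ H, ∃ c : k, r g *ᵥ w = c • w

/-- The hypotheses on the residual representation used for Taylor–Wiles primes. -/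
structure TWHyp : Prop where
  two : (2 : k) ≠ 0
  split : ∀ g, ∃ α β : k, (r g).trace = α + β ∧ (r g).det = α * β
  irred : NoLine r ⊤
  indexTwo : ∀ H : Subgroup G, H.index = 2 → NoLine r H

variable {r}

/-- `r g⁻¹` is the left inverse of `r g`. -/
theorem rinv_mul (g : G) : r g⁻¹ * r g = 1 := by rw [← map_mul, inv_mul_cancel, map_one]

/-- `r g⁻¹` is the right inverse of `r g`. -/
theorem mul_rinv (g : G) : r g * r g⁻¹ = 1 := by rw [← map_mul, mul_inv_cancel, map_one]

/-- The values of `r` have nonzero determinant. -/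
theorem det_ne_zero (g : G) : (r g).det ≠ 0 := fun h => by
  have := congrArg Matrix.det (rinv_mul (r := r) g)
  simp [h] at this

/-- Conjugation by `r g` preserves traces. -/
theorem trace_conj (g : G) (X : Matrix (Fin 2) (Fin 2) k) :
    (r g * X * r g⁻¹).trace = X.trace := by
  rw [Matrix.trace_mul_comm, ← mul_assoc, rinv_mul, one_mul]

variable (hr : TWHyp r)
include hr

/-- The image of a subgroup of index at most two is not commutative. -/
theorem TWHyp.not_commutative {H : Subgroup G} (hH : H = ⊤ ∨ H.index = 2)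
    (hcomm : ∀ a ∈ H, ∀ b ∈ H, r a * r b = r b * r a) : False := by
  have hline : NoLine r H := hH.elim (fun h => h ▸ hr.irred) (hr.indexTwo H)
  by_cases hsc : ∀ g ∈ H, ∃ c : k, r g = c • (1 : Matrix (Fin 2) (Fin 2) k)
  · refine hline ⟨![1, 0], fun h => one_ne_zero (congrFun h 0), fun g hg => ?_⟩
    obtain ⟨c, hc⟩ := hsc g hg
    exact ⟨c, by rw [hc, Matrix.smul_mulVec, Matrix.one_mulVec]⟩
  push Not at hsc
  obtain ⟨a, ha, hns⟩ := hsc
  obtain ⟨α, β, htr, hdet⟩ := hr.split a
  set A := r a - α • (1 : Matrix (Fin 2) (Fin 2) k) with hAdef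
  have hdetA : A.det = 0 := by
    rw [Matrix.trace_fin_two] at htr
    rw [Matrix.det_fin_two] at hdet
    simp [hAdef, Matrix.det_fin_two]
    linear_combination hdet - α * htr
  obtain ⟨w, hw, hAw⟩ := Matrix.exists_mulVec_eq_zero_iff.mpr hdetA
  refine hline ⟨w, hw, fun g hg => exists_smul_of_mulVec_eq_zero
    (fun h => hns α (sub_eq_zero.mp h)) hw ?_ hAw⟩
  have : A * r g = r g * A := by
    simp only [hAdef, sub_mul, mul_sub, smul_mul_assoc, mul_smul_comm, one_mul, mul_one,
      hcomm a ha g hg]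
  rw [Matrix.mulVec_mulVec, this, ← Matrix.mulVec_mulVec, hAw, Matrix.mulVec_zero]

theorem TWHyp.not_commute_nonscalar {H : Subgroup G} (hH : H = ⊤ ∨ H.index = 2)
    {X : Matrix (Fin 2) (Fin 2) k} (hX : ∀ c : k, X ≠ c • 1)
    (h : ∀ g ∈ H, r g * X = X * r g) : False :=
  hr.not_commutative hH fun a ha b hb => commute_of_commute hr.two hX (h a ha) (h b hb)

/-- The adjoint representation has no stable line. -/
theorem TWHyp.no_adjoint_line {Y : Matrix (Fin 2) (Fin 2) k} (hY0 : Y ≠ 0) (hY : Y.trace = 0)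
    (h : ∀ g, ∃ c : k, r g * Y = c • (Y * r g)) : False := by
  by_cases hd : Y.det = 0
  · -- the image of a nilpotent is a stable line
    have hsq := sq_zero_of_trace_det hY hd
    obtain ⟨v, hv⟩ : ∃ v, Y *ᵥ v ≠ 0 := by
      by_contra hne
      push Not at hne
      exact hY0 (Matrix.mulVec_injective.eq_iff.mp (funext fun v => by simp [hne v]))
    refine hr.irred ⟨Y *ᵥ v, hv, fun g _ => exists_smul_of_mulVec_eq_zero hY0 hv ?_ ?_⟩
    · obtain ⟨c, hc⟩ := h g
      rw [Matrix.mulVec_mulVec, Matrix.mulVec_mulVec, mul_assoc Y, hc, mul_smul_comm,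
        ← mul_assoc, hsq, zero_mul, smul_zero, Matrix.zero_mulVec]
    · rw [Matrix.mulVec_mulVec, hsq, Matrix.zero_mulVec]
  · have hsq : ∀ g, r g * Y = Y * r g ∨ r g * Y = -(Y * r g) := fun g => by
      obtain ⟨c, hc⟩ := h g
      have h1 := congrArg Matrix.det hc
      rw [det_mul, det_smul, det_mul, Fintype.card_fin] at h1
      have h2 : c ^ 2 = 1 := mul_right_cancel₀ (mul_ne_zero hd (det_ne_zero g)) (by
        rw [← h1, one_mul, mul_comm])
      rcases sq_eq_one_iff.mp h2 with rfl | rfl
      · exact Or.inl (by rw [hc, one_smul])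
      · exact Or.inr (by rw [hc, neg_one_smul])
    let H : Subgroup G :=
      { carrier := {g | r g * Y = Y * r g}
        one_mem' := by simp
        mul_mem' := fun {a b} ha hb => by
          show r (a * b) * Y = Y * r (a * b)
          rw [map_mul, mul_assoc, show r b * Y = Y * r b from hb, ← mul_assoc,
            show r a * Y = Y * r a from ha, mul_assoc]
        inv_mem' := fun {a} ha => by
          show r a⁻¹ * Y = Y * r a⁻¹
          calc r a⁻¹ * Y = r a⁻¹ * (Y * r a) * r a⁻¹ := by
                rw [mul_assoc, mul_assoc, mul_rinv, mul_one]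
            _ = Y * r a⁻¹ := by
              rw [← show r a * Y = Y * r a from ha, ← mul_assoc, rinv_mul, one_mul] }
    have hsc : ∀ c : k, Y ≠ c • (1 : Matrix (Fin 2) (Fin 2) k) := fun c hc => hY0 (by
      rw [hc, Matrix.trace_smul, Matrix.trace_one, Fintype.card_fin, smul_eq_mul, Nat.cast_ofNat,
        mul_eq_zero] at hY
      rw [hc, hY.resolve_right hr.two, zero_smul])
    by_cases hHt : H = ⊤
    · exact hr.not_commute_nonscalar (H := H) (Or.inl hHt) hsc fun g hg => hg
    refine hr.not_commute_nonscalar (H := H) (Or.inr (Subgroup.index_eq_two_iff.mpr ?_))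
      hsc fun g hg => hg
    obtain ⟨a, ha⟩ := SetLike.exists_not_mem_of_ne_top H hHt rfl
    refine ⟨a, fun b => ?_⟩
    by_cases hb : b ∈ H
    · exact Or.inr ⟨hb, fun hba => ha ((mul_mem_cancel_left hb).mp hba)⟩
    · refine Or.inl ⟨?_, hb⟩
      show r (b * a) * Y = Y * r (b * a)
      rw [map_mul, mul_assoc, (hsq a).resolve_left ha, mul_neg, ← mul_assoc,
        (hsq b).resolve_left hb, neg_mul, neg_neg, mul_assoc]

/-- A nonzero nilpotent has a conjugate with nonzero trace pairing. -/
theorem TWHyp.exists_pair {N : Matrix (Fin 2) (Fin 2) k} (hN0 : N ≠ 0) (hN : N * N = 0) :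
    ∃ g, (N * (r g * N * r g⁻¹)).trace ≠ 0 := by
  by_contra hne
  push Not at hne
  obtain ⟨v, hv⟩ : ∃ v, N *ᵥ v ≠ 0 := by
    by_contra h
    push Not at h
    exact hN0 (Matrix.mulVec_injective.eq_iff.mp (funext fun v => by simp [h v]))
  refine hr.irred ⟨N *ᵥ v, hv, fun g _ => exists_smul_of_mulVec_eq_zero hN0 hv ?_ ?_⟩
  swap
  · rw [Matrix.mulVec_mulVec, hN, Matrix.zero_mulVec]
  have h1 : (r g).det • r g⁻¹ = (r g).trace • 1 - r g := by
    have h := congrArg (fun Z => Z * r g⁻¹) (mul_self_eq (r g))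
    simp only [sub_mul, smul_mul_assoc, one_mul, mul_assoc, mul_rinv, mul_one] at h
    exact eq_sub_of_add_eq' (eq_sub_iff_add_eq.mp h)
  have h2 : (r g * N).trace = 0 := by
    have h3 : (N * (r g * N * ((r g).det • r g⁻¹))).trace = 0 := by
      rw [mul_smul_comm, mul_smul_comm, Matrix.trace_smul, hne g, smul_zero]
    rw [h1] at h3
    have h4 : N * (r g * N * ((r g).trace • 1 - r g)) =
        (r g).trace • (N * r g * N) - N * r g * N * r g := by
      simp only [mul_sub, mul_smul_comm, mul_one, mul_assoc]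
    rw [h4, sandwich hN, smul_mul_assoc, Matrix.trace_sub, Matrix.trace_smul, Matrix.trace_smul,
      Matrix.trace_smul, trace_eq_zero_of_sq hN, smul_zero, smul_zero, zero_sub, neg_eq_zero,
      Matrix.trace_mul_comm N, smul_eq_mul, mul_self_eq_zero] at h3
    exact h3
  rw [Matrix.mulVec_mulVec, Matrix.mulVec_mulVec, sandwich hN, h2, zero_smul,
    Matrix.zero_mulVec]

end Fermat.Agent.CFT.TWPrimes
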