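import Mathlib.Tactic

/-!
# Identities between two by two matrices
-/

set_option autoImplicit false

noncomputable section

namespace Fermat.Agent.CFT.TWPrimes

open Matrix

variable {k : Type*} [Field k]

local notation "M₂" => Matrix (Fin 2) (Fin 2) k

/-- Cayley–Hamilton for two by two matrices. -/
theorem mul_self_eq (A : M₂) : A * A = A.trace • A - A.det • 1 := by
  ext i j
  fin_cases i <;> fin_cases j <;>
    simp [Matrix.mul_apply, Fin.sum_univ_two, Matrix.trace_fin_two, Matrix.det_fin_two] <;> ring

/-- The polarised Cayley–Hamilton identity. -/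
theorem polar (A B : M₂) : A * B + B * A =
    A.trace • B + B.trace • A + ((A * B).trace - A.trace * B.trace) • (1 : M₂) := by
  ext i j
  fin_cases i <;> fin_cases j <;>
    simp [Matrix.mul_apply, Fin.sum_univ_two, Matrix.trace_fin_two] <;> ring

/-- A matrix of square zero has trace zero. -/
theorem trace_eq_zero_of_sq {N : M₂} (h : N * N = 0) : N.trace = 0 := by
  have : IsNilpotent N := ⟨2, by rw [pow_two, h]⟩
  exact (Matrix.isNilpotent_trace_of_isNilpotent this).eq_zero

theorem det_eq_zero_of_sq {N : M₂} (h : N * N = 0) : N.det = 0 := by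
  have := congrArg Matrix.det h
  rw [det_mul, det_zero, mul_self_eq_zero] at this
  exact this

theorem sq_zero_of_trace_det {N : M₂} (ht : N.trace = 0) (hd : N.det = 0) : N * N = 0 := by
  rw [mul_self_eq, ht, hd, zero_smul, zero_smul, sub_zero]

/-- For `N² = 0`, `N X N = tr(X N) N`. -/
theorem sandwich {N : M₂} (h : N * N = 0) (X : M₂) : N * X * N = (X * N).trace • N := by
  have h1 := polar X N
  have h2 := congrArg (fun Y => N * Y) h1
  simp only [mul_add, mul_smul_comm, mul_one, h, trace_eq_zero_of_sq h, ← mul_assoc, zero_mul,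
    mul_zero, sub_zero, smul_zero, add_zero, zero_smul, zero_add] at h2
  exact h2

/-- `(1 + N) ^ n = 1 + n N` for `N² = 0`. -/
theorem pow_one_add {N : M₂} (h : N * N = 0) (n : ℕ) : (1 + N) ^ n = 1 + (n : k) • N := by
  induction n with
  | zero => simp
  | succ n ih =>
    rw [pow_succ, ih]
    push_cast
    simp only [mul_add, add_mul, smul_mul_assoc, h, smul_zero, add_zero, mul_one, one_mul,
      add_smul, one_smul]
    abel

/-- The trace of `(1 + a N) (1 + b M)` for trace zero `N` and `M`. -/
theorem trace_one_add_mul {N M : M₂} (hN : N.trace = 0) (hM : M.trace = 0) (a b : k) :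
    ((1 + a • N) * (1 + b • M)).trace = 2 + a * b * (N * M).trace := by
  simp [mul_add, add_mul, Matrix.trace_add, Matrix.trace_smul, hN, hM, Matrix.trace_one]
  ring

/-- Two trace zero matrices that commute are proportional. -/
theorem exists_smul_of_commute (h2 : (2 : k) ≠ 0) {Y C : M₂} (hY : Y.trace = 0)
    (hC : C.trace = 0) (hC0 : C ≠ 0) (h : Y * C = C * Y) : ∃ c : k, Y = c • C := by
  rw [Matrix.trace_fin_two] at hY hC
  have hY' : Y 1 1 = -Y 0 0 := by linear_combination hY
  have hC' : C 1 1 = -C 0 0 := by linear_combination hC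
  have e00 := congrFun (congrFun h 0) 0
  have e01 := congrFun (congrFun h 0) 1
  have e10 := congrFun (congrFun h 1) 0
  simp only [Matrix.mul_apply, Fin.sum_univ_two, hY', hC'] at e00 e01 e10
  have f01 : Y 0 0 * C 0 1 = Y 0 1 * C 0 0 := by
    refine mul_left_cancel₀ h2 ?_
    linear_combination e01
  have f10 : Y 0 0 * C 1 0 = Y 1 0 * C 0 0 := by
    refine mul_left_cancel₀ h2 ?_
    linear_combination -e10
  by_cases he : C 0 0 = 0
  · by_cases hf : C 0 1 = 0
    · have hg : C 1 0 ≠ 0 := fun hg => hC0 (by
        ext i j; fin_cases i <;> fin_cases j <;> simp [he, hf, hg, hC'])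
      refine ⟨Y 1 0 / C 1 0, ?_⟩
      ext i j
      fin_cases i <;> fin_cases j <;> simp [hY', hC', he, hf] <;> grind
    · refine ⟨Y 0 1 / C 0 1, ?_⟩
      ext i j
      fin_cases i <;> fin_cases j <;> simp [hY', hC', he] <;> grind
  · refine ⟨Y 0 0 / C 0 0, ?_⟩
    ext i j
    fin_cases i <;> fin_cases j <;> simp [hY', hC'] <;> grind

/-- Matrices commuting with a given nonscalar matrix commute with each other. -/
theorem commute_of_commute (h2 : (2 : k) ≠ 0) {A B X : M₂} (hX : ∀ c : k, X ≠ c • (1 : M₂))
    (hA : A * X = X * A) (hB : B * X = X * B) : A * B = B * A := by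
  set t : M₂ → M₂ := fun Z => Z - (Z.trace / 2) • (1 : M₂) with ht
  have htr : ∀ Z, (t Z).trace = 0 := fun Z => by
    simp only [ht, Matrix.trace_sub, Matrix.trace_smul, Matrix.trace_one, Fintype.card_fin,
      smul_eq_mul]
    field_simp
    ring
  have hX0 : t X ≠ 0 := fun h => hX _ (sub_eq_zero.mp h)
  have hcomm : ∀ Z, Z * X = X * Z → ∃ a b : k, Z = a • (1 : M₂) + b • t X := fun Z hZ => by
    obtain ⟨c, hc⟩ := exists_smul_of_commute h2 (htr Z) (htr X) hX0 (by
      simp only [ht, sub_mul, mul_sub, smul_mul_assoc, mul_smul_comm, one_mul, mul_one, hZ]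
      module)
    exact ⟨Z.trace / 2, c, by rw [← hc]; simp [ht]⟩
  obtain ⟨a, b, rfl⟩ := hcomm A hA
  obtain ⟨a', b', rfl⟩ := hcomm B hB
  simp only [add_mul, mul_add, smul_mul_assoc, mul_smul_comm, one_mul, mul_one]
  module

/-- The kernel of a nonzero matrix is at most a line. -/
theorem exists_smul_of_mulVec_eq_zero {N : M₂} (hN : N ≠ 0) {z w : Fin 2 → k} (hw : w ≠ 0)
    (hz : N *ᵥ z = 0) (hw' : N *ᵥ w = 0) : ∃ c : k, z = c • w := by
  have hdet : z 0 * w 1 = z 1 * w 0 := by
    by_contra hne
    refine hN ?_
    ext i j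
    have a := congrFun hz i
    have b := congrFun hw' i
    simp only [Matrix.mulVec, dotProduct, Fin.sum_univ_two, Pi.zero_apply] at a b
    have hne' : z 0 * w 1 - z 1 * w 0 ≠ 0 := sub_ne_zero.mpr hne
    fin_cases j <;> simp only [Fin.zero_eta, Fin.mk_one, Matrix.zero_apply, Fin.isValue]
    · refine (mul_eq_zero.mp ?_).resolve_right hne'
      linear_combination (w 1) * a - (z 1) * b
    · refine (mul_eq_zero.mp ?_).resolve_right hne'
      linear_combination (z 0) * b - (w 0) * a
  by_cases h0 : w 0 = 0
  · have h1 : w 1 ≠ 0 := fun h1 => hw (by ext i; fin_cases i <;> simp [h0, h1])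
    refine ⟨z 1 / w 1, ?_⟩
    ext i
    fin_cases i <;> simp [h0, h1]
    grind
  · refine ⟨z 0 / w 0, ?_⟩
    ext i
    fin_cases i <;> simp [h0]
    grind

/-- Trace zero matrices anticommute iff orthogonal. -/
theorem anticomm_of_orth {A B : M₂} (hA : A.trace = 0) (hB : B.trace = 0)
    (h : (A * B).trace = 0) : A * B = -(B * A) := by
  have := polar A B
  rw [hA, hB, h, zero_smul, zero_smul, zero_mul, sub_zero, zero_smul, add_zero, add_zero] at this
  exact eq_neg_of_add_eq_zero_left this

/-- Expansion of a trace zero matrix in the basis attached to two opposite nilpotents. -/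
theorem decomp {N M : M₂} (hN : N * N = 0) (hM : M * M = 0) (hNM : (N * M).trace = 1)
    {P : M₂} (hP : P.trace = 0) :
    P = (P * M).trace • N + (P * N).trace • M + (P * (N * M)).trace • (N * M - M * N) := by
  have hone : N * M + M * N = 1 := by
    rw [polar, trace_eq_zero_of_sq hN, trace_eq_zero_of_sq hM, hNM]
    simp
  have hMN : (M * N).trace = 1 := by rw [Matrix.trace_mul_comm, hNM]
  have hsum : (P * (N * M)).trace + (P * (M * N)).trace = 0 := by
    rw [← Matrix.trace_add, ← mul_add, hone, mul_one, hP]
  have a : N * M * P * (N * M) = (P * (N * M)).trace • (N * M) := by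
    rw [show N * M * P * (N * M) = N * (M * P) * N * M by simp only [mul_assoc], sandwich hN,
      smul_mul_assoc, mul_assoc, Matrix.trace_mul_comm, mul_assoc]
  have b : N * M * P * (M * N) = (P * M).trace • N := by
    rw [show N * M * P * (M * N) = N * (M * P * M) * N by simp only [mul_assoc], sandwich hM,
      mul_smul_comm, smul_mul_assoc, sandwich hN, hMN, one_smul]
  have c : M * N * P * (N * M) = (P * N).trace • M := by
    rw [show M * N * P * (N * M) = M * (N * P * N) * M by simp only [mul_assoc], sandwich hN,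
      mul_smul_comm, smul_mul_assoc, sandwich hM, hNM, one_smul]
  have d : M * N * P * (M * N) = (P * (M * N)).trace • (M * N) := by
    rw [show M * N * P * (M * N) = M * (N * P) * M * N by simp only [mul_assoc], sandwich hM,
      smul_mul_assoc, mul_assoc, Matrix.trace_mul_comm, mul_assoc]
  calc P = (N * M + M * N) * P * (N * M + M * N) := by rw [hone, one_mul, mul_one]
    _ = _ := by
      rw [add_mul, add_mul, mul_add, mul_add, a, b, c, d, smul_sub,
        eq_neg_of_add_eq_zero_right hsum, neg_smul]
      abel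

end Fermat.Agent.CFT.TWPrimes
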