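import Fermat.Agent.CFT.TWPrimes.Bound
import Fermat.Agent.CFT.TWPrimes.Residual
import Fermat.Agent.CFT.Tangent.Classes
import Fermat.Agent.CFT.Tangent.BaseChange
import Fermat.Agent.CFT.Tangent.LocalBounds

/-!
# Taylor–Wiles primes with a bound on the generators of the deformation ring

For a condition at `p` of local defect at most one there are Taylor–Wiles primes at every depth
whose deformation ring is a quotient of `𝒪[[X₁, …, X_r]]` (`exists_primes_surjective`):

1. `hasSelmerBound` (`Bound`, on the primes of `Main`) gives `r` and, at each depth, the primes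
   with a bound on spaces of trace-zero classes in terms of local dimensions.
2. The tangent classes of the deformation ring form such a space, and once its dimension is at
   most `r` the ring is generated by `r` elements (`exists_tangent_classes`).
3. Their local bounds: defect `0` at the primes where they are unramified or unipotent on inertia,
   and at most `1` at `p`, by hypothesis (for S56, `CFT/Tangent/FlatBound` and
   `CFT/Tangent/OrdinaryBound`).
-/

set_option autoImplicit false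

noncomputable section

namespace Fermat.Agent.CFT.TWPrimes

open Fermat.Agent.Deform Fermat.Agent.CFT.Tangent Fermat.Agent.Arith Module IsLocalRing

section Conditions

variable {k : Type} [Field k]

/-- Restriction to the inertia group of the chosen place detects ramification. -/
theorem exists_inertia_ne_one {ρ : ResidualGaloisRep k} (b : Basis (Fin 2) k ρ.V) {q : ℕ}
    [Fact q.Prime] (h : ¬ ρ.IsUnramifiedAt q) :
    ∃ τ ∈ (padicPlace q).inertiaSubgroupIn ℚ, matRes ρ b τ ≠ 1 := by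
  by_contra hc
  push Not at hc
  refine h fun P hP σ hσ => ?_
  obtain ⟨g, rfl⟩ := exists_smul_eq (Local.padicPlace_liesOverPrime q) hP (Fact.out : q.Prime)
  have hmem : g⁻¹ * σ * g ∈ (padicPlace q).inertiaSubgroupIn ℚ := by
    rw [← mem_inertia_smul_iff (g := g)]
    simpa [mul_assoc] using hσ
  have h1 : matRes ρ b σ = 1 := by
    rw [show σ = g * (g⁻¹ * σ * g) * g⁻¹ by group, map_mul, map_mul, hc _ hmem, mul_one, ← map_mul,
      mul_inv_cancel, map_one]
  exact (LinearMap.toMatrixAlgEquiv b).injective (h1.trans (map_one _).symm)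

theorem matRes_eq_one {ρ : ResidualGaloisRep k} (b : Basis (Fin 2) k ρ.V) {q : ℕ} [Fact q.Prime]
    (h : ρ.IsUnramifiedAt q) {τ : Gal} (hτ : τ ∈ (padicPlace q).inertiaSubgroupIn ℚ) :
    matRes ρ b τ = 1 := by
  show LinearMap.toMatrixAlgEquiv b (ρ.ρ τ) = 1
  rw [h _ (Local.padicPlace_liesOverPrime q) τ hτ, map_one]

/-- An unramified lift has tangent class zero on inertia. -/
theorem eq_zero_of_lift_eq_one {r : Gal →* M2 k} {b : Gal → M2 k}
    {ρ : GaloisRepAdic (DualNumber k)} {B : Basis (Fin 2) (DualNumber k) ρ.V}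
    (hB : ∀ σ, matOf ρ B σ = (1 + epsM (b σ)) * inlM (r σ)) {σ : Gal} (hr : r σ = 1)
    (h : ρ.ρ σ = 1) : b σ = 0 := by
  have e := congrArg sndM (hB σ)
  rw [show matOf ρ B σ = 1 by
    show LinearMap.toMatrixAlgEquiv B (ρ.ρ σ) = 1
    rw [h, map_one], hr] at e
  simpa using e.symm

/-- An unramified lift, if the class is non-zero, makes it vanish on inertia. -/
private theorem eq_zero_of_unramified_lift {r : Gal →* M2 k} {b : Gal → M2 k} {q : ℕ}
    [Fact q.Prime]
    (h : b ≠ 0 → ∃ (ρ : GaloisRepAdic (DualNumber k)) (B : Basis (Fin 2) (DualNumber k) ρ.V),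
      ρ.IsUnramifiedAt q ∧ ∀ σ, matOf ρ B σ = (1 + epsM (b σ)) * inlM (r σ))
    {τ : Gal} (hτ : τ ∈ (padicPlace q).inertiaSubgroupIn ℚ) (hr : r τ = 1) : b τ = 0 := by
  by_cases hb0 : b = 0
  · rw [hb0]; rfl
  obtain ⟨ρ, B, hρ, hB⟩ := h hb0
  exact eq_zero_of_lift_eq_one hB hr (hρ _ (Local.padicPlace_liesOverPrime q) τ hτ)

/-- A lift with cyclotomic determinant, if the class is non-zero, makes it trace-zero. -/
private theorem trace_eq_zero_of_lift (p : ℕ) [Fact p.Prime] [CharP k p] [Finite k]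
    {r : Gal →* M2 k} {b : Gal → M2 k}
    (h : b ≠ 0 → ∃ (ρ : GaloisRepAdic (DualNumber k)) (B : Basis (Fin 2) (DualNumber k) ρ.V),
      ρ.DetIsCyclotomic p ∧ ∀ σ, matOf ρ B σ = (1 + epsM (b σ)) * inlM (r σ))
    (σ : Gal) : (b σ).trace = 0 := by
  by_cases hb0 : b = 0
  · rw [hb0]; simp
  obtain ⟨ρ, B, hρ, hB⟩ := h hb0
  exact trace_eq_zero_of_det p hρ hB σ

/-- The residual and tangent invariants of a unipotent lift. -/
theorem trace_det_of_unipotent {r : Gal →* M2 k} {b : Gal → M2 k}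
    {ρ : GaloisRepAdic (DualNumber k)} {B : Basis (Fin 2) (DualNumber k) ρ.V}
    (hB : ∀ σ, matOf ρ B σ = (1 + epsM (b σ)) * inlM (r σ)) {σ : Gal}
    (h : LinearMap.charpoly (ρ.ρ σ) = (Polynomial.X - 1) ^ 2) :
    (r σ).trace = 2 ∧ (r σ).det = 1 ∧ (b σ * r σ).trace = 0 := by
  have hchar : (matOf ρ B σ).charpoly = (Polynomial.X - 1) ^ 2 := by
    rw [← h, ← LinearMap.charpoly_toMatrix (ρ.ρ σ) B]
    rfl
  rw [Matrix.charpoly_fin_two] at hchar
  have h0 : (matOf ρ B σ).det = 1 := by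
    have e := congrArg (fun P => Polynomial.eval 0 P) hchar
    simpa using e
  have h1 : (matOf ρ B σ).trace = 2 := by
    have e := congrArg (fun P => Polynomial.eval 1 P) hchar
    simp [h0] at e
    linear_combination -e
  have hf : fstM (matOf ρ B σ) = r σ := by rw [hB]; simp
  have hs : sndM (matOf ρ B σ) = b σ * r σ := by rw [hB]; simp
  have t1 := congrArg TrivSqZeroExt.fst h1
  have t2 := congrArg TrivSqZeroExt.snd h1
  have d1 := congrArg TrivSqZeroExt.fst h0
  rw [← hs, ← hf]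
  refine ⟨?_, ?_, ?_⟩
  · simpa [Matrix.trace_fin_two, ← one_add_one_eq_two] using t1
  · simpa [Matrix.det_fin_two] using d1
  · simpa [Matrix.trace_fin_two, ← one_add_one_eq_two] using t2

/-- The local bound at a prime where `r` ramifies and all lifts are unipotent on inertia. -/
private theorem finrank_le_of_unipotent_lifts (p : ℕ) [Fact p.Prime] [Finite k] [CharP k p]
    (h2 : (2 : k) ≠ 0) {q : ℕ} [Fact q.Prime] (hqp : q ≠ p) {r : Gal →* M2 k}
    (hr : GaloisFactorsThroughFiniteLevel r) (V : Submodule k (Gal → M2 k)) [Module.Finite k V]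
    (hcoc : ∀ b ∈ V, IsAdCocycle r b) (hlev : ∀ b ∈ V, IsFiniteLevel b)
    (htr : ∀ b ∈ V, ∀ σ, (b σ).trace = 0)
    (hne : ∃ τ ∈ (padicPlace q).inertiaSubgroupIn ℚ, r τ ≠ 1)
    (hlift : ∀ b ∈ V, b ≠ 0 → ∃ (ρ : GaloisRepAdic (DualNumber k))
      (B : Basis (Fin 2) (DualNumber k) ρ.V), ρ.IsUnipotentOnInertiaAt q ∧
        ∀ σ, matOf ρ B σ = (1 + epsM (b σ)) * inlM (r σ)) :
    finrank k V ≤ finrank k (V ⊓ cobdOn r ((padicPlace q).decompositionSubgroup ℚ) :
        Submodule k (Gal → M2 k)) +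
      finrank k (fixedOn r ((padicPlace q).decompositionSubgroup ℚ)) := by
  rcases eq_or_ne V ⊥ with hV0 | hV0
  · rw [hV0, finrank_bot]
    exact Nat.zero_le _
  obtain ⟨b₀, hb₀, hb₀ne⟩ := Submodule.exists_mem_ne_zero_of_ne_bot hV0
  refine finrank_le_unipotent p h2 hqp hr V hcoc hlev htr (fun τ hτ => ?_) hne fun b hb τ hτ => ?_
  · obtain ⟨ρ, B, hρ, hB⟩ := hlift b₀ hb₀ hb₀ne
    obtain ⟨h1, h3, -⟩ := trace_det_of_unipotent hB
      (hρ _ (Local.padicPlace_liesOverPrime q) τ hτ)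
    exact ⟨h1, h3⟩
  · by_cases hb0 : b = 0
    · rw [hb0]; simp
    obtain ⟨ρ, B, hρ, hB⟩ := hlift b hb hb0
    exact (trace_det_of_unipotent hB (hρ _ (Local.padicPlace_liesOverPrime q) τ hτ)).2.2

end Conditions

variable {𝒪 : Type} [CommRing 𝒪] [IsDomain 𝒪] [IsDiscreteValuationRing 𝒪]
  [IsAdicComplete (maximalIdeal 𝒪) 𝒪] [Finite (ResidueField 𝒪)]

/-- Taylor–Wiles primes: let `p` be odd and `ρbar` absolutely irreducible with cyclotomic
determinant, split characteristic polynomials and no stable line for a subgroup of index two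
(`hTW`). For a condition at `p` with local defect at most one there is an `r` such that at every
depth there are `r` primes whose deformation ring is a quotient of `𝒪[[X₁, …, X_r]]`. -/
theorem exists_primes_surjective (p : ℕ) [Fact p.Prime] (hp2 : p ≠ 2)
    (hp𝒪 : (p : 𝒪) ∈ maximalIdeal 𝒪) (ρbar : ResidualGaloisRep (ResidueField 𝒪))
    (habs : ρbar.IsAbsolutelyIrreducible)
    (hdet : (GaloisRepAdic.ofResidualGaloisRep ρbar).DetIsCyclotomic p)
    (hsplit : ∀ σ : Gal, ∃ α β : ResidueField 𝒪, LinearMap.charpoly (ρbar.ρ σ) =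
      (Polynomial.X - Polynomial.C α) * (Polynomial.X - Polynomial.C β))
    (hTW : ∀ (K : Type) [Field K] [Algebra (ResidueField 𝒪) K] (G : Subgroup Gal), G.index = 2 →
      ∀ V : Submodule K (ρbar.baseChange K).V,
        (∀ σ ∈ G, ∀ x ∈ V, (ρbar.baseChange K).ρ σ x ∈ V) → V = ⊥ ∨ V = ⊤)
    (S Smin : Finset ℕ) (hpSmin : p ∈ Smin) (hSmin : Smin ⊆ S) (hS : ∀ q ∈ S, q.Prime)
    (hmin : ∀ q : ℕ, q.Prime → q ≠ p → (q ∈ Smin ↔ ¬ ρbar.IsUnramifiedAt q))
    (C : ∀ ⦃A : Type⦄ [CommRing A] [IsLocalRing A], GaloisRepAdic A → Prop)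
    (hC : ∀ {A B : Type} [CommRing A] [IsLocalRing A] [CommRing B] [IsLocalRing B]
      (φ : A →+* B) (hφ : IsLocalHom φ) (ρ : GaloisRepAdic A), Function.Surjective φ → C ρ →
        C (ρ.baseChangeAlong φ hφ))
    (hlocal : ∀ (bb : Basis (Fin 2) (ResidueField 𝒪) ρbar.V)
      (V : Submodule (ResidueField 𝒪) (Gal → M2 (ResidueField 𝒪))),
      Module.Finite (ResidueField 𝒪) V → (∀ b ∈ V, IsAdCocycle (matRes ρbar bb) b) →
      (∀ b ∈ V, IsFiniteLevel b) → (∀ b ∈ V, ∀ σ, (b σ).trace = 0) →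
      (∀ b ∈ V, b ≠ 0 → ∃ (ρ : GaloisRepAdic (DualNumber (ResidueField 𝒪)))
        (B : Basis (Fin 2) (DualNumber (ResidueField 𝒪)) ρ.V), C ρ ∧ ρ.DetIsCyclotomic p ∧
          ∀ σ, matOf ρ B σ = (1 + epsM (b σ)) * inlM (matRes ρbar bb σ)) →
      finrank (ResidueField 𝒪) V ≤
        finrank (ResidueField 𝒪) (V ⊓ cobdOn (matRes ρbar bb)
          ((padicPlace p).decompositionSubgroup ℚ) : Submodule _ (Gal → M2 (ResidueField 𝒪))) +
        finrank (ResidueField 𝒪)
          (fixedOn (matRes ρbar bb) ((padicPlace p).decompositionSubgroup ℚ)) + 1) :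
    ∃ r : ℕ, ∀ n : ℕ, ∃ qv : Fin r → ℕ, Function.Injective qv ∧
      (∀ i, (qv i).Prime ∧ qv i ∉ S ∧ p ^ (n + 1) ∣ qv i - 1) ∧
      (∀ i, ∀ P : ValuationSubring QBar, P.LiesOverPrime (qv i) →
        ∀ φ : Gal, P.IsFrobeniusAt φ (qv i) → ∃ α β : ResidueField 𝒪, α ≠ β ∧
          LinearMap.charpoly (ρbar.ρ φ) =
            (Polynomial.X - Polynomial.C α) * (Polynomial.X - Polynomial.C β)) ∧
      ∀ DQ : GaloisRep.DeformationRingData 𝒪 ρbar (fun _A _ _ _ ρ =>
          (ρ.DetIsCyclotomic p ∧ C ρ ∧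
            ∀ q : ℕ, q.Prime → q ∉ Smin ∪ Finset.univ.image qv → ρ.IsUnramifiedAt q) ∧
            ∀ q ∈ Smin, q.Prime → q ≠ p → ρ.IsUnipotentOnInertiaAt q),
        ∃ γ : MvPowerSeries (Fin r) 𝒪 →ₐ[𝒪] DQ.R, Function.Surjective γ := by
  classical
  have hpk : (p : ResidueField 𝒪) = 0 := by
    rw [← map_natCast (residue 𝒪), residue_eq_zero_iff]
    exact hp𝒪
  have : CharP (ResidueField 𝒪) p := (CharP.charP_iff_prime_eq_zero Fact.out).mpr hpk
  have h2 : (2 : ResidueField 𝒪) ≠ 0 := fun h =>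
    hp2 ((Nat.prime_dvd_prime_iff_eq Fact.out Nat.prime_two).mp
      ((CharP.cast_eq_zero_iff (ResidueField 𝒪) p 2).mp (by simpa using h)))
  -- the residual representation as matrices
  let bb := Module.finBasisOfFinrankEq (ResidueField 𝒪) ρbar.V ρbar.finrank_eq
  set r := matRes ρbar bb with hr
  have hfin : GaloisFactorsThroughFiniteLevel r := finiteLevel_matRes ρbar bb
  have hcyc : ∀ (σ : Gal) (a : ℕ), (∀ μ : QBar, μ ^ p = 1 → σ μ = μ ^ a) →
      (r σ).det = (a : ResidueField 𝒪) := det_matRes_of_detIsCyclotomic ρbar bb p hdet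
  have hunr : ∀ (q : ℕ) [Fact q.Prime], q ∉ Smin →
      ∀ τ ∈ (padicPlace q).inertiaSubgroupIn ℚ, r τ = 1 := fun q _ hq τ hτ => by
    refine matRes_eq_one bb ?_ hτ
    by_contra h
    have hqp : q ≠ p := fun e => hq (e ▸ hpSmin)
    exact hq ((hmin q Fact.out hqp).mpr h)
  -- the Selmer bound supplies `r₀` and, at depth `n`, the primes `qv`
  obtain ⟨r₀, hr₀⟩ := hasSelmerBound hp2
    (twHyp_matRes ρbar bb h2 habs hsplit (hTW (ResidueField 𝒪))) hfin hcyc S (hSmin hpSmin) hS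
    (fun q _ hq => hunr q fun h => hq (hSmin h))
  refine ⟨r₀, fun n => ?_⟩
  obtain ⟨qv, hinj, hqv, hfrob, hbound⟩ := hr₀ r₀ le_rfl n
  refine ⟨qv, hinj, hqv, fun i P hP φ hφ => ?_, fun DQ => ?_⟩
  · obtain ⟨-, -, α, β, hne, he⟩ := hfrob i P hP φ hφ
    refine ⟨α, β, hne, ?_⟩
    rw [← he, ← LinearMap.charpoly_toMatrix (ρbar.ρ φ) bb]
    rfl
  -- it suffices to bound the tangent classes `V` of the deformation ring
  obtain ⟨V, hVfin, hVsurj, hV, hVcobd⟩ := exists_tangent_classes DQ bb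
    fun A _ _ _ φ hφ hsurj =>
      ⟨⟨DetIsCyclotomic.baseChange _ hφ DQ.isOfType.1.1, hC _ hφ _ hsurj DQ.isOfType.1.2.1,
        fun q hq hqS => IsUnramifiedAt.baseChange _ hφ (DQ.isOfType.1.2.2 q hq hqS)⟩,
        fun q hq hqP hqp => IsUnipotentOnInertiaAt.baseChange _ hφ (DQ.isOfType.2 q hq hqP hqp)⟩
  refine hVsurj r₀ ?_
  -- they are trace-zero cocycles, unramified outside `Smin` and the `qv i`
  have hcoc : ∀ b ∈ V, IsAdCocycle r b := fun b hb => (hV b hb).1
  have hlev : ∀ b ∈ V, IsFiniteLevel b := fun b hb => (hV b hb).2.1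
  have hcls : ∀ b ∈ V, b ≠ 0 → _ := fun b hb => (hV b hb).2.2
  have htr : ∀ b ∈ V, ∀ σ, (b σ).trace = 0 := fun b hb =>
    trace_eq_zero_of_lift p fun hb0 => (hcls b hb hb0).imp fun ρ ⟨B, hρ, hB⟩ => ⟨B, hρ.1.1, hB⟩
  have hunrV : ∀ (q : ℕ) [Fact q.Prime], q ∉ Smin → (∀ i, qv i ≠ q) →
      ∀ b ∈ V, ∀ τ ∈ (padicPlace q).inertiaSubgroupIn ℚ, b τ = 0 := fun q _ hq hqi b hb τ hτ =>
    eq_zero_of_unramified_lift (fun hb0 => (hcls b hb hb0).imp fun ρ ⟨B, hρ, hB⟩ =>
      ⟨B, hρ.1.2.2 q Fact.out (by simpa [Finset.mem_union, hq] using hqi), hB⟩) hτ (hunr q hq τ hτ)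
  -- the bound needs local defect `1` at `p` and `0` at the other primes of `S`
  have hsum := hbound V hVfin hcoc hlev htr hVcobd
    (fun q _ hq => hunrV q fun h => hq (hSmin h)) (fun _ => 0) (fun q => if q = p then 1 else 0) ?_
  · rw [Finset.sum_const_zero, Finset.sum_ite_eq', if_pos (hSmin hpSmin)] at hsum
    omega
  intro q _ hqS
  show _ + 0 ≤ _
  rw [add_zero]
  rcases eq_or_ne q p with rfl | hqp
  -- at `p` this is the hypothesis on the condition
  · rw [if_pos rfl]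
    refine hlocal bb V hVfin hcoc hlev htr fun b hb hb0 => ?_
    obtain ⟨ρ, B, hρ, hB⟩ := hcls b hb hb0
    exact ⟨ρ, B, hρ.1.2.1, hρ.1.1, hB⟩
  rw [if_neg hqp, add_zero]
  -- elsewhere the classes are unramified outside `Smin` and unipotent on inertia in it
  by_cases hqmin : q ∈ Smin
  swap
  · exact finrank_le_unramified hfin V hcoc hlev htr (hunr q hqmin)
      (hunrV q hqmin fun i h => (hqv i).2.1 (h ▸ hqS))
  refine finrank_le_of_unipotent_lifts p h2 hqp hfin V hcoc hlev htr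
    (exists_inertia_ne_one bb ((hmin q Fact.out hqp).mp hqmin)) fun b hb hb0 => ?_
  obtain ⟨ρ, B, hρ, hB⟩ := hcls b hb hb0
  exact ⟨ρ, B, hρ.2 q hqmin Fact.out hqp, hB⟩

end Fermat.Agent.CFT.TWPrimes
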