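import Fermat.Agent.CFT.TWPrimes.Detect
import Fermat.Agent.Arith.Chebotarev.Main
import Fermat.Prelude.Def_GaloisRep_Residual

/-!
# Taylor–Wiles primes

`exists_taylorWilesPrimes_padded`: finitely many cocycles independent modulo coboundaries are
detected by Frobenius elements at as many primes `q ≡ 1` modulo `p ^ (n + 1)` at which the
representation is unramified with Frobenius of distinct eigenvalues and determinant one, and any
number of further such primes can be added. `CFT/TWPrimes/Bound` applies it to the cocycles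
detecting a Selmer group. The proof:

1. The representation, the cocycles and the character `χ` on the roots of unity of order
   `p ^ (n + 1)` factor through a finite Galois level `L'` (`exists_commonLevel`).
2. On the kernel of `χ` the determinant is one and the quotient is abelian, so it has regular
   elements (trace squared `≠ 4`) detecting the cocycles, and one more for the padding
   (`exists_detecting_family` and `TWHyp.exists_regular` in `CFT/TWPrimes/Detect`).
3. By Chebotarev (`Arith/Chebotarev/Main`) these elements are, in `Gal(L'/ℚ)`, Frobenius elements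
   at distinct primes outside `S` which are unramified in `L'`.
4. At such a prime every Frobenius is conjugate to the chosen element up to inertia, so has its
   determinant and trace, hence distinct eigenvalues, and the same values of the trace functions of
   the cocycles up to one factor (`values_at_frobenius`); `χ = 1` on it gives the congruence.

## References

* R. Taylor, A. Wiles, *Ring-theoretic properties of certain Hecke algebras*, Ann. of Math. (1995).
* H. Darmon, F. Diamond, R. Taylor, *Fermat's Last Theorem* (1995).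

The Euler characteristic count behind the Selmer bound is made at finite levels (`CFT/Euler`).
-/

set_option autoImplicit false

noncomputable section

namespace Fermat.Agent.CFT.TWPrimes

open Matrix
open Fermat.Agent.Arith Fermat.Agent.Arith.Density Fermat.Agent.Arith.Chebotarev
open scoped Classical

/-! ## Choosing distinct primes -/

/-- Distinct choices from infinitely many candidates. -/
theorem exists_injOn_choice {ι : Type*} {P : ι → ℕ → Prop}
    (h : ∀ (i : ι) (S : Finset ℕ), ∃ q, q ∉ S ∧ P i q) (F : Finset ι) :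
    ∀ S : Finset ℕ, ∃ q : ι → ℕ, (∀ i ∈ F, P i (q i) ∧ q i ∉ S) ∧ Set.InjOn q F := by
  induction F using Finset.induction_on with
  | empty => exact fun S => ⟨fun _ => 0, by simp, by simp⟩
  | @insert a F ha ih =>
    intro S
    obtain ⟨qa, hqa, hPa⟩ := h a S
    obtain ⟨q, hq, hinj⟩ := ih (insert qa S)
    have hq' : ∀ i ∈ F, Function.update q a qa i = q i := fun i hi =>
      Function.update_of_ne (fun e => ha (by rw [← e]; exact hi)) _ _
    refine ⟨Function.update q a qa, fun i hi => ?_, ?_⟩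
    · rcases Finset.mem_insert.mp hi with rfl | hi'
      · rw [Function.update_self]; exact ⟨hPa, hqa⟩
      · rw [hq' i hi']
        exact ⟨(hq i hi').1, fun hm => (hq i hi').2 (Finset.mem_insert_of_mem hm)⟩
    · have hne : ∀ i ∈ F, q i ≠ qa := fun i hi e => (hq i hi).2 (e ▸ Finset.mem_insert_self _ _)
      intro i hi j hj e
      rcases Finset.mem_insert.mp hi with hia | hi' <;> rcases Finset.mem_insert.mp hj
        with hja | hj'
      · rw [hia, hja]
      · rw [hia, Function.update_self, hq' j hj'] at e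
        exact absurd e.symm (hne j hj')
      · rw [hja, Function.update_self, hq' i hi'] at e
        exact absurd e (hne i hi')
      · rw [hq' i hi', hq' j hj'] at e
        exact hinj hi' hj' e

variable {k : Type} [Field k]

/-! ## The mod `p` cyclotomic determinant -/

/-- Elements fixing the `p ^ (n + 1)`-th roots of unity have determinant one. -/
private theorem det_eq_one_of_autToPow {p n : ℕ} [Fact p.Prime] {r : GQ →* Matrix (Fin 2) (Fin 2) k}
    (hcyc : ∀ (σ : GQ) (a : ℕ), (∀ μ : QBar, μ ^ p = 1 → σ μ = μ ^ a) → (r σ).det = (a : k))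
    [NeZero (p ^ (n + 1))] {ζ : QBar} (hζ : IsPrimitiveRoot ζ (p ^ (n + 1))) {σ : GQ}
    (hσ : hζ.autToPow ℚ σ = 1) : (r σ).det = 1 := by
  have hpp : p.Prime := Fact.out
  have hfix : σ ζ = ζ := by
    have e := hζ.autToPow_spec ℚ σ
    rw [hσ, Units.val_one] at e
    have : Fact (1 < p ^ (n + 1)) := ⟨Nat.one_lt_pow n.succ_ne_zero hpp.one_lt⟩
    rw [ZMod.val_one, pow_one] at e
    exact e.symm
  rw [hcyc σ 1 fun μ hμ => ?_, Nat.cast_one]
  obtain ⟨i, -, rfl⟩ := hζ.eq_pow_of_pow_eq_one (ξ := μ) (by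
    rw [pow_succ', pow_mul, hμ, one_pow])
  rw [map_pow, hfix, pow_one]

/-- The determinant takes every value prime to `p`. -/
private theorem exists_det_eq_natCast {p : ℕ} [hpp : Fact p.Prime]
    {r : GQ →* Matrix (Fin 2) (Fin 2) k}
    (hcyc : ∀ (σ : GQ) (a : ℕ), (∀ μ : QBar, μ ^ p = 1 → σ μ = μ ^ a) → (r σ).det = (a : k))
    (a : ℕ) (ha : ¬p ∣ a) : ∃ σ, (r σ).det = (a : k) := by
  have : NeZero p := ⟨hpp.out.ne_zero⟩
  obtain ⟨ξ, hξ⟩ := HasEnoughRootsOfUnity.exists_primitiveRoot QBar p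
  obtain ⟨σ, hσ⟩ := autToPow_surjective hξ
    (ZMod.unitOfCoprime a ((Nat.Prime.coprime_iff_not_dvd hpp.out).mpr ha).symm)
  refine ⟨σ, hcyc σ a fun μ hμ => ?_⟩
  obtain ⟨i, -, rfl⟩ := hξ.eq_pow_of_pow_eq_one hμ
  have e := hξ.autToPow_spec ℚ σ
  rw [hσ, ZMod.coe_unitOfCoprime, ZMod.val_natCast, ← pow_eq_pow_mod a hξ.pow_eq_one] at e
  rw [map_pow, ← e, pow_right_comm]

/-! ## The level and the values at Frobenius elements -/

/-- A representation and cocycles of finite level, and the character on the roots of unity of order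
`m`, factor through one finite Galois extension. -/
private theorem exists_commonLevel {r : GQ →* Matrix (Fin 2) (Fin 2) k}
    (hrfin : GaloisFactorsThroughFiniteLevel r) {ι : Type} [Fintype ι]
    {b : ι → GQ → Matrix (Fin 2) (Fin 2) k}
    (hbfin : ∀ i, ∃ L : IntermediateField ℚ QBar, FiniteDimensional ℚ L ∧
      ∀ σ : GQ, (∀ x ∈ L, σ x = x) → b i σ = 0)
    {m : ℕ} [NeZero m] {ζ : QBar} (hζ : IsPrimitiveRoot ζ m) :
    ∃ (L : IntermediateField ℚ QBar) (_ : FiniteDimensional ℚ L) (_ : IsGalois ℚ L),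
      ∀ τ : GQ, AlgEquiv.restrictNormalHom L τ = 1 →
        r τ = 1 ∧ (∀ j, b j τ = 0) ∧ hζ.autToPow ℚ τ = 1 := by
  obtain ⟨Lr, hLr, hLr'⟩ := hrfin
  choose Lb hLb hLb' using hbfin
  have : FiniteDimensional ℚ (IntermediateField.adjoin ℚ {ζ}) :=
    IntermediateField.adjoin.finiteDimensional (Algebra.IsIntegral.isIntegral ζ)
  let Lbig : IntermediateField ℚ QBar := Lr ⊔ (⨆ i, Lb i) ⊔ IntermediateField.adjoin ℚ {ζ}
  have : FiniteDimensional ℚ Lbig := inferInstance
  let L' : IntermediateField ℚ QBar := IntermediateField.normalClosure ℚ Lbig QBar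
  have : Normal ℚ L' := normalClosure.normal ℚ Lbig QBar
  have hgal : IsGalois ℚ L' := ⟨⟩
  have : FiniteDimensional ℚ L' := normalClosure.is_finiteDimensional ℚ Lbig QBar
  have hLL : Lbig ≤ L' := Lbig.le_normalClosure
  have hle1 : Lr ≤ L' := le_trans (le_trans le_sup_left le_sup_left) hLL
  have hle2 : ∀ i, Lb i ≤ L' := fun i =>
    le_trans (le_trans (le_trans (le_iSup Lb i) le_sup_right) le_sup_left) hLL
  have hle3 : ζ ∈ L' := hLL ((le_sup_right : IntermediateField.adjoin ℚ {ζ} ≤ Lbig)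
    (IntermediateField.mem_adjoin_simple_self ℚ ζ))
  refine ⟨L', inferInstance, hgal, fun τ hτ => ?_⟩
  rw [restrictNormalHom_eq_one_iff] at hτ
  refine ⟨hLr' τ fun x hx => hτ x (hle1 hx), fun j => hLb' j τ fun x hx => hτ x (hle2 j hx),
    Units.ext ?_⟩
  exact (autToPow_eq hζ (b := 1) (by rw [pow_one]; exact hτ ζ hle3)).trans Nat.cast_one

/-- If some Frobenius element `σ` over `q` has determinant one and inertia over `q` acts trivially,
then at every Frobenius element over `q` the determinant is one, the trace is that of `σ` and the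
trace functions of the cocycles are those of `σ` up to one factor. -/
private theorem values_at_frobenius {r : GQ →* Matrix (Fin 2) (Fin 2) k} {ι : Type}
    {b : ι → GQ → Matrix (Fin 2) (Fin 2) k} (hb : ∀ j, IsCocycle r (b j)) {q : ℕ} (hq : q.Prime)
    (hunr : ∀ P : ValuationSubring QBar, P.LiesOverPrime q → ∀ τ ∈ P.inertiaSubgroupIn ℚ,
      r τ = 1 ∧ ∀ j, b j τ = 0)
    {A : ValuationSubring QBar} (hA : A.LiesOverPrime q) {σ : GQ} (hσ : A.IsFrobeniusAt σ q)
    (hdσ : (r σ).det = 1) {P : ValuationSubring QBar} (hP : P.LiesOverPrime q) {φ : GQ}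
    (hφ : P.IsFrobeniusAt φ q) :
    (r φ).det = 1 ∧ (r φ).trace = (r σ).trace ∧
      ∃ x : GQ, ∀ j, phi r (b j) φ = (r x).det * phi r (b j) σ := by
  obtain ⟨x, rfl⟩ := exists_smul_eq hA hP hq
  obtain ⟨h1, h2⟩ := hunr _ hP _ (inv_mul_mem_inertia (isFrobeniusAt_conj (g := x) hσ) hφ)
  have hr' : r φ = r (x * σ * x⁻¹) := by
    rw [← mul_inv_cancel_left φ (x * σ * x⁻¹), map_mul, h1, mul_one]
  have hb' : ∀ j, b j φ = b j (x * σ * x⁻¹) := fun j => by
    rw [← mul_inv_cancel_left φ (x * σ * x⁻¹), (hb j).map_mul, h2 j, map_zero, zero_add]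
  refine ⟨?_, ?_, x, fun j => ?_⟩
  · rw [hr', map_mul, map_mul, det_mul, det_mul, hdσ, mul_one, ← det_mul, mul_rinv, det_one]
  · rw [hr', map_mul, map_mul, trace_conj]
  · rw [phi, hb' j, hr', ← phi, (hb j).phi_conj x hdσ]

/-! ## Taylor–Wiles primes -/

variable [Finite k]

/-- **Taylor–Wiles primes**, with any number of further ones. -/
theorem exists_taylorWilesPrimes_padded (p : ℕ) [Fact p.Prime] [CharP k p]
    (r : GQ →* Matrix (Fin 2) (Fin 2) k) (hr : TWHyp r) (hrfin : GaloisFactorsThroughFiniteLevel r)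
    (hcyc : ∀ (σ : GQ) (a : ℕ), (∀ μ : QBar, μ ^ p = 1 → σ μ = μ ^ a) → (r σ).det = (a : k))
    {ι : Type} [Fintype ι] (b : ι → GQ → Matrix (Fin 2) (Fin 2) k)
    (hb : ∀ i, IsCocycle r (b i))
    (hbfin : ∀ i, ∃ L : IntermediateField ℚ QBar, FiniteDimensional ℚ L ∧
      ∀ σ : GQ, (∀ x ∈ L, σ x = x) → b i σ = 0)
    (hind : ∀ c : ι → k, ∀ X : Matrix (Fin 2) (Fin 2) k, X.trace = 0 →
      (∀ g, ∑ i, c i • b i g = cobd r X g) → c = 0)
    (κ : Type) [Fintype κ] (S : Finset ℕ) (n : ℕ) :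
    ∃ q : ι ⊕ κ → ℕ, Function.Injective q ∧
      (∀ i, (q i).Prime ∧ q i ∉ S ∧ q i ≠ p ∧ p ^ (n + 1) ∣ q i - 1) ∧
      (∀ i, ∀ P : ValuationSubring QBar, P.LiesOverPrime (q i) → ∀ τ ∈ P.inertiaSubgroupIn ℚ,
        r τ = 1 ∧ ∀ j, b j τ = 0) ∧
      (∀ i, ∀ P : ValuationSubring QBar, P.LiesOverPrime (q i) → ∀ φ : GQ,
        P.IsFrobeniusAt φ (q i) → (r φ).det = 1 ∧ (r φ).trace ^ 2 ≠ 4 ∧
          ∃ α β : k, α ≠ β ∧ (r φ).charpoly =
            (Polynomial.X - Polynomial.C α) * (Polynomial.X - Polynomial.C β)) ∧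
      ∀ (P : ι → ValuationSubring QBar) (φ : ι → GQ),
        (∀ i, (P i).LiesOverPrime (q (Sum.inl i))) →
        (∀ i, (P i).IsFrobeniusAt (φ i) (q (Sum.inl i))) →
        ∀ c : ι → k, (∀ i, ∑ j, c j * phi r (b j) (φ i) = 0) → c = 0 := by
  have hpp : p.Prime := Fact.out
  have : NeZero (p ^ (n + 1)) := ⟨pow_ne_zero _ hpp.ne_zero⟩
  obtain ⟨ζ, hζ⟩ := HasEnoughRootsOfUnity.exists_primitiveRoot QBar (p ^ (n + 1))
  set χ : GQ →* (ZMod (p ^ (n + 1)))ˣ := hζ.autToPow ℚ
  -- Step 1: everything only depends on the restriction to `L'`.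
  obtain ⟨L', _, _, hfix⟩ := exists_commonLevel hrfin hbfin hζ
  have hfix' : ∀ σ g : GQ, AlgEquiv.restrictNormalHom L' σ = AlgEquiv.restrictNormalHom L' g →
      r σ = r g ∧ (∀ j, b j σ = b j g) ∧ χ σ = χ g := fun σ g e => by
    obtain ⟨h1, h2, h3⟩ := hfix (g⁻¹ * σ) (by rw [map_mul, map_inv, e, inv_mul_cancel])
    refine ⟨?_, fun j => ?_, ?_⟩
    · rw [← mul_inv_cancel_left g σ, map_mul, h1, mul_one]
    · rw [← mul_inv_cancel_left g σ, (hb j).map_mul, h2 j, map_zero, zero_add]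
    · rw [← mul_inv_cancel_left g σ, map_mul, h3, mul_one]
  -- Step 2: regular elements `g i` of the kernel of `χ` detecting the cocycles.
  have hdet : ∀ σ ∈ χ.ker, (r σ).det = 1 := fun σ hσ => det_eq_one_of_autToPow hcyc hζ hσ
  have hδ : ∀ a : ℕ, ¬p ∣ a → ∃ σ, (r σ).det = (a : k) := exists_det_eq_natCast hcyc
  have hab : ∀ g h : GQ, g * h * g⁻¹ * h⁻¹ ∈ χ.ker := fun g h => by
    rw [MonoidHom.mem_ker, map_mul, map_mul, map_mul, map_inv, map_inv, mul_comm (χ g) (χ h),
      mul_inv_cancel_right, mul_inv_cancel]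
  obtain ⟨g₁, hg₁, hdetect⟩ :=
    exists_detecting_family p (G₀ := χ.ker) hδ hr hdet hab b hb hind
  obtain ⟨g₀, hg₀, hg₀'⟩ := hr.exists_regular hdet hab
  obtain ⟨g, hgl, hg⟩ : ∃ g : ι ⊕ κ → GQ, (∀ i, g (Sum.inl i) = g₁ i) ∧
      ∀ i, g i ∈ χ.ker ∧ (r (g i)).trace ^ 2 ≠ 4 :=
    ⟨Sum.elim g₁ fun _ => g₀, fun _ => rfl, fun i => Sum.rec hg₁ (fun _ => ⟨hg₀, hg₀'⟩) i⟩
  -- Step 3: distinct primes with Frobenius elements restricting to the `g i`.
  obtain ⟨B, hB⟩ := exists_bound_good L'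
  have hcand : ∀ (i : ι ⊕ κ) (T : Finset ℕ), ∃ q, q ∉ T ∧ (q.Prime ∧ B < q ∧ q ∉ S ∧ q ≠ p ∧
      ∃ A : ValuationSubring QBar, A.LiesOverPrime q ∧ ∃ σ : GQ, A.IsFrobeniusAt σ q ∧
        AlgEquiv.restrictNormalHom L' σ = AlgEquiv.restrictNormalHom L' (g i)) := fun i T => by
    obtain ⟨q, hq, hqT, A, hA, σ, hσ, he⟩ := exists_frobenius_restrict_eq L' (g i)
      (T ∪ S ∪ Finset.range (B + 1) ∪ {p})
    simp only [Finset.mem_union, Finset.mem_range, Finset.mem_singleton, not_or] at hqT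
    exact ⟨q, hqT.1.1.1, hq, by omega, hqT.1.1.2, hqT.2, A, hA, σ, hσ, he⟩
  obtain ⟨q, hq, hinj⟩ := exists_injOn_choice hcand Finset.univ ∅
  replace hq := fun i => (hq i (Finset.mem_univ i)).1
  have hunr : ∀ i, ∀ P : ValuationSubring QBar, P.LiesOverPrime (q i) →
      ∀ τ ∈ P.inertiaSubgroupIn ℚ, r τ = 1 ∧ ∀ j, b j τ = 0 := fun i P hP τ hτ => by
    obtain ⟨hqp, hqB, -, -, -⟩ := hq i
    obtain ⟨h1, h2, -⟩ := hfix τ (inertia_fixes_of_good L' hqp (hB _ hqp hqB) hP hτ)
    exact ⟨h1, h2⟩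
  -- Step 4: the values at every Frobenius over these primes.
  have hfrob : ∀ i, ∀ P : ValuationSubring QBar, P.LiesOverPrime (q i) → ∀ φ : GQ,
      P.IsFrobeniusAt φ (q i) → (r φ).det = 1 ∧ (r φ).trace = (r (g i)).trace ∧
        ∃ x : GQ, ∀ j, phi r (b j) φ = (r x).det * phi r (b j) (g i) := by
    intro i P hP φ hφ
    obtain ⟨hqp, -, -, -, A, hA, σ, hσ, he⟩ := hq i
    obtain ⟨e1, e2, -⟩ := hfix' σ (g i) he
    obtain ⟨h1, h2, x, h3⟩ := values_at_frobenius hb hqp (hunr i) hA hσ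
      (by rw [e1]; exact hdet _ (hg i).1) hP hφ
    exact ⟨h1, by rw [h2, e1], x, fun j => by rw [h3 j, phi, e1, e2 j, ← phi]⟩
  refine ⟨q, fun i j e => hinj (Finset.mem_univ i) (Finset.mem_univ j) e, fun i => ?_, hunr, ?_,
    fun P φ hP hφ c hc => hdetect c fun i => ?_⟩
  · -- `q ≡ 1` modulo `p ^ (n + 1)`, as `χ` is trivial on the Frobenius.
    obtain ⟨hqp, -, hqS, hqne, A, hA, σ, hσ, he⟩ := hq i
    refine ⟨hqp, hqS, hqne, ?_⟩
    obtain ⟨-, -, e3⟩ := hfix' σ (g i) he
    have e4 := autToPow_frobenius hζ hA hqp hσ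
      fun h => hqne ((Nat.prime_dvd_prime_iff_eq hqp hpp).mp (hqp.dvd_of_dvd_pow h))
    rw [show hζ.autToPow ℚ σ = 1 from e3.trans (hg i).1, Units.val_one] at e4
    exact (Nat.modEq_iff_dvd' hqp.one_le).mp
      ((ZMod.natCast_eq_natCast_iff 1 (q i) _).mp (by rw [Nat.cast_one, e4]))
  · -- The eigenvalues are distinct, as the trace squared is not `4`.
    intro i P hP φ hφ
    obtain ⟨hd, ht, -⟩ := hfrob i P hP φ hφ
    obtain ⟨α, β, htr, hdt⟩ := hr.split φ
    refine ⟨hd, ht ▸ (hg i).2, α, β, fun e => (hg i).2 ?_, ?_⟩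
    · rw [← ht, htr, e]
      rw [hd, e] at hdt
      linear_combination -4 * hdt
    · rw [Matrix.charpoly_fin_two, htr, hdt, map_add, map_mul]
      ring
  · -- Detection: the values differ from those at `g₁ i` by a nonzero factor.
    obtain ⟨-, -, x, hx⟩ := hfrob (Sum.inl i) (P i) (hP i) (φ i) (hφ i)
    rw [hgl] at hx
    have e := hc i
    simp only [hx, mul_left_comm (c _) (r x).det, ← Finset.mul_sum] at e
    exact (mul_eq_zero.mp e).resolve_left (det_ne_zero x)

end Fermat.Agent.CFT.TWPrimes
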