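import Fermat.Agent.CFT.Tangent.LocalBasic
import Fermat.Agent.CFT.Tangent.LocalPlace

/-!
# The shape of the Selmer bound with Taylor–Wiles primes

`LocalBound r V q e d`: modulo coboundaries at `q` the space `V` has dimension at most
`h⁰(q) + d - e`. `HasSelmerBound p r`: for every large `R` and every level there are `R`
Taylor–Wiles primes such that a space of classes with these local bounds, unramified elsewhere,
has dimension at most `R - 1 + ∑ (d - e)`.
-/

set_option autoImplicit false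

noncomputable section

namespace Fermat.Agent.CFT.TWPrimes

open Fermat.Agent.Deform Fermat.Agent.Arith Fermat.Agent.CFT.Tangent Module

variable {k : Type} [Field k]

/-- The space `V` has dimension at most `h⁰(q) + d - e` modulo coboundaries at `q`. -/
def LocalBound (r : Gal →* M2 k) (V : Submodule k (Gal → M2 k)) (q : ℕ) [Fact q.Prime]
    (e d : ℕ) : Prop :=
  finrank k V + e ≤
    finrank k (V ⊓ cobdOn r ((padicPlace q).decompositionSubgroup ℚ) :
        Submodule k (Gal → M2 k)) +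
      finrank k (fixedOn r ((padicPlace q).decompositionSubgroup ℚ)) + d

/-- Taylor–Wiles primes and the resulting bound on Selmer groups. -/
def HasSelmerBound (p : ℕ) (r : Gal →* M2 k) : Prop :=
  ∀ S : Finset ℕ, p ∈ S → (∀ q ∈ S, q.Prime) →
    (∀ (q : ℕ) [Fact q.Prime], q ∉ S → ∀ τ ∈ (padicPlace q).inertiaSubgroupIn ℚ, r τ = 1) →
    ∃ r₀ : ℕ, ∀ R : ℕ, r₀ ≤ R → ∀ n : ℕ, ∃ qv : Fin R → ℕ, Function.Injective qv ∧
      (∀ i, (qv i).Prime ∧ qv i ∉ S ∧ p ^ (n + 1) ∣ qv i - 1) ∧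
      (∀ i, ∀ P : ValuationSubring QBar, P.LiesOverPrime (qv i) → ∀ φ : Gal,
        P.IsFrobeniusAt φ (qv i) → (r φ).det = 1 ∧ (r φ).trace ^ 2 ≠ 4 ∧
          ∃ α β : k, α ≠ β ∧ (r φ).charpoly =
            (Polynomial.X - Polynomial.C α) * (Polynomial.X - Polynomial.C β)) ∧
      ∀ (V : Submodule k (Gal → M2 k)), Module.Finite k V →
        (∀ b ∈ V, IsAdCocycle r b) → (∀ b ∈ V, IsFiniteLevel b) →
        (∀ b ∈ V, ∀ σ, (b σ).trace = 0) →
        (∀ b ∈ V, ∀ X : M2 k, b = cobdLin r X → b = 0) →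
        (∀ (q : ℕ) [Fact q.Prime], q ∉ S → (∀ i, qv i ≠ q) →
          ∀ b ∈ V, ∀ τ ∈ (padicPlace q).inertiaSubgroupIn ℚ, b τ = 0) →
        ∀ e d : ℕ → ℕ, (∀ (q : ℕ) [Fact q.Prime], q ∈ S → LocalBound r V q (e q) (d q)) →
          finrank k V + ∑ q ∈ S, e q + 1 ≤ R + ∑ q ∈ S, d q

end Fermat.Agent.CFT.TWPrimes
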