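import Fermat.Agent.CFT.TWPrimes.BoundCount
import Fermat.Agent.CFT.TWPrimes.Main
import Fermat.Agent.CFT.TWPrimes.SelmerBound
import Fermat.Agent.CFT.Tangent.LocalBounds

/-!
# Taylor–Wiles primes and the bound on Selmer groups

For every large `R` and every level there are `R` Taylor–Wiles primes such that a space of classes
with given local bounds has dimension at most `R - 1 + ∑ (d - e)`.
-/

set_option autoImplicit false

noncomputable section

namespace Fermat.Agent.CFT.TWPrimes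

open Fermat.Agent.Arith Fermat.Agent.CFT.Local Fermat.Agent.CFT.Idele
open Fermat.Agent.CFT.TUnit
open Fermat.Agent.CFT.Tangent Fermat.Agent.Deform Module

/-- Combining the count with the local bounds. -/
theorem combine_local {T : Type} [DecidableEq T] {S S' : Finset T} (hS : S ⊆ S')
    (n R : ℕ) (h c e d : T → ℕ) (hcount : n + 1 + ∑ q ∈ S', (h q + c q) ≤ R + S'.card * n)
    (hloc : ∀ q ∈ S, n + e q ≤ c q + h q + d q) (hrest : ∀ q ∈ S', q ∉ S → n ≤ c q + h q) :
    n + ∑ q ∈ S, e q + 1 ≤ R + ∑ q ∈ S, d q := by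
  have h1 : S'.card * n + ∑ q ∈ S, e q ≤ ∑ q ∈ S', (h q + c q) + ∑ q ∈ S, d q := by
    rw [← smul_eq_mul, ← Finset.sum_const, ← Finset.sum_sdiff hS,
      ← Finset.sum_sdiff hS (f := fun q => h q + c q), add_assoc, add_assoc,
      ← Finset.sum_add_distrib, ← Finset.sum_add_distrib]
    exact Nat.add_le_add
      (Finset.sum_le_sum fun q hq => by
        have := hrest q (Finset.mem_sdiff.mp hq).1 (Finset.mem_sdiff.mp hq).2
        omega)
      (Finset.sum_le_sum fun q hq => by have := hloc q hq; omega)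
  omega

variable {k : Type} [Field k] [Finite k] {p : ℕ} [hp : Fact p.Prime] [CharP k p]

/-- **The Selmer bound at Taylor–Wiles primes.** -/
theorem hasSelmerBound (hp2 : p ≠ 2) {r : Gal →* M2 k} (hr : TWHyp r)
    (hfin : GaloisFactorsThroughFiniteLevel r)
    (hcyc : ∀ (σ : GQ) (a : ℕ), (∀ μ : QBar, μ ^ p = 1 → σ μ = μ ^ a) → (r σ).det = (a : k)) :
    HasSelmerBound p r := by
  classical
  intro S hpS hS hur
  have : NeZero p := ⟨hp.out.ne_zero⟩
  -- A level `K` for `r`, a good set `S'` containing `S`, and `m` cocycles detecting the classes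
  -- in its units.
  obtain ⟨K, _, _, r₀, hr₀, hinj, hfixK⟩ := exists_repLevel r hfin
  have : Fintype (AdW r₀) := Fintype.ofFinite _
  obtain ⟨ζ, hζ⟩ := HasEnoughRootsOfUnity.exists_primitiveRoot QBar p
  have hζK : ζ ∈ K := hfixK ζ fun σ hσ =>
    fix_root_of_det hcyc (by rw [hσ, Matrix.det_one]) hζ.pow_eq_one
  obtain ⟨S', hS', hgood⟩ := exists_goodSet hp2 hζ hζK (S.subtype Nat.Prime : Finset Nat.Primes)
  have hgen : Generates K S' := generates_of_goodSet hgood (Finset.Subset.refl _)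
  obtain ⟨m, bdet, hbc, hblev, hbind, hsel⟩ := exists_detection (r₀ := r₀) hr.two hζ hr₀ hcyc S'
    (modPFinite_tUnits hp2 hζ hζK)
  -- `R` primes: `m` detecting ones and padding.
  refine ⟨m, fun R hR n => ?_⟩
  obtain ⟨q, hqinj, hq, hqur, hqfrob, hqsel⟩ := exists_taylorWilesPrimes_padded p r hr hfin hcyc
    bdet hbc hblev hbind (Fin (R - m)) (S'.image fun v : Nat.Primes => (v : ℕ)) n
  let e : Fin R ≃ Fin m ⊕ Fin (R - m) :=
    (finCongr (Nat.add_sub_cancel' hR).symm).trans finSumFinEquiv.symm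
  let qq : Fin m ⊕ Fin (R - m) → Nat.Primes := fun i => ⟨q i, (hq i).1⟩
  have : ∀ i, Fact (Nat.Prime (q i)) := fun i => ⟨(hq i).1⟩
  have : ∀ i, Fact (Nat.Prime ((qq i : Nat.Primes) : ℕ)) := fun i => ⟨(hq i).1⟩
  have hqS' : ∀ i, qq i ∉ S' := fun i h => (hq i).2.1 (Finset.mem_image.mpr ⟨qq i, h, rfl⟩)
  refine ⟨fun i => q (e i), hqinj.comp e.injective, fun i => ⟨(hq _).1, fun h => ?_, (hq _).2.2.2⟩,
    fun i => hqfrob (e i), ?_⟩
  · exact hqS' (e i) (hS' (Finset.mem_subtype.mpr h))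
  intro V hV hcoc hlev htr hcob hVur e' d' hloc
  -- Count at `S' ∪ Q`, where `Q` is the set of these primes: the classes are unramified outside,
  -- and the Frobenius elements at `Q` detect.
  let Q : Finset Nat.Primes := Finset.univ.image qq
  have hdisj : (S' ∪ Q) \ S' = Q := by
    refine Finset.ext fun v => ⟨fun h => ?_, fun h => ?_⟩
    · obtain ⟨h1, h2⟩ := Finset.mem_sdiff.mp h
      exact (Finset.mem_union.mp h1).resolve_left h2
    · obtain ⟨i, -, rfl⟩ := Finset.mem_image.mp h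
      exact Finset.mem_sdiff.mpr ⟨Finset.mem_union_right _
        (Finset.mem_image_of_mem _ (Finset.mem_univ i)),
        hqS' i⟩
  have hQmem : ∀ v ∈ S' ∪ Q, v ∉ S' → ∃ i, qq i = v := fun v h1 h2 => by
    obtain ⟨i, -, hi⟩ := Finset.mem_image.mp ((Finset.mem_union.mp h1).resolve_left h2)
    exact ⟨i, hi⟩
  have hnotS : ∀ v : Nat.Primes, v ∉ (S.subtype Nat.Prime : Finset Nat.Primes) → (v : ℕ) ∉ S :=
    fun v hv h => hv (Finset.mem_subtype.mpr h)
  have hV0 : ∀ v : Nat.Primes, (v : ℕ) ∉ S → (∀ i, qq i ≠ v) →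
      ∀ τ ∈ (padicPlace (v : ℕ)).inertiaSubgroupIn ℚ, r τ = 1 ∧ ∀ b ∈ V, b τ = 0 :=
    fun v hv hne τ hτ => ⟨hur (v : ℕ) hv τ hτ, fun b hb =>
      hVur (v : ℕ) hv (fun i h => hne (e i) (Subtype.ext h)) b hb τ hτ⟩
  have hcount := selmer_count hp2 hr hfin hcyc hr₀ hinj hζ hζK
    (S := S') (T := S' ∪ Q) Finset.subset_union_left ⟨_, hgood.mem⟩ hgen
    (fun v h1 h2 => by
      obtain ⟨i, rfl⟩ := hQmem v h1 h2
      exact ⟨(hq i).2.2.1, fun τ hτ => (hqur i _ (padicPlace_liesOverPrime (qq i : ℕ)) τ hτ).1,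
        fun F hF => hqfrob i _ (padicPlace_liesOverPrime (qq i : ℕ)) F hF⟩)
    (fun x hx => by
      choose φ hφ using fun i : Fin m => exists_isFrobeniusAt
        (padicPlace_liesOverPrime (qq (Sum.inl i) : ℕ)) (qq (Sum.inl i)).2
      exact hsel (fun i => qq (Sum.inl i)) φ
        (fun i => mem_decomposition_iff.mpr (isFrobeniusAt_iff_forall_mem.mp (hφ i)).1)
        (fun i => (hqfrob _ _ (padicPlace_liesOverPrime _) _ (hφ i)).1)
        (hqsel _ φ (fun i => padicPlace_liesOverPrime (qq (Sum.inl i) : ℕ)) hφ) x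
        fun i => hx _ (Finset.mem_union_right _ (Finset.mem_image_of_mem _ (Finset.mem_univ _)))
          (hqS' _))
    V hcoc hlev htr (fun b hb X h => hcob b hb X h)
    (fun v hv => hV0 v (hnotS v fun h => hv (Finset.mem_union_left _ (hS' h)))
      fun i h => hv (h ▸ Finset.mem_union_right _ (Finset.mem_image_of_mem _ (Finset.mem_univ i))))
  -- Then the local bounds at `S`, and the unramified ones on the rest of `S'`.
  have hcard : Q.card = R := by
    rw [show Q.card = _ from Finset.card_image_of_injective Finset.univ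
        (fun i j (h : qq i = qq j) => hqinj (congrArg Subtype.val h) : Function.Injective qq),
      Finset.card_univ, ← Fintype.card_congr e, Fintype.card_fin]
  rw [hdisj, hcard] at hcount
  have : ∀ v : {x : ℕ // Nat.Prime x}, Fact (Nat.Prime (v : ℕ)) := fun v => ⟨v.2⟩
  have key := combine_local hS' (finrank k V) R _ _ (fun v => e' (v : ℕ)) (fun v => d' (v : ℕ))
    hcount (fun v hv => hloc (v : ℕ) (Finset.mem_subtype.mp hv))
    (fun v hv hv' => finrank_le_unramified hfin V hcoc hlev htr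
      (fun τ hτ => (hV0 v (hnotS v hv') (fun i h => hqS' i (h ▸ hv)) τ hτ).1)
      fun b hb τ hτ => (hV0 v (hnotS v hv') (fun i h => hqS' i (h ▸ hv)) τ hτ).2 b hb)
  rw [Finset.sum_subtype_eq_sum_filter (f := e'), Finset.sum_subtype_eq_sum_filter (f := d'),
    Finset.filter_true_of_mem hS] at key
  exact key

end Fermat.Agent.CFT.TWPrimes
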