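import Fermat.Agent.CFT.TWPrimes.AdModule
import Fermat.Agent.CFT.Tangent.LocalBasic
import Fermat.Agent.CFT.Tangent.LocalPlace
import Fermat.Agent.CFT.Duality.Incl
import Fermat.Agent.CFT.PT.Arith.Basic

/-!
# The field cut out by the residual representation, and the level of a space of cocycles
-/

set_option autoImplicit false

noncomputable section

namespace Fermat.Agent.CFT.TWPrimes

open Fermat.Agent.Arith IntermediateField Fermat.Agent.CFT.Idele
open Fermat.Agent.CFT.Duality Fermat.Agent.CFT.PT Fermat.Agent.CFT.Tangent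

variable {k : Type} [Field k] {p : ℕ} [hp : Fact p.Prime] [CharP k p]

/-- An open normal subgroup of the absolute Galois group is the Galois group over a finite normal
field. -/
private theorem exists_field_of_normal {N : Subgroup GQ} (hNn : N.Normal)
    {L₀ : IntermediateField ℚ QBar} [FiniteDimensional ℚ L₀] (hle : L₀.fixingSubgroup ≤ N) :
    ∃ (L : IntermediateField ℚ QBar) (_ : FiniteDimensional ℚ L) (_ : Normal ℚ L),
      L.fixingSubgroup = N ∧ L = IntermediateField.fixedField N := by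
  have : IsGalois ℚ QBar := { to_normal := IsAlgClosure.normal ℚ QBar }
  have hclosed : IsClosed (N : Set GQ) :=
    Subgroup.isClosed_of_isOpen N (Subgroup.isOpen_mono hle L₀.fixingSubgroup_isOpen)
  set L := IntermediateField.fixedField N
  have hfix : L.fixingSubgroup = N :=
    InfiniteGalois.fixingSubgroup_fixedField (⟨N, hclosed⟩ : ClosedSubgroup GQ)
  have : L.fixingSubgroup.Normal := by rw [hfix]; exact hNn
  have : IsGalois ℚ L := (InfiniteGalois.normal_iff_isGalois L).mp inferInstance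
  have : FiniteDimensional ℚ L := by
    have h1 : L ≤ L₀ := by
      intro x hx
      rw [← InfiniteGalois.fixedField_fixingSubgroup L₀, IntermediateField.mem_fixedField_iff]
      exact fun s hs => (IntermediateField.mem_fixedField_iff N x).mp hx s (hle hs)
    exact FiniteDimensional.of_injective (IntermediateField.inclusion h1).toLinearMap
      (IntermediateField.inclusion_injective h1)
  exact ⟨L, inferInstance, IsGalois.to_normal, hfix, rfl⟩

omit hp in
/-- The field cut out by a representation of finite level. -/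
theorem exists_repLevel (r : GQ →* Matrix (Fin 2) (Fin 2) k)
    (hfin : GaloisFactorsThroughFiniteLevel r) :
    ∃ (K : IntermediateField ℚ QBar) (_ : FiniteDimensional ℚ K) (_ : Normal ℚ K)
      (r₀ : (K ≃ₐ[ℚ] K) →* Matrix (Fin 2) (Fin 2) k),
      (∀ σ, r σ = r₀ (res K σ)) ∧ Function.Injective r₀ ∧
      (∀ x : QBar, (∀ σ, r σ = 1 → σ x = x) → x ∈ K) := by
  obtain ⟨L₀, hL₀, h₀⟩ := hfin
  set N : Subgroup GQ := r.toHomUnits.ker
  have hN : ∀ σ, σ ∈ N ↔ r σ = 1 := fun σ => by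
    rw [MonoidHom.mem_ker, Units.ext_iff, MonoidHom.coe_toHomUnits, Units.val_one]
  have hle : L₀.fixingSubgroup ≤ N := fun σ hσ =>
    (hN σ).mpr (h₀ σ ((IntermediateField.mem_fixingSubgroup_iff L₀ σ).mp hσ))
  obtain ⟨K, hKf, hKn, hfix, hKdef⟩ := exists_field_of_normal (inferInstance : N.Normal) hle
  have hres : ∀ σ, res K σ = 1 → r σ = 1 := fun σ hσ => by
    rw [← hN, ← hfix]; exact (res_eq_one_iff K).1 hσ
  have hwd : ∀ σ τ, res K σ = res K τ → r σ = r τ := fun σ τ e => by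
    have h1 := hres (τ⁻¹ * σ) (by rw [map_mul, map_inv, e, inv_mul_cancel])
    calc r σ = r (τ * (τ⁻¹ * σ)) := by rw [mul_inv_cancel_left]
      _ = r τ := by rw [map_mul, h1, mul_one]
  let r₀ : (K ≃ₐ[ℚ] K) →* Matrix (Fin 2) (Fin 2) k :=
    { toFun := fun g => r (Idele.lift K g)
      map_one' := by rw [hwd _ 1 (by rw [res_lift, map_one]), map_one]
      map_mul' := fun g g' => by
        rw [hwd _ (Idele.lift K g * Idele.lift K g') (by rw [res_lift, map_mul, res_lift,
          res_lift]), map_mul] }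
  refine ⟨K, hKf, hKn, r₀, fun σ => hwd _ _ (res_lift K (res K σ)).symm, ?_,
    fun x hx => ?_⟩
  · intro g g' e
    have e' : r (Idele.lift K g) = r (Idele.lift K g') := e
    have hm : (Idele.lift K g')⁻¹ * Idele.lift K g ∈ K.fixingSubgroup := by
      rw [hfix, hN, map_mul, e', ← map_mul, inv_mul_cancel, map_one]
    rw [← res_lift K g, ← res_lift K g', res_eq_iff K]
    have := inv_mem hm
    rwa [mul_inv_rev, inv_inv] at this
  · rw [hKdef]
    exact (IntermediateField.mem_fixedField_iff N x).mpr fun s hs => hx s ((hN s).mp hs)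

/-- The roots of unity lie in the field cut out when the determinant is cyclotomic. -/
theorem fix_root_of_det {r : GQ →* Matrix (Fin 2) (Fin 2) k}
    (hcyc : ∀ (σ : GQ) (a : ℕ), (∀ μ : QBar, μ ^ p = 1 → σ μ = μ ^ a) → (r σ).det = (a : k))
    {σ : GQ} (hσ : (r σ).det = 1) {ζ : QBar} (hζ : ζ ^ p = 1) : σ ζ = ζ := by
  have : NeZero p := ⟨hp.out.ne_zero⟩
  obtain ⟨a, ha⟩ := Tangent.exists_pow_eq_on_roots p σ
  have h1 := hcyc σ a ha
  rw [hσ] at h1
  have h2 : a ≡ 1 [MOD p] := (CharP.natCast_eq_natCast k p).mp (by rw [← h1, Nat.cast_one])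
  rw [ha ζ hζ, pow_eq_pow_mod a hζ, h2, ← pow_eq_pow_mod 1 hζ, pow_one]

/-- An element inverting a primitive root has determinant `-1`. -/
theorem det_eq_neg_one {r : GQ →* Matrix (Fin 2) (Fin 2) k}
    (hcyc : ∀ (σ : GQ) (a : ℕ), (∀ μ : QBar, μ ^ p = 1 → σ μ = μ ^ a) → (r σ).det = (a : k))
    {σ : GQ} {ζ : QBar} (hζ : IsPrimitiveRoot ζ p) (hσ : σ ζ = ζ⁻¹) : (r σ).det = -1 := by
  have : NeZero p := ⟨hp.out.ne_zero⟩
  obtain ⟨a, ha⟩ := Tangent.exists_pow_eq_on_roots p σ
  rw [hcyc σ a ha, eq_neg_iff_add_eq_zero, ← Nat.cast_one, ← Nat.cast_add,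
    CharP.cast_eq_zero_iff k p, ← hζ.pow_eq_one_iff_dvd, pow_succ, ← ha ζ hζ.pow_eq_one, hσ,
    inv_mul_cancel₀ (hζ.ne_zero hp.out.ne_zero)]

variable {r : GQ →* Matrix (Fin 2) (Fin 2) k} {K : IntermediateField ℚ QBar}
  [FiniteDimensional ℚ K] [Normal ℚ K] {r₀ : (K ≃ₐ[ℚ] K) →* Matrix (Fin 2) (Fin 2) k}

omit hp [FiniteDimensional ℚ ↥K] in
/-- The level of a space of cocycles. -/
theorem exists_classLevel (hr₀ : ∀ σ, r σ = r₀ (res K σ))
    (hfin : GaloisFactorsThroughFiniteLevel r)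
    (V : Submodule k (GQ → Matrix (Fin 2) (Fin 2) k)) [Module.Finite k V]
    (hcoc : ∀ b ∈ V, IsAdCocycle r b) (hlev : ∀ b ∈ V, IsFiniteLevel b)
    (htr : ∀ b ∈ V, ∀ σ, (b σ).trace = 0) (hinj : Function.Injective r₀) :
    ∃ (L : IntermediateField ℚ QBar) (_ : FiniteDimensional ℚ L) (_ : Normal ℚ L) (hKL : K ≤ L),
      IsPGroup p (levelRes hKL).ker ∧
      (∀ q : Nat.Primes, (∀ τ ∈ (haveI : Fact (q : ℕ).Prime := ⟨q.2⟩; padicPlace (q : ℕ)
        ).inertiaSubgroupIn ℚ, r τ = 1 ∧ ∀ b ∈ V, b τ = 0) → InertiaFixes q L) ∧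
      ∃ D : V →+ levelCocycles (levelRes hKL) (AdW r₀), ∀ (b : V) (σ : GQ),
        AdW.val r₀ ((D b : (L ≃ₐ[ℚ] L) → AdW r₀) (res L σ)) =
            (b : GQ → Matrix (Fin 2) (Fin 2) k) σ := by
  obtain ⟨L₀, hL₀, hL₀n, h₀⟩ := exists_common_level hfin V hlev
  have hone : ∀ {σ}, r σ = 1 → r σ⁻¹ = 1 := fun {σ} h => by
    have := Tangent.map_inv_mul r σ
    rwa [h, mul_one] at this
  have hker : ∀ {g σ}, r σ = 1 → ∀ b ∈ V, b (g * σ * g⁻¹) = r g * b σ * r g⁻¹ :=
    fun {g σ} hσ b hb => by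
    have h1 : r (g * σ * g⁻¹) = 1 := by
      rw [map_mul, map_mul, hσ, mul_one, Tangent.map_mul_inv]
    rw [(hcoc b hb).conj, h1, hone h1, one_mul, mul_one, add_sub_cancel_right]
  -- `N` is the common kernel of `r` and of the cocycles
  let N : Subgroup GQ :=
    { carrier := {σ | r σ = 1 ∧ ∀ b ∈ V, b σ = 0}
      one_mem' := ⟨map_one r, fun b hb => (hcoc b hb).one⟩
      mul_mem' := fun {a c} ha hc => ⟨by rw [map_mul, ha.1, hc.1, one_mul], fun b hb => by
        rw [hcoc b hb, hc.2 b hb, ha.2 b hb]; simp⟩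
      inv_mem' := fun {a} ha => ⟨hone ha.1, fun b hb => by
        have h := hcoc b hb a⁻¹ a
        rw [inv_mul_cancel, (hcoc b hb).one, ha.2 b hb, mul_zero, zero_mul, zero_add] at h
        exact h.symm⟩ }
  have hNn : N.Normal := ⟨fun σ hσ g => ⟨by
    rw [map_mul, map_mul, hσ.1, mul_one, Tangent.map_mul_inv], fun b hb => by
    rw [hker hσ.1 b hb, hσ.2 b hb, mul_zero, zero_mul]⟩⟩
  have hle : L₀.fixingSubgroup ≤ N := fun σ hσ =>
    h₀ σ ((IntermediateField.mem_fixingSubgroup_iff L₀ σ).mp hσ)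
  -- and `L` its field
  obtain ⟨L, hLf, hLn, hfix, hLdef⟩ := exists_field_of_normal hNn hle
  have hresL : ∀ {σ}, res L σ = 1 → σ ∈ N := fun {σ} hσ => hfix ▸ (res_eq_one_iff L).1 hσ
  have hKfix : ∀ σ, r σ = 1 → ∀ x ∈ K, σ x = x := fun σ hσ x hx => by
    have e : res K σ = 1 := hinj (by rw [← hr₀, hσ, map_one])
    have e' := congrArg (fun g : K ≃ₐ[ℚ] K => ((g ⟨x, hx⟩ : K) : QBar)) e
    simp only [res_apply, AlgEquiv.one_apply] at e'
    exact e'
  have hKL : K ≤ L := fun x hx => by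
    rw [hLdef]
    exact (IntermediateField.mem_fixedField_iff N x).mpr fun s hs => hKfix s hs.1 x hx
  have hwd : ∀ (b : V) (σ τ : GQ), res L σ = res L τ →
      (b : GQ → Matrix (Fin 2) (Fin 2) k) σ = (b : GQ → Matrix (Fin 2) (Fin 2) k) τ := by
    intro b σ τ e
    exact (hcoc b b.2).congr
      ((hresL (σ := τ⁻¹ * σ) (by rw [map_mul, map_inv, e, inv_mul_cancel])).2 b b.2)
  refine ⟨L, hLf, hLn, hKL, fun n => ⟨1, ?_⟩, fun q hq => ?_, ?_⟩
  -- over `K` the group is killed by `p`, as the cocycles are additive there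
  · obtain ⟨g, hg⟩ := AlgEquiv.restrictNormalHom_surjective (K₁ := L) QBar (n : L ≃ₐ[ℚ] L)
    have hgK : res K g = 1 := by
      rw [← levelRes_res hKL g, show res L g = (n : L ≃ₐ[ℚ] L) from hg]
      exact n.2
    have hrg : r g = 1 := by rw [hr₀, hgK, map_one]
    have hpow : g ^ p ∈ N := by
      refine ⟨by rw [map_pow, hrg, one_pow], fun b hb => ?_⟩
      have : ∀ i : ℕ, b (g ^ i) = i • b g := fun i => by
        induction i with
        | zero => rw [pow_zero, (hcoc b hb).one, zero_smul]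
        | succ i ih =>
          rw [pow_succ', hcoc b hb, ih, hrg, hone hrg, one_mul, mul_one, succ_nsmul]
      rw [this, ← Nat.cast_smul_eq_nsmul k, CharP.cast_eq_zero, zero_smul]
    refine Subtype.ext ?_
    rw [pow_one, SubgroupClass.coe_pow, ← show res L g = (n : L ≃ₐ[ℚ] L) from hg, ← map_pow]
    refine AlgEquiv.ext fun x => Subtype.ext ?_
    rw [res_apply, Subgroup.coe_one, AlgEquiv.one_apply]
    rw [← hfix, IntermediateField.mem_fixingSubgroup_iff] at hpow
    exact hpow _ x.2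
  -- inertia killing `r` and `V` fixes `L`
  · have : Fact (q : ℕ).Prime := ⟨q.2⟩
    rw [inertiaFixes_iff_padicPlace]
    intro g hg x
    have : g ∈ N := hq g hg
    rw [← hfix, IntermediateField.mem_fixingSubgroup_iff] at this
    exact this _ x.2
  -- the cocycles factor through `L`
  · refine ⟨AddMonoidHom.mk' (fun b =>
      ⟨fun g => AdW.mk r₀ ((b : GQ → Matrix (Fin 2) (Fin 2) k) (Idele.lift L g))
      (htr b b.2 _), fun g g' => AdW.val_injective ?_⟩) fun b b' => Subtype.ext (funext fun g =>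
        AdW.val_injective ?_), fun b σ => ?_⟩
    · rw [map_add, AdW.val_smul, AdW.val_mk, AdW.val_mk, AdW.val_mk,
        hwd b _ (Idele.lift L g * Idele.lift L g') (by rw [res_lift, map_mul, res_lift, res_lift]),
        hcoc b b.2, hr₀, hr₀, map_inv, ← levelRes_res hKL, res_lift]
    · show AdW.val r₀ _ = AdW.val r₀ (_ + _)
      rw [map_add]
      rfl
    · exact hwd b _ _ (res_lift L (res L σ))

end Fermat.Agent.CFT.TWPrimes
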