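import Fermat.Agent.CFT.TWPrimes.GlobalCount
import Fermat.Agent.CFT.TWPrimes.Level
import Fermat.Agent.CFT.Tangent.LocalPlace

/-!
# The local terms of the count

The decomposition groups at finite level against the decomposition subgroup of the chosen place,
and the orders of the local terms in the language of spaces of cocycles.
-/

set_option autoImplicit false

noncomputable section

namespace Fermat.Agent.CFT.TWPrimes

open Fermat.Agent.Arith Fermat.Agent.CFT.Local Fermat.Agent.CFT.Idele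
open Fermat.Agent.CFT.Duality Fermat.Agent.CFT.Euler Fermat.Agent.CFT.Tangent Module

/-- The decomposition group at finite level is the image of that of the chosen place. -/
theorem mem_decomp_iff_exists (L : IntermediateField ℚ QBar) [FiniteDimensional ℚ L] [Normal ℚ L]
    (q : Nat.Primes) (g : L ≃ₐ[ℚ] L) :
    g ∈ Duality.decomp L q ↔
      ∃ σ ∈ (padicPlace (q : ℕ)).decompositionSubgroup ℚ, res L σ = g := by
  constructor
  · rintro ⟨t, rfl⟩
    obtain ⟨τ, rfl⟩ := AlgEquiv.restrictNormalHom_surjective (K₁ := localField (q : ℕ) L)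
      (PadicAlgCl (q : ℕ)) t
    exact ⟨_, localGaloisToGlobal_mem_decompositionSubgroup (q : ℕ) τ,
      (toGlobal_restrict _ _ τ).symm⟩
  · rintro ⟨σ, hσ, rfl⟩
    refine (Local.mem_range_toGlobal_iff (q : ℕ) L _).mpr fun x hx => ?_
    rw [res_apply]
    exact map_mem_of_mem_decomposition (mem_decomposition_iff.mp hσ) hx

variable {k : Type} [Field k] [Finite k] {r : GQ →* Matrix (Fin 2) (Fin 2) k}
  {K L : IntermediateField ℚ QBar} [FiniteDimensional ℚ K] [Normal ℚ K] [FiniteDimensional ℚ L]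
  [Normal ℚ L] {r₀ : (K ≃ₐ[ℚ] K) →* Matrix (Fin 2) (Fin 2) k}

omit [Finite k] in
/-- The invariants at `q` in the language of fixed matrices. -/
theorem card_fixPts_decomp (hr₀ : ∀ σ, r σ = r₀ (res K σ)) (q : Nat.Primes) :
    Nat.card (fixPts (Duality.decomp K q) (AdW r₀)) =
      Nat.card k ^ finrank k (fixedOn r ((padicPlace (q : ℕ)).decompositionSubgroup ℚ)) := by
  set D := (padicPlace (q : ℕ)).decompositionSubgroup ℚ with hD
  have : Module.Finite k (fixedOn r D) := inferInstance
  rw [← Module.natCard_eq_pow_finrank]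
  refine Nat.card_eq_of_bijective (fun X => (⟨AdW.val r₀ X.1, X.1.trace_val, fun s hs => ?_⟩ :
    fixedOn r D)) ⟨fun X Y e => Subtype.ext (AdW.val_injective (congrArg Subtype.val e :)),
    fun Y => ?_⟩
  · have e := congrArg (AdW.val r₀)
      (X.2 ⟨res K s, (mem_decomp_iff_exists K q _).mpr ⟨s, hs, rfl⟩⟩)
    rw [Subgroup.smul_def, AdW.val_smul, ← map_inv, ← hr₀, ← hr₀] at e
    exact e
  · refine ⟨⟨AdW.mk r₀ Y.1 Y.2.1, fun h => AdW.val_injective ?_⟩, rfl⟩
    obtain ⟨s, hs, e⟩ := (mem_decomp_iff_exists K q _).mp h.2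
    rw [Subgroup.smul_def, AdW.val_smul, AdW.val_mk, ← e, ← map_inv, ← hr₀, ← hr₀]
    exact Y.2.2 s hs

variable {hKL : K ≤ L}

omit [FiniteDimensional ℚ ↥K] in
/-- The classes trivial at `q` in the language of coboundaries on the decomposition subgroup. -/
theorem index_locTrivW_mul_le (hr₀ : ∀ σ, r σ = r₀ (res K σ))
    (V : Submodule k (GQ → Matrix (Fin 2) (Fin 2) k)) [Module.Finite k V]
    (D : V →+ levelCocycles (levelRes hKL) (AdW r₀))
    (hD : ∀ (b : V) (σ : GQ), AdW.val r₀ ((D b : (L ≃ₐ[ℚ] L) → AdW r₀) (res L σ)) =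
      (b : GQ → Matrix (Fin 2) (Fin 2) k) σ)
    (hinj : Function.Injective D) (q : Nat.Primes) :
    (locTrivW hKL D.range q).index *
        Nat.card k ^ finrank k (V ⊓ cobdOn r ((padicPlace (q : ℕ)).decompositionSubgroup ℚ) :
          Submodule k (GQ → Matrix (Fin 2) (Fin 2) k)) ≤
      Nat.card k ^ finrank k V := by
  set Cq := cobdOn r ((padicPlace (q : ℕ)).decompositionSubgroup ℚ) with hCq
  have : Finite V := Module.finite_of_finite k
  have : Module.Finite k (V ⊓ Cq : Submodule k (GQ → Matrix (Fin 2) (Fin 2) k)) :=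
    Module.Finite.of_injective (Submodule.inclusion inf_le_left) (Submodule.inclusion_injective _)
  have : Finite D.range := Finite.of_surjective _ D.rangeRestrict_surjective
  rw [← Module.natCard_eq_pow_finrank (K := k), ← Module.natCard_eq_pow_finrank (K := k)]
  have hV : Nat.card D.range = Nat.card V :=
    (Nat.card_congr (AddMonoidHom.ofInjective hinj).toEquiv).symm
  rw [← hV, ← (locTrivW hKL D.range q).index_mul_card]
  refine Nat.mul_le_mul_left _ ?_
  have hmem : ∀ b : (V ⊓ Cq : Submodule k (GQ → Matrix (Fin 2) (Fin 2) k)),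
      D.rangeRestrict ⟨b.1, b.2.1⟩ ∈ locTrivW hKL D.range q := fun b => by
    obtain ⟨X, hX, hb⟩ := b.2.2
    refine ⟨AdW.mk r₀ X hX, fun g hg => AdW.val_injective ?_⟩
    obtain ⟨s, hs, rfl⟩ := (mem_decomp_iff_exists L q g).mp hg
    show AdW.val r₀ ((D ⟨b.1, b.2.1⟩ : (L ≃ₐ[ℚ] L) → AdW r₀) (res L s)) = _
    rw [hD, levelRes_res, map_sub, AdW.val_smul, AdW.val_mk, ← map_inv, ← hr₀, ← hr₀]
    exact hb s hs
  refine Nat.card_le_card_of_injective (fun b => (⟨_, hmem b⟩ : locTrivW hKL D.range q))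
    fun b b' e => Subtype.ext ?_
  have e' : D ⟨b.1, b.2.1⟩ = D ⟨b'.1, b'.2.1⟩ :=
    congrArg Subtype.val (congrArg Subtype.val e)
  exact congrArg (fun x : V => (x : GQ → Matrix (Fin 2) (Fin 2) k)) (hinj e')

variable {p : ℕ} [hp : Fact p.Prime] [CharP k p]

omit [Finite k] hp [CharP k p] in
theorem det_one_not_scalar {A : Matrix (Fin 2) (Fin 2) k} (hd : A.det = 1) (ht : A.trace ^ 2 ≠ 4)
    (c : k) : A ≠ c • (1 : Matrix (Fin 2) (Fin 2) k) := fun e => ht (by
  rw [e, Matrix.det_smul, Matrix.det_one, mul_one, Fintype.card_fin] at hd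
  rw [e, Matrix.trace_smul, Matrix.trace_one, Fintype.card_fin, smul_eq_mul]
  push_cast
  linear_combination 4 * hd)

/-- At a split regular Frobenius the decomposition group has order prime to `p`, fixes the roots of
unity and at most a line of the adjoint module. -/
theorem aux_prime_local (hr₀ : ∀ σ, r σ = r₀ (res K σ)) (hinj : Function.Injective r₀)
    (h2 : (2 : k) ≠ 0)
    (hcyc : ∀ (σ : GQ) (a : ℕ), (∀ μ : QBar, μ ^ p = 1 → σ μ = μ ^ a) → (r σ).det = (a : k))
    (q : Nat.Primes) (hunr : ∀ τ ∈ (padicPlace (q : ℕ)).inertiaSubgroupIn ℚ, r τ = 1)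
    {F : GQ} (hF : (padicPlace (q : ℕ)).IsFrobeniusAt F q) (hd : (r F).det = 1)
    (ht : (r F).trace ^ 2 ≠ 4) {α β : k} (hne : α ≠ β)
    (hc : (r F).charpoly = (Polynomial.X - Polynomial.C α) * (Polynomial.X - Polynomial.C β))
    {ζ : K} (hζ : IsPrimitiveRoot ζ p) :
    Nat.Coprime p (Nat.card (Duality.decomp K q)) ∧
      (∀ g ∈ Duality.decomp K q, g ζ = ζ) ∧
      Nat.card (fixPts (Duality.decomp K q) (AdW r₀)) ≤ Nat.card k := by
  have hFD : F ∈ (padicPlace (q : ℕ)).decompositionSubgroup ℚ :=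
    mem_decomposition_iff.mpr (isFrobeniusAt_iff_forall_mem.mp hF).1
  -- Inertia acts trivially, so the decomposition group is generated by Frobenius.
  have hgen : ∀ g ∈ Duality.decomp K q, ∃ i : ℕ, g = res K F ^ i := fun g hg => by
    obtain ⟨σ, hσ, rfl⟩ := (mem_decomp_iff_exists K q g).mp hg
    obtain ⟨i, τ, hτ, he⟩ := exists_frobenius_mul_inertia K hF hσ
    refine ⟨i, ?_⟩
    have e1 : res K σ = res K (F ^ i * τ) := AlgEquiv.ext fun x => Subtype.ext (by
      rw [res_apply, res_apply]; exact he x x.2)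
    rw [e1, map_mul, map_pow, hinj (a₁ := res K τ) (a₂ := 1) (by rw [← hr₀, hunr τ hτ, map_one]),
      mul_one]
  have hdetα : α * β = 1 ∧ α + β = (r F).trace := by
    rw [Matrix.charpoly_fin_two, hd] at hc
    have h0 := congrArg (fun f => Polynomial.eval 0 f) hc
    have h1 := congrArg (fun f => Polynomial.eval 1 f) hc
    simp at h0 h1
    exact ⟨h0.symm, by linear_combination h1 - h0⟩
  refine ⟨?_, fun g hg => ?_, ?_⟩
  -- Frobenius has order dividing `#k - 1`, which is prime to `p`.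
  · have hαβ : α ≠ 0 ∧ β ≠ 0 := mul_ne_zero_iff.mp (by rw [hdetα.1]; exact one_ne_zero)
    have hpow : res K F ^ (Nat.card k - 1) = 1 := hinj (by
      rw [map_pow, map_one, ← hr₀]
      exact pow_card_sub_one_eq_one hne hαβ.1 hαβ.2 hdetα.2.symm (hd.trans hdetα.1.symm))
    have hle : Duality.decomp K q ≤ Subgroup.zpowers (res K F) := fun g hg => by
      obtain ⟨i, rfl⟩ := hgen g hg
      exact Subgroup.npow_mem_zpowers _ i
    have hdvd : Nat.card (Duality.decomp K q) ∣ Nat.card k - 1 :=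
      (Subgroup.card_dvd_of_le hle).trans
        (by rw [Nat.card_zpowers]; exact orderOf_dvd_of_pow_eq_one hpow)
    refine Nat.Coprime.coprime_dvd_right hdvd
      ((Nat.Prime.coprime_iff_not_dvd hp.out).mpr fun h => ?_)
    have := Fintype.ofFinite k
    obtain ⟨n, -, hn⟩ := FiniteField.card k p
    rw [Nat.card_eq_fintype_card, hn] at h
    have h3 : p ∣ p ^ (n : ℕ) := dvd_pow_self p n.pos.ne'
    have h4 := Nat.dvd_sub h3 h
    rw [show p ^ (n : ℕ) - (p ^ (n : ℕ) - 1) = 1 by
      have := Nat.one_le_pow (n : ℕ) p hp.out.pos; omega] at h4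
    exact hp.out.not_dvd_one h4
  -- It fixes `ζ` having determinant `1`, and, not being scalar, fixes at most a line.
  · obtain ⟨i, rfl⟩ := hgen g hg
    rw [← map_pow]
    refine Subtype.ext ?_
    rw [res_apply]
    exact fix_root_of_det hcyc (by rw [map_pow, Matrix.det_pow, hd, one_pow])
      (by rw [← SubmonoidClass.coe_pow, hζ.pow_eq_one]; rfl)
  · exact card_fixPts_le h2 _ ((mem_decomp_iff_exists K q _).mpr ⟨F, hFD, rfl⟩)
      fun c => by rw [← hr₀]; exact det_one_not_scalar hd ht c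

end Fermat.Agent.CFT.TWPrimes
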