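import Fermat.Agent.CFT.TWPrimes.BoundEuler
import Fermat.Agent.CFT.TWPrimes.BoundLocal
import Fermat.Agent.CFT.TUnit.LocalQ
import Fermat.Agent.CFT.Idele.Fundamental

/-!
# The count for a space of classes

The global count and the Euler count combined: a space of classes without coboundaries which is
unramified outside `S ∪ Q`, for detecting auxiliary primes `Q`, has dimension bounded by the number
of primes in `Q` and the local terms at `S`.
-/

set_option autoImplicit false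

noncomputable section

namespace Fermat.Agent.CFT.TWPrimes

open Fermat.Agent.Arith Fermat.Agent.CFT.Local Fermat.Agent.CFT.Idele
open Fermat.Agent.CFT.Duality Fermat.Agent.CFT.Euler Fermat.Agent.CFT.TUnit Fermat.Agent.CFT.PT
open Fermat.Agent.CFT.Tangent Module

/-- Cancelling the two global factors between the two counts. -/
theorem combine_counts {v N H E D Lo RQ : ℕ} (hE : 0 < E) (hD : 0 < D)
    (h1 : v * E ≤ D * Lo) (h2 : D * N * H ≤ E * RQ) : v * N * H ≤ Lo * RQ := by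
  refine Nat.le_of_mul_le_mul_left ?_ (Nat.mul_pos hE hD)
  calc E * D * (v * N * H) = v * E * (D * N * H) := by ring
    _ ≤ D * Lo * (E * RQ) := Nat.mul_le_mul h1 h2
    _ = E * D * (Lo * RQ) := by ring

variable {k : Type} [Field k] [Finite k] {p : ℕ} [hp : Fact p.Prime] [CharP k p]
  {r : GQ →* Matrix (Fin 2) (Fin 2) k} {K : IntermediateField ℚ QBar}
  [FiniteDimensional ℚ K] [Normal ℚ K] {r₀ : (K ≃ₐ[ℚ] K) →* Matrix (Fin 2) (Fin 2) k}
  [Fintype (AdW r₀)]

omit [FiniteDimensional ℚ ↥K] [Finite k] hp [CharP k p] [Fintype (AdW r₀)] in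
theorem fixPts_adW_eq_bot (hr : TWHyp r) (hr₀ : ∀ σ, r σ = r₀ (res K σ)) :
    fixPts (K ≃ₐ[ℚ] K) (AdW r₀) = ⊥ := by
  refine fixPts_eq_bot fun Y hY h => ?_
  by_contra hne
  refine hr.no_adjoint_line hne hY fun g => ⟨1, ?_⟩
  have e := congrArg (fun X => X * r₀ (res K g)) (h (res K g))
  simp only [mul_assoc, rinv_mul, mul_one] at e
  rw [one_smul, hr₀]
  exact e

omit [FiniteDimensional ℚ ↥K] [Fintype (AdW r₀)] in
/-- At complex conjugation at least a line of functionals is fixed. -/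
theorem card_le_fixDual_conj (h2 : (2 : k) ≠ 0) (hr₀ : ∀ σ, r σ = r₀ (res K σ))
    (hcyc : ∀ (σ : GQ) (a : ℕ), (∀ μ : QBar, μ ^ p = 1 → σ μ = μ ^ a) → (r σ).det = (a : k))
    {ζ : QBar} (hζ : IsPrimitiveRoot ζ p) (hζK : ζ ∈ K) {c₀ : K ≃ₐ[ℚ] K} (hcc : c₀ * c₀ = 1)
    (hc : c₀ ⟨ζ, hζK⟩ = (⟨ζ, hζK⟩ : K)⁻¹) :
    Nat.card k ≤ Nat.card (fixDual p (Subgroup.zpowers c₀) (AdW r₀)) := by
  rw [card_fixDual_eq h2]
  refine card_le_fixPts_zpowers h2 fun x hx => ?_
  obtain ⟨σ, rfl⟩ := AlgEquiv.restrictNormalHom_surjective (K₁ := K) QBar c₀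
  have hd : (r σ).det = -1 := det_eq_neg_one hcyc hζ (by
    have e := congrArg (fun z : K => (z : QBar)) hc
    simp only [IntermediateField.coe_inv] at e
    rw [← e]
    exact (res_apply (L := K) σ ⟨ζ, hζK⟩).symm)
  rw [hr₀, hx, Matrix.det_smul, Matrix.det_one, mul_one, Fintype.card_fin] at hd
  have h1 : r₀ (res K σ) * r₀ (res K σ) = 1 := by rw [← map_mul, hcc, map_one]
  rw [hx, smul_mul_assoc, one_mul, smul_smul] at h1
  have h3 := congrArg (fun M : Matrix (Fin 2) (Fin 2) k => M 0 0) h1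
  simp at h3
  exact h2 (by linear_combination hd - h3)

/-- The local count at a split regular prime. -/
theorem aux_index_le (hp2 : p ≠ 2) (h2 : (2 : k) ≠ 0) (hinj : Function.Injective r₀)
    (hr₀ : ∀ σ, r σ = r₀ (res K σ))
    (hcyc : ∀ (σ : GQ) (a : ℕ), (∀ μ : QBar, μ ^ p = 1 → σ μ = μ ^ a) → (r σ).det = (a : k))
    {ζ : QBar} (hζ : IsPrimitiveRoot ζ p) (hζK : ζ ∈ K) (q : Nat.Primes) (hqp : (q : ℕ) ≠ p)
    (hin : ∀ τ ∈ (padicPlace (q : ℕ)).inertiaSubgroupIn ℚ, r τ = 1)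
    (hfrob : ∀ F : GQ, (padicPlace (q : ℕ)).IsFrobeniusAt F q →
      (r F).det = 1 ∧ (r F).trace ^ 2 ≠ 4 ∧ ∃ α β : k, α ≠ β ∧ (r F).charpoly =
        (Polynomial.X - Polynomial.C α) * (Polynomial.X - Polynomial.C β)) :
    (extSub (M := CoInd (Duality.decomp K q) (LocUnits K q))
        (presentation_adEps (p := p) (r := r₀)).isStable_ker).index ≤
        Nat.card (fixPts (Duality.decomp K q) (AdW r₀)) ^ 2 ∧
      Nat.card (fixPts (Duality.decomp K q) (AdW r₀)) ≤ Nat.card k := by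
  have : Fintype (Duality.decomp K q) := Fintype.ofFinite _
  obtain ⟨F, hF⟩ := exists_isFrobeniusAt (padicPlace_liesOverPrime (q : ℕ)) q.2
  obtain ⟨hd, ht, α, β, hne, hch⟩ := hfrob F hF
  have hζ' : IsPrimitiveRoot (⟨ζ, hζK⟩ : K) p :=
    IsPrimitiveRoot.of_map_of_injective (f := K.val) hζ K.val.injective
  obtain ⟨hH, hfixζ, hle⟩ := aux_prime_local hr₀ hinj h2 hcyc q hin hF hd ht hne hch hζ'
  refine ⟨?_, hle⟩
  rw [index_extSub_coInd, ← card_fixDual_eq h2]
  exact index_extSub_locUnits_le hp2 (presentation_adEps (p := p) (r := r₀)) q hqp hH hζ' hfixζ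

/-- The two counts combined, in orders. -/
theorem count_orders (hp2 : p ≠ 2) (hr : TWHyp r)
    (hcyc : ∀ (σ : GQ) (a : ℕ), (∀ μ : QBar, μ ^ p = 1 → σ μ = μ ^ a) → (r σ).det = (a : k))
    (hr₀ : ∀ σ, r σ = r₀ (res K σ)) (hinj : Function.Injective r₀)
    {ζ : QBar} (hζ : IsPrimitiveRoot ζ p) (hζK : ζ ∈ K)
    {S T : Finset Nat.Primes} (hST : S ⊆ T) (hT : T.Nonempty) (hgenT : Generates K T)
    (hdet : DetectedOff (presentation_adEps (p := p) (r := r₀)) (iT K T) (iT_smul K T)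
      (fun i : T => (i : Nat.Primes) ∈ S))
    (hQ : ∀ q ∈ T, q ∉ S → (q : ℕ) ≠ p ∧
      (∀ τ ∈ (padicPlace (q : ℕ)).inertiaSubgroupIn ℚ, r τ = 1) ∧
      ∀ F : GQ, (padicPlace (q : ℕ)).IsFrobeniusAt F q → (r F).det = 1 ∧ (r F).trace ^ 2 ≠ 4 ∧
        ∃ α β : k, α ≠ β ∧ (r F).charpoly =
          (Polynomial.X - Polynomial.C α) * (Polynomial.X - Polynomial.C β))
    {L : IntermediateField ℚ QBar} [FiniteDimensional ℚ L] [Normal ℚ L] (hKL : K ≤ L)
    (hk : IsPGroup p (levelRes hKL).ker) (hLin : ∀ q ∉ T, inertia (E L q) = ⊥)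
    {u : NormCocycle (L ≃ₐ[ℚ] L) (C L)} (hu : IsClassFormation p u)
    {uK : NormCocycle (K ≃ₐ[ℚ] K) (C K)} (huK : IsClassFormation p uK)
    (W : AddSubgroup (levelCocycles (levelRes hKL) (AdW r₀))) [Finite W]
    (hW0 : ∀ a ∈ W, ∀ x : AdW r₀,
      (∀ g, (a : (L ≃ₐ[ℚ] L) → AdW r₀) g = levelRes hKL g • x - x) → a = 0) :
    Nat.card W * Nat.card k * ∏ i : S, Nat.card (fixPts (Duality.decomp K i) (AdW r₀)) ≤
      (∏ i : S, (locTrivW hKL W i).index) * Nat.card k ^ (T \ S).card := by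
  classical
  have hε := presentation_adEps (p := p) (r := r₀)
  have hKin : ∀ q ∉ T, inertia (E K q) = ⊥ := fun q hq =>
    (inertia_eq_bot_iff_inertiaFixes K (q : ℕ)).mpr
      (InertiaFixes.of_le hKL ((inertia_eq_bot_iff_inertiaFixes L (q : ℕ)).mp (hLin q hq)))
  have hDfin : ModPFinite p (CMod K T) := modPFinite_cMod hp2 hζ hζK hgenT
  -- The global count.
  have hA := global_count hKL hε hu hk hST hT hgenT hLin hDfin hdet W hW0
  obtain ⟨c₀, _, hcc, hc2, hcζ, hU⟩ := exists_conj_unitChar hp2 hζ hζK T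
  -- The Euler characteristic bound, using complex conjugation.
  have hB := euler_bound hp2 hε (fixPts_adW_eq_bot hr hr₀) hζ hζK hST hT hgenT hKin huK hdet
    (fun q h1 h2 => (aux_index_le hp2 hr.two hinj hr₀ hcyc hζ hζK q (hQ q h1 h2).1 (hQ q h1 h2).2.1
      (hQ q h1 h2).2.2).1) (c := Subgroup.zpowers c₀)
    (by rw [hc2]; exact (Nat.coprime_primes hp.out Nat.prime_two).mpr hp2) hU
  -- The fixed points at each auxiliary prime have order at most that of `k`.
  have hP : ∏ q ∈ T \ S, Nat.card (fixPts (Duality.decomp K q) (AdW r₀)) ≤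
      Nat.card k ^ (T \ S).card := by
    rw [← Finset.prod_const]
    exact Finset.prod_le_prod' fun q hq => by
      have h1 := Finset.mem_sdiff.mp hq
      exact (aux_index_le hp2 hr.two hinj hr₀ hcyc hζ hζK q (hQ q h1.1 h1.2).1 (hQ q h1.1 h1.2).2.1
        (hQ q h1.1 h1.2).2.2).2
  -- Combine the two counts.
  have hB' := le_trans (Nat.mul_le_mul_right _ (Nat.mul_le_mul_left _
      (card_le_fixDual_conj hr.two hr₀ hcyc hζ hζK hcc hcζ))) (hB.trans (Nat.mul_le_mul_left _ hP))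
  refine combine_counts ?_ (Nat.pos_of_ne_zero (index_extSub_ne_zero hε _ hDfin)) hA hB'
  exact Finset.prod_pos fun i _ => Nat.pos_of_ne_zero
    (index_extSub_ne_zero hε _ (CoInd.modPFinite (modPFinite_locUnits hp2 (i : Nat.Primes))))

/-- The count. -/
theorem selmer_count (hp2 : p ≠ 2) (hr : TWHyp r) (hfin : GaloisFactorsThroughFiniteLevel r)
    (hcyc : ∀ (σ : GQ) (a : ℕ), (∀ μ : QBar, μ ^ p = 1 → σ μ = μ ^ a) → (r σ).det = (a : k))
    (hr₀ : ∀ σ, r σ = r₀ (res K σ)) (hinj : Function.Injective r₀)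
    {ζ : QBar} (hζ : IsPrimitiveRoot ζ p) (hζK : ζ ∈ K)
    {S T : Finset Nat.Primes} (hST : S ⊆ T) (hS : S.Nonempty) (hgen : Generates K S)
    (hQ : ∀ q ∈ T, q ∉ S → (q : ℕ) ≠ p ∧
      (∀ τ ∈ (padicPlace (q : ℕ)).inertiaSubgroupIn ℚ, r τ = 1) ∧
      ∀ F : GQ, (padicPlace (q : ℕ)).IsFrobeniusAt F q → (r F).det = 1 ∧ (r F).trace ^ 2 ≠ 4 ∧
        ∃ α β : k, α ≠ β ∧ (r F).charpoly =
          (Polynomial.X - Polynomial.C α) * (Polynomial.X - Polynomial.C β))
    (hdetS : ∀ x : equivHom (C := tUnits K S) (presentation_adEps (p := p) (r := r₀)).isStable_ker,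
      (∀ q ∈ T, q ∉ S → LocRes (presentation_adEps (p := p) (r := r₀)) x q) →
        x ∈ extSub (presentation_adEps (p := p) (r := r₀)).isStable_ker)
    (V : Submodule k (GQ → Matrix (Fin 2) (Fin 2) k)) [Module.Finite k V]
    (hcoc : ∀ b ∈ V, IsAdCocycle r b) (hlev : ∀ b ∈ V, IsFiniteLevel b)
    (htr : ∀ b ∈ V, ∀ σ, (b σ).trace = 0)
    (hcob : ∀ b ∈ V, ∀ X : Matrix (Fin 2) (Fin 2) k, b = cobdLin r X → b = 0)
    (hur : ∀ q : Nat.Primes, q ∉ T → ∀ τ ∈ (padicPlace (q : ℕ)).inertiaSubgroupIn ℚ,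
      r τ = 1 ∧ ∀ b ∈ V, b τ = 0) :
    finrank k V + 1 +
        ∑ q ∈ S, (finrank k (fixedOn r ((padicPlace (q : ℕ)).decompositionSubgroup ℚ)) +
          finrank k (V ⊓ cobdOn r ((padicPlace (q : ℕ)).decompositionSubgroup ℚ) :
            Submodule k (GQ → Matrix (Fin 2) (Fin 2) k))) ≤
      (T \ S).card + S.card * finrank k V := by
  classical
  have hε := presentation_adEps (p := p) (r := r₀)
  have hT : T.Nonempty := hS.mono hST
  have hgenT : Generates K T := fun x => by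
    obtain ⟨a, ha⟩ := hgen x
    exact ⟨a, fun q hq => ha q fun h => hq (hST h)⟩
  obtain ⟨L, _, _, hKL, hk, hLur, D, hD⟩ := exists_classLevel (p := p) hr₀ hfin V hcoc hlev htr hinj
  have hLin : ∀ q ∉ T, inertia (E L q) = ⊥ := fun q hq =>
    (inertia_eq_bot_iff_inertiaFixes L (q : ℕ)).mpr (hLur q (hur q hq))
  obtain ⟨u, hu⟩ := Idele.exists_fundamental L hp2
    (IsPrimitiveRoot.of_map_of_injective (f := L.val)
      (show IsPrimitiveRoot (L.val ⟨ζ, hKL hζK⟩) p from hζ) L.val.injective)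
  obtain ⟨uK, huK⟩ := Idele.exists_fundamental K hp2
    (IsPrimitiveRoot.of_map_of_injective (f := K.val)
      (show IsPrimitiveRoot (K.val ⟨ζ, hζK⟩) p from hζ) K.val.injective)
  have hDinj : Function.Injective D := by
    rw [injective_iff_map_eq_zero]
    intro b hb
    refine Subtype.ext (funext fun σ => ?_)
    rw [← hD b σ, hb]
    exact map_zero (AdW.val r₀)
  have : Finite V := Module.finite_of_finite k
  have : Finite D.range := Finite.of_surjective _ D.rangeRestrict_surjective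
  have hW0 : ∀ a ∈ D.range, ∀ x : AdW r₀,
      (∀ g, (a : (L ≃ₐ[ℚ] L) → AdW r₀) g = levelRes hKL g • x - x) → a = 0 := by
    rintro _ ⟨b, rfl⟩ x hx
    have hb0 : b = 0 := Subtype.ext (hcob b.1 b.2 (AdW.val r₀ x) (funext fun σ => by
      rw [← hD b σ, hx, levelRes_res, map_sub, AdW.val_smul, ← map_inv, ← hr₀, ← hr₀,
        cobdLin_apply]))
    rw [hb0, map_zero]
  have hdet : DetectedOff hε (iT K T) (iT_smul K T) (fun i : T => (i : Nat.Primes) ∈ S) :=
    fun x hx => mem_extSub_of_locRes hε hST hgen hdetS x fun q hqT hqS => hx ⟨q, hqT⟩ hqS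
  have hC := count_orders hp2 hr hcyc hr₀ hinj hζ hζK hST hT hgenT hdet hQ hKL hk hLin hu huK
    D.range hW0
  -- in exponents
  set n := finrank k V
  have hcard : Nat.card D.range = Nat.card k ^ n := by
    rw [← Module.natCard_eq_pow_finrank]
    exact (Nat.card_congr (AddMonoidHom.ofInjective hDinj).toEquiv).symm
  set Q := Nat.card k
  set h : Nat.Primes → ℕ := fun q =>
    finrank k (fixedOn r ((padicPlace (q : ℕ)).decompositionSubgroup ℚ)) with hh
  set c : Nat.Primes → ℕ := fun q =>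
    finrank k (V ⊓ cobdOn r ((padicPlace (q : ℕ)).decompositionSubgroup ℚ) :
      Submodule k (GQ → Matrix (Fin 2) (Fin 2) k)) with hc
  have hle : Q ^ (n + 1 + ∑ q ∈ S, (h q + c q)) ≤ Q ^ ((T \ S).card + S.card * n) := by
    calc Q ^ (n + 1 + ∑ q ∈ S, (h q + c q))
        = Nat.card D.range * Q * (∏ i : S, Nat.card (fixPts (Duality.decomp K i) (AdW r₀))) *
            ∏ q ∈ S, Q ^ c q := by
          rw [hcard, Finset.prod_coe_sort S fun q =>
            Nat.card (fixPts (Duality.decomp K q) (AdW r₀)),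
            Finset.prod_congr rfl (fun q _ => card_fixPts_decomp hr₀ q),
            Finset.prod_pow_eq_pow_sum, Finset.prod_pow_eq_pow_sum, Finset.sum_add_distrib,
            pow_add, pow_add, pow_add, pow_one]
          ring
      _ ≤ (∏ i : S, (locTrivW hKL D.range i).index) * Q ^ (T \ S).card * ∏ q ∈ S, Q ^ c q :=
          Nat.mul_le_mul_right _ hC
      _ = Q ^ (T \ S).card * ∏ q ∈ S, ((locTrivW hKL D.range q).index * Q ^ c q) := by
          rw [Finset.prod_coe_sort S fun q => (locTrivW hKL D.range q).index,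
            Finset.prod_mul_distrib]
          ring
      _ ≤ Q ^ (T \ S).card * ∏ _q ∈ S, Q ^ n :=
          Nat.mul_le_mul_left _ (Finset.prod_le_prod' fun q _ =>
            index_locTrivW_mul_le hr₀ V D hD hDinj q)
      _ = _ := by rw [Finset.prod_const, ← pow_mul, ← pow_add, mul_comm n]
  exact (Nat.pow_le_pow_iff_right Finite.one_lt_card).mp hle

end Fermat.Agent.CFT.TWPrimes
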