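import Fermat.Agent.CFT.Euler.ExtMod
import Fermat.Agent.CFT.TUnit.Exact
import Fermat.Agent.CFT.Euler.Count

/-!
# The Euler count as an inequality of orders

The count for the sequence of `T`-units, with the indices outside a distinguished part bounded by
the squares of the invariants.
-/

set_option autoImplicit false

noncomputable section

namespace Fermat.Agent.CFT.TWPrimes

open Fermat.Agent.Arith Fermat.Agent.CFT.Local Fermat.Agent.CFT.Idele
open Fermat.Agent.CFT.Euler Fermat.Agent.CFT.TUnit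

variable {K : IntermediateField ℚ QBar} [FiniteDimensional ℚ K] [Normal ℚ K]
  {A ι : Type} [AddCommGroup A] [DistribMulAction (K ≃ₐ[ℚ] K) A] [Fintype ι] [Finite A]
  {ε : CFT.Lat (K ≃ₐ[ℚ] K) ι →+ A} {p : ℕ} [hp : Fact p.Prime]

/-- The exponent of a power of `p` read by `lpN`. -/
theorem lpN_of_eq_pow {m n : ℕ} (h : m = p ^ n) : lpN p m = (n : ℤ) := by rw [h, lpN_pow]

/-- The Euler count for the `T`-units, in orders. -/
theorem euler_bound (hp2 : p ≠ 2) (hε : Presentation p ε) (hfix : fixPts (K ≃ₐ[ℚ] K) A = ⊥)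
    {ζ : QBar} (hζ : IsPrimitiveRoot ζ p) (hζK : ζ ∈ K) {S T : Finset Nat.Primes} (hST : S ⊆ T)
    (hT : T.Nonempty) (hgenT : Generates K T) (hin : ∀ q ∉ T, inertia (E K q) = ⊥)
    {u : NormCocycle (K ≃ₐ[ℚ] K) (C K)} (hu : IsClassFormation p u)
    (hdet : DetectedOff hε (iT K T) (iT_smul K T) (fun i : T => (i : Nat.Primes) ∈ S))
    (hQ : ∀ q ∈ T, q ∉ S →
      (extSub (M := CoInd (Duality.decomp K q) (LocUnits K q)) hε.isStable_ker).index ≤
        Nat.card (fixPts (Duality.decomp K q) A) ^ 2)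
    {c : Subgroup (K ≃ₐ[ℚ] K)} [Fintype c] (hc : Nat.Coprime p (Nat.card c))
    (hU : UnitChar p (fun i : T => Duality.decomp K i) c (tUnits K T)) :
    (extSub (M := CMod K T) hε.isStable_ker).index * Nat.card (fixDual p c A) *
        ∏ i : S, Nat.card (fixPts (Duality.decomp K i) A) ≤
      (∏ i : S, (extSub (M := CoInd (Duality.decomp K i) (LocUnits K i)) hε.isStable_ker).index) *
        ∏ q ∈ T \ S, Nat.card (fixPts (Duality.decomp K q) A) := by
  classical
  have : ∀ q : Nat.Primes, Fintype (Duality.decomp K q) := fun q => Fintype.ofFinite _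
  have hA := hε.killed
  obtain ⟨uD, huD⟩ := exists_fundamental_cMod K T hT hin
    (IsPrimitiveRoot.of_map_of_injective (f := K.val)
      (show IsPrimitiveRoot (K.val ⟨ζ, hζK⟩) p from hζ)
      K.val.injective) hu hp2
  choose uE huE using fun i : T => exists_fundamental_locUnits (p := p) K (i : Nat.Primes)
  have hEfin := fun q : Nat.Primes => modPFinite_locUnits (K := K) (p := p) hp2 q
  have hDfin : ModPFinite p (CMod K T) := modPFinite_cMod hp2 hζ hζK hgenT
  have hec := euler_count hA (latPres hε) (latPres_full hε) hfix huE (fun i => hEfin _) huD hDfin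
    (modPFinite_tUnits hp2 hζ hζK) hc (iT K T) (iT_smul K T) (qT K T) (qT_smul K T)
    (iT_injective hT) (fun _ h => exists_iT_eq h) qT_iT (qT_surjective hgenT) hU
  -- the exponents
  have hMfin := fun q : Nat.Primes => CoInd.modPFinite (H := Duality.decomp K q) (hEfin q)
  choose e he using fun q : Nat.Primes =>
    exists_index_eq_pow hε (CoInd (Duality.decomp K q) (LocUnits K q)) (hMfin q)
  obtain ⟨d, hd⟩ := exists_index_eq_pow hε (CMod K T) hDfin
  have := fun q : Nat.Primes =>
    finite_equivFun hε (CoInd (Duality.decomp K q) (LocUnits K q)) (hMfin q)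
  have := finite_equivFun hε (CMod K T) hDfin
  choose e' he' using fun q : Nat.Primes => exists_card_eq_pow (p := p)
    (V := equivFun (K ≃ₐ[ℚ] K) A (CoInd (Duality.decomp K q) (LocUnits K q)))
    fun f => Subtype.ext (AddMonoidHom.ext fun a => by
      rw [AddSubgroup.coe_nsmul, AddMonoidHom.smul_apply, ← map_nsmul, hA, map_zero]; rfl)
  obtain ⟨d', hd'⟩ := exists_card_eq_pow (p := p) (V := equivFun (K ≃ₐ[ℚ] K) A (CMod K T))
    fun f => Subtype.ext (AddMonoidHom.ext fun a => by
      rw [AddSubgroup.coe_nsmul, AddMonoidHom.smul_apply, ← map_nsmul, hA, map_zero]; rfl)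
  have := finite_dual (p := p) (A := A)
  obtain ⟨fd, hfd⟩ := exists_card_eq_pow (p := p) (V := fixDual p c A) fun f =>
    Subtype.ext (AddMonoidHom.ext fun a => by
      rw [AddSubgroup.coe_nsmul, AddMonoidHom.smul_apply, ← map_nsmul, hA, map_zero]; rfl)
  choose hh hhh using fun q : Nat.Primes => exists_card_eq_pow (p := p)
    (V := fixPts (Duality.decomp K q) A) fun x => Subtype.ext (by
      rw [AddSubgroup.coe_nsmul, hA]; rfl)
  -- the kernels
  have hker := card_equivFun_le hε (iT K T) (iT_smul K T) (qT K T) (qT_smul K T) _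
    (iT_injective hT) (fun _ h => exists_iT_eq h) qT_iT (qT_surjective hgenT) hdet
    fun i => inferInstance
  rw [hd', Finset.prod_congr rfl (fun (i : T) _ => he' i), Finset.prod_pow_eq_pow_sum,
    Nat.pow_le_pow_iff_right hp.out.one_lt] at hker
  rw [index_latPres_eq, lpN_of_eq_pow hd, lpN_of_eq_pow hd', lpN_of_eq_pow hfd,
    Finset.sum_congr rfl (fun (i : T) _ => lpN_of_eq_pow (hhh i)),
    Finset.sum_congr rfl (fun (i : T) _ => (CoInd.index_eq (latPres hε)).symm.trans
      ((index_latPres_eq hε _).trans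
        (congrArg₂ (· - ·) (lpN_of_eq_pow (he i)) (lpN_of_eq_pow (he' i))))),
    Finset.sum_sub_distrib] at hec
  have hmain : d + fd + ∑ i : T, hh i ≤ ∑ i : T, e i := by
    have : ((d + fd + ∑ i : T, hh i : ℕ) : ℤ) ≤ ((∑ i : T, e i : ℕ) : ℤ) := by
      push_cast
      linarith
    exact_mod_cast this
  rw [Finset.sum_coe_sort T hh, Finset.sum_coe_sort T e, ← Finset.sum_sdiff hST,
    ← Finset.sum_sdiff hST] at hmain
  have hQ' : ∑ q ∈ T \ S, e q ≤ ∑ q ∈ T \ S, 2 * hh q := Finset.sum_le_sum fun q hq => by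
    have h := hQ q (Finset.mem_sdiff.mp hq).1 (Finset.mem_sdiff.mp hq).2
    rw [he, hhh, ← pow_mul, Nat.pow_le_pow_iff_right hp.out.one_lt] at h
    omega
  rw [← Finset.mul_sum] at hQ'
  rw [hd, hfd, Finset.prod_congr rfl (fun (i : S) _ => hhh i),
    Finset.prod_congr rfl (fun (i : S) _ => he i), Finset.prod_congr rfl (fun q _ => hhh q),
    Finset.prod_pow_eq_pow_sum, Finset.prod_pow_eq_pow_sum, Finset.prod_pow_eq_pow_sum,
    Finset.sum_coe_sort S hh, Finset.sum_coe_sort S e, ← pow_add, ← pow_add, ← pow_add]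
  exact Nat.pow_le_pow_right hp.out.pos (by omega)

end Fermat.Agent.CFT.TWPrimes
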