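import Fermat.Agent.CFT.TWPrimes.Vanishing

/-!
# Detecting a class on a regular element fixing the roots of unity

`IsCocycle.exists_detect` treats one class, `exists_detecting_family` finitely many independent
ones at once.
-/

set_option autoImplicit false

noncomputable section

namespace Fermat.Agent.CFT.TWPrimes

open Matrix

section One

variable {G : Type*} [Group G] {k : Type*} [Field k] {r : G →* Matrix (Fin 2) (Fin 2) k}
  {b : G → Matrix (Fin 2) (Fin 2) k}

local notation "M₂" => Matrix (Fin 2) (Fin 2) k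

variable {G₀ : Subgroup G} [G₀.Normal]

omit [G₀.Normal] in
/-- The subgroup is not scalar: the projective image would be abelian. -/
private theorem not_forall_scalar (hr : TWHyp r) (hdet : ∀ g ∈ G₀, (r g).det = 1)
    (hab : ∀ g h : G, g * h * g⁻¹ * h⁻¹ ∈ G₀) (hsc : ∀ g ∈ G₀, ∃ c : k, r g = c • (1 : M₂)) :
    False := by
  refine hr.not_commutative (Or.inl rfl) fun x _ y _ => ?_
  by_contra hxy
  obtain ⟨c, hc⟩ := hsc _ (hab x y)
  have hc2 : c ^ 2 = 1 := by
    have e := hdet _ (hab x y)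
    rwa [hc, det_smul, det_one, mul_one, Fintype.card_fin] at e
  have hrel : r x * r y = c • (r y * r x) := by
    calc r x * r y = r (x * y * x⁻¹ * y⁻¹) * (r y * r x) := by
          simp only [← _root_.map_mul]; congr 1; group
      _ = c • (r y * r x) := by rw [hc, smul_mul_assoc, one_mul]
  rcases sq_eq_one_iff.mp hc2 with rfl | rfl
  · exact hxy (by rw [hrel, one_smul])
  have htr : (r y).trace = 0 := by
    have e := congrArg (fun Z => (Z * r x⁻¹).trace) hrel
    simp only [smul_mul_assoc, Matrix.trace_smul, mul_assoc, mul_rinv, mul_one,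
      smul_eq_mul] at e
    have e2 : (r x * (r y * r x⁻¹)).trace = (r y).trace := by
      rw [← mul_assoc, trace_conj]
    rw [e2] at e
    refine (mul_eq_zero.mp (?_ : (2 : k) * (r y).trace = 0)).resolve_left hr.two
    linear_combination e
  have hy0 : r y ≠ 0 := fun h => det_ne_zero (r := r) y (by rw [h, det_zero])
  refine hr.no_adjoint_line hy0 htr fun g => ?_
  obtain ⟨d, hd⟩ := hsc _ (hab g y)
  refine ⟨d, ?_⟩
  calc r g * r y = r (g * y * g⁻¹ * y⁻¹) * (r y * r g) := by
        simp only [← _root_.map_mul]; congr 1; group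
    _ = d • (r y * r g) := by rw [hd, smul_mul_assoc, one_mul]

/-- A normal subgroup with abelian quotient on which `det = 1` contains a regular element. -/
theorem TWHyp.exists_regular (hr : TWHyp r) (hdet : ∀ g ∈ G₀, (r g).det = 1)
    (hab : ∀ g h : G, g * h * g⁻¹ * h⁻¹ ∈ G₀) :
    ∃ g ∈ G₀, (r g).trace ^ 2 ≠ 4 := by
  by_contra hne
  push Not at hne
  by_cases hsc : ∀ g ∈ G₀, ∃ c : k, r g = c • (1 : M₂)
  · exact not_forall_scalar hr hdet hab hsc
  -- Some `h` is not scalar, so `h²` is a nontrivial unipotent `1 + N`; with a conjugate it has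
  -- products of traces `2 + i l`, which cannot square to `4` for both `i = 1` and `i = 2`.
  push Not at hsc
  obtain ⟨h, hh, hns⟩ := hsc
  set t := (r h).trace with htdef
  have ht : t ^ 2 = 4 := hne h hh
  have ht0 : t ≠ 0 := fun e => hr.two (by
    rw [e, zero_pow two_ne_zero] at ht
    exact mul_self_eq_zero.mp (by linear_combination -ht))
  obtain ⟨N, hNdef⟩ : ∃ N, N = t • r h - (2 : k) • (1 : M₂) := ⟨_, rfl⟩
  have hu : r (h * h) = 1 + N := by
    rw [_root_.map_mul, mul_self_eq, hdet h hh, one_smul, hNdef, ← htdef]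
    module
  have hN : N * N = 0 := by
    rw [hNdef]
    simp only [sub_mul, mul_sub, smul_mul_assoc, mul_smul_comm, one_mul, mul_one]
    rw [mul_self_eq, hdet h hh, ← htdef]
    match_scalars
    · linear_combination t * ht
    · linear_combination -1 * ht
  have hN0 : N ≠ 0 := fun e => hns (2 / t) (by
    rw [hNdef, sub_eq_zero] at e
    rw [div_eq_inv_mul, ← smul_smul, ← e, smul_smul, inv_mul_cancel₀ ht0, one_smul])
  obtain ⟨g, hg⟩ := hr.exists_pair hN0 hN
  have hv := map_conj_unip hu g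
  have hM := conj_sq (r := r) hN g
  have hmem : ∀ i : ℕ, (h * h) ^ i * (g * (h * h) * g⁻¹) ∈ G₀ := fun i =>
    mul_mem (pow_mem (mul_mem hh hh) i) (Subgroup.Normal.conj_mem inferInstance _ (mul_mem hh hh) g)
  obtain ⟨l, hl⟩ : ∃ l, l = (N * (r g * N * r g⁻¹)).trace := ⟨_, rfl⟩
  rw [← hl] at hg
  have htr : ∀ i : ℕ, (2 + (i : k) * l) ^ 2 = 4 := fun i => by
    have e := hne _ (hmem i)
    rwa [_root_.map_mul, map_pow_unip hu hN, hv,
      ← one_smul k (r g * N * r g⁻¹),
      trace_one_add_mul (trace_eq_zero_of_sq hN) (trace_eq_zero_of_sq hM), 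
      mul_one, ← hl] at e
  have e1 := htr 1
  have e2 := htr 2
  push_cast at e1 e2
  have h1 : l * (l + 4) = 0 := by linear_combination e1
  have h2 : (2 : k) * ((2 : k) * (l * (l + 2))) = 0 := by linear_combination e2
  have h2' : l + 2 = 0 := (mul_eq_zero.mp ((mul_eq_zero.mp ((mul_eq_zero.mp h2).resolve_left
    hr.two)).resolve_left hr.two)).resolve_left hg
  have h1' : l + 4 = 0 := (mul_eq_zero.mp h1).resolve_left hg
  exact hr.two (by linear_combination h1' - h2')

variable [Finite k]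

/-- A class which is not a coboundary is nonzero on some regular element of `G₀`. -/
theorem IsCocycle.exists_detect (p : ℕ) [Fact p.Prime] [CharP k p]
    (hδ : ∀ a : ℕ, ¬p ∣ a → ∃ g, (r g).det = (a : k)) (hr : TWHyp r)
    (hdet : ∀ g ∈ G₀, (r g).det = 1) (hab : ∀ g h : G, g * h * g⁻¹ * h⁻¹ ∈ G₀)
    (hb : IsCocycle r b)
    (hnc : ¬∃ X : Matrix (Fin 2) (Fin 2) k, X.trace = 0 ∧ ∀ g, b g = cobd r X g) :
    ∃ g ∈ G₀, (r g).trace ^ 2 ≠ 4 ∧ phi r b g ≠ 0 := by
  by_contra hne
  push Not at hne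
  have hconj : ∀ g h : G, r h = 1 → b (g * h * g⁻¹) = ad r g (b h) := fun g h hh => by
    rw [hb.map_mul, hb.map_mul, hb.map_inv, map_neg, ← ad_mul,
      ad_of_eq_one (g := g * h * g⁻¹) (by rw [_root_.map_mul, _root_.map_mul, hh, mul_one,
      mul_rinv])]
    abel
  obtain ⟨h₀, hh₀G, hh₀r, hh₀⟩ : ∃ h ∈ G₀, r h = 1 ∧ b h ≠ 0 := by
    by_contra h0
    push Not at h0
    refine hnc (exists_coboundary p hδ hr hb fun h hh => ?_)
    by_contra hY
    refine hr.no_adjoint_line hY (hb.trace h) fun g => ⟨(r g).det⁻¹, ?_⟩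
    have hc : r (g * h * g⁻¹ * h⁻¹) = 1 := by
      rw [_root_.map_mul, _root_.map_mul, _root_.map_mul, hh, mul_one, mul_rinv, one_mul]
      calc r h⁻¹ = r h⁻¹ * r h := by rw [hh, mul_one]
        _ = 1 := rinv_mul h
    have e : b (g * h * g⁻¹) = b h := by
      conv_lhs => rw [show g * h * g⁻¹ = g * h * g⁻¹ * h⁻¹ * h by group, hb.map_mul,
        h0 _ (hab g h) hc, add_zero, ad_of_eq_one hc]
    rw [hconj g h hh, ad_apply] at e
    conv_rhs => rw [← e]
    rw [smul_mul_assoc, smul_smul, inv_mul_cancel₀ (det_ne_zero g), one_smul, mul_assoc, rinv_mul,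
      mul_one]
  obtain ⟨z, hz, hreg⟩ := hr.exists_regular hdet hab
  -- orthogonality
  have horth : ∀ g x : G, (ad r g (b h₀) * r (x * z * x⁻¹)).trace = 0 := by
    intro g x
    have hzx : x * z * x⁻¹ ∈ G₀ := Subgroup.Normal.conj_mem inferInstance _ hz x
    have htz : (r (x * z * x⁻¹)).trace = (r z).trace := by
      rw [_root_.map_mul, _root_.map_mul, trace_conj]
    have hgG : g * h₀ * g⁻¹ ∈ G₀ := Subgroup.Normal.conj_mem inferInstance _ hh₀G g
    have hgr : r (g * h₀ * g⁻¹) = 1 := by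
      rw [_root_.map_mul, _root_.map_mul, hh₀r, mul_one, mul_rinv]
    have e := hne _ (mul_mem hgG hzx) (by rwa [_root_.map_mul, hgr, one_mul, htz])
    rw [phi, hb.map_mul, ad_of_eq_one hgr, _root_.map_mul, hgr, one_mul, add_mul, Matrix.trace_add,
      hconj g h₀ hh₀r] at e
    have e2 := hne _ hzx (by rwa [htz])
    rw [phi] at e2
    rwa [e2, zero_add] at e
  obtain ⟨Z, hZdef⟩ : ∃ Z : Matrix (Fin 2) (Fin 2) k,
      Z = r z - ((r z).trace / 2) • (1 : M₂) := ⟨_, rfl⟩
  have htr2 : ∀ A : Matrix (Fin 2) (Fin 2) k, (A - (A.trace / 2) • (1 : M₂)).trace = 0 :=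
    fun A => by
    have h2 := hr.two
    rw [Matrix.trace_sub, Matrix.trace_smul, Matrix.trace_one, Fintype.card_fin, smul_eq_mul]
    push_cast
    field_simp
    ring
  have hZ0 : Z ≠ 0 := fun e => hreg (by
    rw [hZdef, sub_eq_zero] at e
    have ed := hdet z hz
    rw [e, det_smul, det_one, mul_one, Fintype.card_fin, div_pow, div_eq_one_iff_eq
      (pow_ne_zero 2 hr.two)] at ed
    rw [ed]; norm_num)
  have hZt : Z.trace = 0 := hZdef ▸ htr2 _
  have horthZ : ∀ g x : G, (ad r g (b h₀) * (r x * Z * r x⁻¹)).trace = 0 := fun g x => by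
    rw [hZdef, mul_sub, sub_mul, mul_sub, mul_smul_comm, smul_mul_assoc, mul_one, mul_rinv,
      mul_smul_comm, mul_one, Matrix.trace_sub, Matrix.trace_smul, trace_ad, hb.trace, mul_zero,
      smul_zero, sub_zero, ← _root_.map_mul, ← _root_.map_mul, horth]
  by_cases hcomm : ∀ x, (r x * Z * r x⁻¹) * Z = Z * (r x * Z * r x⁻¹)
  · refine hr.no_adjoint_line hZ0 hZt fun x => ?_
    obtain ⟨c, hc⟩ := exists_smul_of_commute hr.two (by rw [trace_conj, hZt]) hZt hZ0 (hcomm x)
    refine ⟨c, ?_⟩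
    rw [← smul_mul_assoc, ← hc, mul_assoc, rinv_mul, mul_one]
  push Not at hcomm
  obtain ⟨x, hx⟩ := hcomm
  obtain ⟨Z', hZ'⟩ : ∃ Z', Z' = r x * Z * r x⁻¹ := ⟨_, rfl⟩
  rw [← hZ'] at hx
  have hZ't : Z'.trace = 0 := by rw [hZ', trace_conj, hZt]
  obtain ⟨C, hC⟩ : ∃ C, C = Z' * Z - Z * Z' := ⟨_, rfl⟩
  have hC0 : C ≠ 0 := fun e => hx (sub_eq_zero.mp (hC ▸ e))
  have hCt : C.trace = 0 := by rw [hC, Matrix.trace_sub, Matrix.trace_mul_comm, sub_self]
  have hline : ∀ g, ∃ c : k, ad r g (b h₀) = c • C := fun g => by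
    have ht : (ad r g (b h₀)).trace = 0 := by rw [trace_ad, hb.trace, mul_zero]
    refine exists_smul_of_commute hr.two ht hCt hC0 ?_
    have o1 := anticomm_of_orth ht hZt (by simpa using horthZ g 1)
    have o2 := anticomm_of_orth ht hZ't (hZ' ▸ horthZ g x)
    rw [hC]
    simp only [mul_sub, sub_mul, ← mul_assoc, o1, o2, neg_mul]
    simp only [mul_assoc, o1, o2, mul_neg, neg_neg]
  obtain ⟨c₀, hc₀⟩ := hline 1
  rw [ad_one] at hc₀
  have hc00 : c₀ ≠ 0 := fun e => hh₀ (by rw [hc₀, e, zero_smul])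
  refine hr.no_adjoint_line hh₀ (hb.trace h₀) fun g => ?_
  obtain ⟨c, hc⟩ := hline g
  refine ⟨(r g).det⁻¹ * (c / c₀), ?_⟩
  have e : r g * b h₀ = (r g).det⁻¹ • (c • (C * r g)) := by
    rw [← smul_mul_assoc c, ← hc, ad_apply, smul_mul_assoc, smul_smul,
      inv_mul_cancel₀ (det_ne_zero g), one_smul, mul_assoc, rinv_mul, mul_one]
  rw [e, hc₀, smul_mul_assoc, smul_smul, smul_smul, mul_assoc, div_mul_cancel₀ _ hc00]

end One

variable {k : Type} [Field k] [Finite k]

/-- Group theoretic selection: regular elements of `G₀` on which the trace functions of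
independent classes form an invertible matrix. -/
theorem exists_detecting_family {G : Type*} [Group G] {r : G →* Matrix (Fin 2) (Fin 2) k}
    (p : ℕ) [Fact p.Prime] [CharP k p] {G₀ : Subgroup G} [G₀.Normal]
    (hδ : ∀ a : ℕ, ¬p ∣ a → ∃ g, (r g).det = (a : k)) (hr : TWHyp r)
    (hdet : ∀ g ∈ G₀, (r g).det = 1) (hab : ∀ g h : G, g * h * g⁻¹ * h⁻¹ ∈ G₀)
    {ι : Type} [Fintype ι] (b : ι → G → Matrix (Fin 2) (Fin 2) k) (hb : ∀ i, IsCocycle r (b i))
    (hind : ∀ c : ι → k, ∀ X : Matrix (Fin 2) (Fin 2) k, X.trace = 0 →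
      (∀ g, ∑ i, c i • b i g = cobd r X g) → c = 0) :
    ∃ g : ι → G, (∀ i, g i ∈ G₀ ∧ (r (g i)).trace ^ 2 ≠ 4) ∧
      ∀ c : ι → k, (∀ i, ∑ j, c j * phi r (b j) (g i) = 0) → c = 0 := by
  classical
  -- The vectors of values at regular elements span, as no combination of the classes vanishes on
  -- all of them; a basis among them is the family.
  let good := {g : G // g ∈ G₀ ∧ (r g).trace ^ 2 ≠ 4}
  let v : good → (ι → k) := fun g j => phi r (b j) g.1
  have hspan : Submodule.span k (Set.range v) = ⊤ := by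
    by_contra hne
    obtain ⟨f, hf0, hf⟩ := Submodule.exists_le_ker_of_lt_top _ (lt_top_iff_ne_top.mpr hne)
    set c : ι → k := fun j => f (Pi.single j 1) with hc
    have hcf : ∀ w : ι → k, f w = ∑ j, c j * w j := fun w => by
      conv_lhs => rw [pi_eq_sum_univ' w]
      rw [map_sum]
      exact Finset.sum_congr rfl fun j _ => by
        rw [map_smul, smul_eq_mul, mul_comm, hc]
    have hc0 : c ≠ 0 := fun e => hf0 (LinearMap.ext fun w => by simp [hcf w, e])
    obtain ⟨g, hg, hreg, hphi⟩ :=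
      (IsCocycle.sum Finset.univ c fun i _ => hb i).exists_detect p hδ hr
      hdet hab fun ⟨X, hX, e⟩ => hc0 (hind c X hX e)
    refine hphi ?_
    have e := hf (Submodule.subset_span ⟨⟨g, hg, hreg⟩, rfl⟩)
    rw [LinearMap.mem_ker, hcf] at e
    rw [phi, Finset.sum_mul, Matrix.trace_sum, ← e]
    exact Finset.sum_congr rfl fun j _ => by
      rw [smul_mul_assoc, Matrix.trace_smul, smul_eq_mul]
      rfl
  obtain ⟨κ, a, -, hsp, hli⟩ := exists_linearIndependent' k v
  rw [hspan] at hsp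
  let B := Module.Basis.mk hli hsp.ge
  let e : κ ≃ ι := B.indexEquiv (Pi.basisFun k ι)
  refine ⟨fun i => (a (e.symm i)).1, fun i => (a (e.symm i)).2, fun c hc => funext fun j => ?_⟩
  let f : (ι → k) →ₗ[k] k := ∑ j, c j • LinearMap.proj j
  have hf : f = 0 := B.ext fun x => by
    have e' := hc (e x)
    simp only [Equiv.symm_apply_apply] at e'
    rw [Module.Basis.mk_apply, LinearMap.zero_apply]
    simpa [f, v, Function.comp] using e'
  have := LinearMap.congr_fun hf (Pi.single j 1)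
  simpa [f, Pi.single_apply] using this

end Fermat.Agent.CFT.TWPrimes
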