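import Fermat.Agent.CFT.TWPrimes.Kummer
import Fermat.Agent.CFT.TUnit.UnitChar

/-!
# Detecting classes in the units at auxiliary primes

Finitely many Kummer cocycles detect every class of equivariant maps into the units at a good set;
adjoining auxiliary primes to the set adds no undetected class.
-/

set_option autoImplicit false

noncomputable section

namespace Fermat.Agent.CFT.TWPrimes

open Fermat.Agent.Arith IntermediateField Fermat.Agent.CFT.Idele
open Fermat.Agent.CFT.Duality Fermat.Agent.CFT.Euler Fermat.Agent.CFT.TUnit Fermat.Agent.CFT.PT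

variable {K : IntermediateField ℚ QBar} [FiniteDimensional ℚ K] [Normal ℚ K]
  {A ι : Type} [AddCommGroup A] [DistribMulAction (K ≃ₐ[ℚ] K) A] [Fintype ι]
  {ε : CFT.Lat (K ≃ₐ[ℚ] K) ι →+ A} {p : ℕ}

/-- The values of a `T`-unit over `q`. -/
def valU (T : Finset Nat.Primes) (q : Nat.Primes) :
    tUnits K T →+ CoInd (Duality.decomp K q) (LocUnits K q) :=
  (valAt q).comp ((diag K).comp (tUnits K T).subtype)

omit [FiniteDimensional ℚ ↥K] in
theorem valU_apply (T : Finset Nat.Primes) (q : Nat.Primes) (a : tUnits K T) :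
    valU T q a = valAt q (diag K (a : Additive Kˣ)) := rfl

omit [FiniteDimensional ℚ ↥K] in
theorem valU_smul (T : Finset Nat.Primes) (q : Nat.Primes) (g : K ≃ₐ[ℚ] K) (a : tUnits K T) :
    valU T q (g • a) = g • valU T q a := by
  rw [valU_apply, coe_smul_tUnits, diag_smul, valAt_smul, valU_apply]

/-- The map is a restriction over `q`. -/
def LocRes (hε : Presentation p ε) {T : Finset Nat.Primes}
    (x : equivHom (C := tUnits K T) hε.isStable_ker) (q : Nat.Primes) : Prop :=
  compHom hε.isStable_ker (valU T q) (valU_smul T q) x ∈ extSub hε.isStable_ker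

/-- Auxiliary primes add no undetected class. -/
theorem mem_extSub_of_locRes (hε : Presentation p ε) {S T : Finset Nat.Primes} (hST : S ⊆ T)
    (hgen : Generates K S)
    (hdet : ∀ x : equivHom (C := tUnits K S) hε.isStable_ker,
      (∀ q ∈ T, q ∉ S → LocRes hε x q) → x ∈ extSub hε.isStable_ker)
    (x : equivHom (C := tUnits K T) hε.isStable_ker)
    (hx : ∀ q ∈ T, q ∉ S → LocRes hε x q) : x ∈ extSub hε.isStable_ker := by
  classical
  -- `Y q`: an extension of `x` over each auxiliary prime `q`.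
  have hY : ∀ q : Nat.Primes, ∃ Y : CFT.Lat (K ≃ₐ[ℚ] K) ι →+ CoInd (Duality.decomp K q)
    (LocUnits K q),
      (∀ (g : K ≃ₐ[ℚ] K) z, Y (g • z) = g • Y z) ∧
        (q ∈ T → q ∉ S → ∀ s : ε.ker, valAt q (diag K (x.1 s : Additive Kˣ)) = Y s) := fun q => by
    by_cases hq : q ∈ T ∧ q ∉ S
    · obtain ⟨Y, hY, hxY⟩ := hx q hq.1 hq.2
      exact ⟨Y, hY, fun _ _ => hxY⟩
    · exact ⟨0, fun g z => (smul_zero g).symm, fun h1 h2 => absurd ⟨h1, h2⟩ hq⟩
  choose Y hY hxY using hY
  -- As `S` generates, some equivariant `Z` into the `T`-units has the orders of `Y q` at each `q`.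
  let F : ι → ∀ i : T, CoInd (Duality.decomp K i) (LocUnits K i) := fun j i =>
    if (i : Nat.Primes) ∈ S then 0 else Y i (CFT.Lat.e j 1)
  choose a ha using fun j => hgen (toJ T (F j))
  have haT : ∀ j, -a j ∈ tUnits K T := fun j q hq σ => by
    have h1 := ha j q (fun h => hq (hST h)) σ
    rw [val_toMul_add, val_toJ_notMem T _ hq, one_mul] at h1
    rw [map_neg, show val (-diag K (a j)).toMul q σ = (val (diag K (a j)).toMul q σ)⁻¹ from
      map_inv (valHom q σ) _]
    exact inv_mem h1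
  let Z : CFT.Lat (K ≃ₐ[ℚ] K) ι →+ tUnits K T :=
    CFT.Lat.ofBasis fun j g => g • (⟨-a j, haT j⟩ : tUnits K T)
  have hZ : ∀ (g : K ≃ₐ[ℚ] K) z, Z (g • z) = g • Z z := fun g =>
    CFT.Lat.map_smul_of_basis _ g fun j h => by rw [CFT.Lat.ofBasis_e, CFT.Lat.ofBasis_e, mul_smul]
  have hord : ∀ q ∈ T, q ∉ S → ∀ σ z,
      ordLoc q (CoInd.fn (valU T q (Z z)) σ) = ordLoc q (CoInd.fn (Y q z) σ) := by
    intro q hqT hqS σ
    let ev : CoInd (Duality.decomp K q) (LocUnits K q) →+ TrivZ (Duality.decomp K q) :=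
      (ordLoc q).comp ((Pi.evalAddMonoidHom (fun _ : K ≃ₐ[ℚ] K => LocUnits K q) σ).comp CoInd.fn)
    have e : (ev.comp ((valU T q).comp Z)) = ev.comp (Y q) := CFT.Lat.hom_ext fun j g => by
      show ordLoc q (CoInd.fn (valU T q (Z (CFT.Lat.e j g))) σ) =
        ordLoc q (CoInd.fn (Y q (CFT.Lat.e j g)) σ)
      have hg : CFT.Lat.e j g = g • CFT.Lat.e (G := K ≃ₐ[ℚ] K) j 1 := by
        rw [CFT.Lat.smul_e, mul_one]
      rw [hg, hZ, hY, valU_smul, CoInd.fn_smul, CoInd.fn_smul, CFT.Lat.ofBasis_e, one_smul,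
        valU_apply, AddSubgroup.coe_mk, map_neg, map_neg, map_neg, Pi.neg_apply, fn_valAt]
      have h1 := ha j q hqS (σ * g)
      rw [val_toMul_add, val_toJ T _ hqT] at h1
      simp only [F, if_neg hqS] at h1
      obtain ⟨v, hv⟩ := (LocUnits.of K q).surjective (CoInd.fn (Y q (CFT.Lat.e j 1)) (σ * g))
      rw [← hv, AddEquiv.symm_apply_apply] at h1
      rw [← hv, map_neg (ordLoc q), neg_eq_iff_add_eq_zero, ← map_add (ordLoc q), ← map_add,
        ordLoc_eq_zero_iff, toMul_add, toMul_ofMul, mul_comm]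
      exact h1
    exact fun z => DFunLike.congr_fun e z
  -- So `x₁ = x - Z` has values in the `S`-units, and restricts over each auxiliary prime.
  have hx₁ : ∀ s : ε.ker, (x.1 s : Additive Kˣ) - (Z s : Additive Kˣ) ∈ tUnits K S :=
    fun s q hq σ => by
    by_cases hqT : q ∈ T
    · have h1 : ordLoc q (CoInd.fn (valU T q (x.1 s - Z s)) σ) = 0 := by
        rw [map_sub, map_sub, Pi.sub_apply, map_sub, hord q hqT hq, valU_apply,
          hxY q hqT hq, sub_self]
      rw [valU_apply, fn_valAt, ordLoc_eq_zero_iff] at h1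
      exact h1
    · exact (x.1 s - Z s).2 q hqT σ
  let x₁ : equivHom (C := tUnits K S) hε.isStable_ker :=
    ⟨AddMonoidHom.mk' (fun s => ⟨_, hx₁ s⟩) fun s t => Subtype.ext (by
      simp only [AddSubgroup.coe_add, map_add]
      abel), fun g s => Subtype.ext (by
      show (x.1 (smulS hε.isStable_ker g s) : Additive Kˣ) - (Z (g • s.1) : Additive Kˣ) =
        g • ((x.1 s : Additive Kˣ) - (Z s : Additive Kˣ))
      rw [show x.1 (smulS hε.isStable_ker g s) = g • x.1 s from x.2 g s, hZ, coe_smul_tUnits,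
        coe_smul_tUnits, smul_sub])⟩
  obtain ⟨W, hW, hxW⟩ := hdet x₁ fun q hqT hqS => by
    refine ⟨Y q - (valU T q).comp Z, fun g z => ?_, fun s => ?_⟩
    · simp only [AddMonoidHom.sub_apply, AddMonoidHom.comp_apply, hY, hZ, valU_smul, smul_sub]
    · show valAt q (diag K ((x.1 s : Additive Kˣ) - (Z s : Additive Kˣ))) = _
      rw [map_sub, map_sub, hxY q hqT hqS, AddMonoidHom.sub_apply]
      rfl
  -- It extends by hypothesis, hence so does `x = x₁ + Z`.
  have hincl : ∀ a : tUnits K S, (a : Additive Kˣ) ∈ tUnits K T := fun a q hq σ =>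
    a.2 q (fun h => hq (hST h)) σ
  refine ⟨Z + AddMonoidHom.mk' (fun z => (⟨(W z : Additive Kˣ), hincl (W z)⟩ : tUnits K T))
    (fun z w => Subtype.ext (by simp)), fun g z => ?_, fun s => Subtype.ext ?_⟩
  · refine Subtype.ext ?_
    simp only [AddMonoidHom.add_apply, AddMonoidHom.mk'_apply, AddSubgroup.coe_add, hZ, hW,
      coe_smul_tUnits, smul_add]
  · show (x.1 s : Additive Kˣ) = (Z s : Additive Kˣ) + (W s : Additive Kˣ)
    rw [← hxW, show (x₁.1 s : Additive Kˣ) = (x.1 s : Additive Kˣ) - (Z s : Additive Kˣ) from rfl]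
    abel

/-- Membership of a composite only depends on the class. -/
theorem compHom_mem_of_sub_mem {G P M M' : Type*} [Group G] [AddCommGroup P]
    [DistribMulAction G P] [AddCommGroup M] [DistribMulAction G M] [AddCommGroup M']
    [DistribMulAction G M'] {R : AddSubgroup P} (hR : IsStable G R) (f : M →+ M')
    (hf : ∀ (g : G) (m : M), f (g • m) = g • f m) {x y : equivHom (C := M) hR}
    (h : y - x ∈ extSub hR) (hx : compHom hR f hf x ∈ extSub hR) :
    compHom hR f hf y ∈ extSub hR := by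
  have e := add_mem (compHom_mem_extSub hR f hf h) hx
  rwa [← map_add, sub_add_cancel] at e

/-- A family independent modulo a subspace, spanning a finite family modulo it. -/
theorem exists_indep_family {k M γ : Type*} [Field k] [AddCommGroup M] [Module k M] [Finite γ]
    (Cb : Submodule k M) (v : γ → M) :
    ∃ (m : ℕ) (w : Fin m → M), (∀ i, w i ∈ Submodule.span k (Set.range v)) ∧
      (∀ c : Fin m → k, ∑ i, c i • w i ∈ Cb → c = 0) ∧
      ∀ c, ∃ a : Fin m → k, v c - ∑ i, a i • w i ∈ Cb := by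
  have : Module.Finite k (Submodule.span k (Set.range v)) :=
    Module.Finite.span_of_finite k (Set.finite_range v)
  let π : Submodule.span k (Set.range v) →ₗ[k] M ⧸ Cb :=
    Cb.mkQ.comp (Submodule.span k (Set.range v)).subtype
  let B := Module.finBasis k (LinearMap.range π)
  choose w hw using fun i => (B i).2
  have hlin : ∀ c : Fin _ → k, ((∑ i, c i • B i : LinearMap.range π) : M ⧸ Cb) =
      Cb.mkQ (∑ i, c i • (w i : M)) := fun c => by
    rw [Submodule.coe_sum, map_sum]
    exact Finset.sum_congr rfl fun i _ => by rw [Submodule.coe_smul, map_smul, ← hw i]; rfl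
  refine ⟨_, fun i => w i, fun i => (w i).2, fun c hc => ?_, fun c => ?_⟩
  · have h0 : Cb.mkQ (∑ i, c i • (w i : M)) = 0 := (Submodule.Quotient.mk_eq_zero _).mpr hc
    rw [← hlin] at h0
    exact funext (Fintype.linearIndependent_iff.mp B.linearIndependent c (Subtype.ext h0))
  · let u : LinearMap.range π := ⟨π ⟨v c, Submodule.subset_span ⟨c, rfl⟩⟩, ⟨_, rfl⟩⟩
    refine ⟨fun i => B.repr u i, ?_⟩
    rw [← Submodule.Quotient.eq, ← Submodule.mkQ_apply, ← Submodule.mkQ_apply, ← hlin, B.sum_repr]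
    rfl

section Family

variable {k : Type} [Field k] [Finite k] [hp : Fact p.Prime] [CharP k p]
  {r : GQ →* Matrix (Fin 2) (Fin 2) k} {r₀ : (K ≃ₐ[ℚ] K) →* Matrix (Fin 2) (Fin 2) k}
  [Fintype (AdW r₀)] {ζ : QBar}

/-- The coboundaries of trace zero matrices. -/
def cobdSub (r : GQ →* Matrix (Fin 2) (Fin 2) k) :
    Submodule k (GQ → Matrix (Fin 2) (Fin 2) k) where
  carrier := {b | ∃ X : Matrix (Fin 2) (Fin 2) k, X.trace = 0 ∧ b = cobd r X}
  add_mem' := by
    rintro a b ⟨X, hX, rfl⟩ ⟨Y, hY, rfl⟩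
    refine ⟨X + Y, by rw [Matrix.trace_add, hX, hY, add_zero], funext fun g => ?_⟩
    rw [Pi.add_apply, cobd, cobd, cobd, map_add]
    abel
  zero_mem' := ⟨0, Matrix.trace_zero _ _, funext fun g => by simp [cobd]⟩
  smul_mem' := by
    rintro c b ⟨X, hX, rfl⟩
    exact ⟨c • X, by rw [Matrix.trace_smul, hX, smul_zero], funext fun g => by
      rw [Pi.smul_apply, cobd, cobd, map_smul, smul_sub]⟩

/-- Finitely many cocycles detect every class in the units at `S`. -/
theorem exists_detection (h2 : (2 : k) ≠ 0) (hζ : IsPrimitiveRoot ζ p)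
    (hr₀ : ∀ σ, r σ = r₀ (res K σ))
    (hcyc : ∀ (σ : GQ) (a : ℕ), (∀ μ : QBar, μ ^ p = 1 → σ μ = μ ^ a) → (r σ).det = (a : k))
    (S : Finset Nat.Primes) (hU : ModPFinite p (tUnits K S)) :
    ∃ (m : ℕ) (b : Fin m → GQ → Matrix (Fin 2) (Fin 2) k),
      (∀ i, IsCocycle r (b i)) ∧
      (∀ i, ∃ L : IntermediateField ℚ QBar, FiniteDimensional ℚ L ∧
        ∀ σ : GQ, (∀ y ∈ L, σ y = y) → b i σ = 0) ∧
      (∀ c : Fin m → k, ∀ X : Matrix (Fin 2) (Fin 2) k, X.trace = 0 →
        (∀ g, ∑ i, c i • b i g = cobd r X g) → c = 0) ∧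
      ∀ (q : Fin m → Nat.Primes) (φ : Fin m → GQ),
        (∀ i, φ i ∈ (padicPlace (q i : ℕ)).decompositionSubgroup ℚ) → (∀ i, (r (φ i)).det = 1) →
        (∀ c : Fin m → k, (∀ i, ∑ j, c j * phi r (b j) (φ i) = 0) → c = 0) →
        ∀ x : equivHom (C := tUnits K S) (presentation_adEps (p := p) (r := r₀)).isStable_ker,
          (∀ i, LocRes (presentation_adEps (p := p) (r := r₀)) x (q i)) →
          x ∈ extSub (presentation_adEps (p := p) (r := r₀)).isStable_ker := by
  classical
  have hε := presentation_adEps (p := p) (r := r₀)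
  let E := extSub (M := tUnits K S) hε.isStable_ker
  have : E.FiniteIndex := ⟨index_extSub_ne_zero hε _ hU⟩
  have : Finite (_ ⧸ E) := AddSubgroup.finite_quotient_of_finiteIndex
  -- Kummer cocycles of representatives modulo the classes which extend; `w` is a basis of
  -- their span modulo coboundaries.
  choose rep hrep using QuotientAddGroup.mk'_surjective E
  choose x' hx' using fun c => exists_extension (rep c)
  choose bc hbc using fun c => exists_isKummer hζ h2 (hx' c)
  let W := Submodule.span k (Set.range bc)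
  obtain ⟨m, w, hwW, hind, hrepr⟩ := exists_indep_family (cobdSub r) bc
  have hcoc : ∀ b ∈ W, IsCocycle r b := fun b hb => by
    refine Submodule.span_induction ?_ ?_ ?_ ?_ hb
    · rintro _ ⟨c, rfl⟩; exact (hbc c).isCocycle hζ hr₀ hcyc h2
    · exact ⟨fun _ => Matrix.trace_zero _ _, fun g h => by simp⟩
    · intro a b _ _ ha hb
      exact ⟨fun g => by rw [Pi.add_apply, Matrix.trace_add, ha.trace, hb.trace, add_zero],
        fun g h => by simp only [Pi.add_apply, ha.map_mul, hb.map_mul, map_add]; abel⟩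
    · intro t b _ hb
      exact ⟨fun g => by rw [Pi.smul_apply, Matrix.trace_smul, hb.trace, smul_zero],
        fun g h => by simp only [Pi.smul_apply, hb.map_mul, map_smul, smul_add]⟩
  choose Lv hLv hLv' using fun c => (hbc c).exists_level hζ h2
  let Lall : IntermediateField ℚ QBar := ⨆ c, Lv c
  have : FiniteDimensional ℚ Lall := inferInstance
  have hlev : ∀ b ∈ W, ∀ σ : GQ, (∀ y ∈ Lall, σ y = y) → b σ = 0 := fun b hb σ hσ => by
    refine Submodule.span_induction ?_ rfl ?_ ?_ hb
    · rintro _ ⟨c, rfl⟩; exact hLv' c σ fun y hy => hσ y (le_iSup Lv c hy)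
    · intro a b _ _ ha hb; rw [Pi.add_apply, ha, hb, add_zero]
    · intro t b _ hb; rw [Pi.smul_apply, hb, smul_zero]
  refine ⟨m, w, fun i => hcoc _ (hwW i), fun i => ⟨Lall, inferInstance, hlev _ (hwW i)⟩,
    fun c X hX h => hind c ⟨X, hX, funext fun g => by rw [Finset.sum_apply, ← h g]; rfl⟩, ?_⟩
  -- If the pairing with the `φ i` is nondegenerate, the coordinates of a locally extending class
  -- vanish: its cocycle is a coboundary, so it extends.
  intro q φ hφ hdet hsel x hx
  obtain ⟨c₀, hdiff⟩ : ∃ c, rep c - x ∈ E :=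
    ⟨_, QuotientAddGroup.eq_iff_sub_mem.mp (hrep (QuotientAddGroup.mk' E x))⟩
  have hloc : ∀ i, LocRes hε (rep c₀) (q i) := fun i => by
    have h := hx i
    unfold LocRes at h ⊢
    exact compHom_mem_of_sub_mem hε.isStable_ker _ _ hdiff h
  obtain ⟨a, X, hX, hXe⟩ := hrepr c₀
  have hb0 : ∀ i, phi r (bc c₀) (φ i) = 0 := fun i => by
    obtain ⟨Yq, hYq, hxY⟩ := hloc i
    exact (hbc c₀).phi_eq_zero hζ hr₀ hcyc h2 (hx' c₀) (q i) Yq hYq hxY (hφ i) (hdet i)
  have hc : a = 0 := hsel _ fun i => by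
    have e := hb0 i
    rw [phi, show bc c₀ = ∑ j, a j • w j + cobd r X by rw [← hXe, add_sub_cancel], Pi.add_apply,
      add_mul, Matrix.trace_add] at e
    have e2 : (cobd r X (φ i) * r (φ i)).trace = 0 := by
      rw [cobd, ad_apply, hdet, one_smul, sub_mul, Matrix.trace_sub, mul_assoc (r (φ i) * X),
        rinv_mul, mul_one, Matrix.trace_mul_comm (r (φ i)), sub_self]
    rw [e2, add_zero, Finset.sum_apply, Finset.sum_mul, Matrix.trace_sum] at e
    rw [← e]
    exact Finset.sum_congr rfl fun j _ => by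
      rw [Pi.smul_apply, smul_mul_assoc, Matrix.trace_smul, smul_eq_mul]; rfl
  have hrepmem : rep c₀ ∈ E := (hbc c₀).mem_extSub hζ hr₀ hcyc (hx' c₀) (Y := X) fun σ => by
    have e := congrFun hXe σ
    rw [hc] at e
    simpa using e
  have e := sub_mem hrepmem hdiff
  rwa [sub_sub_cancel] at e

end Family

end Fermat.Agent.CFT.TWPrimes
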