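import Fermat.Agent.CFT.TWPrimes.Detection
import Fermat.Agent.CFT.Duality.Main

/-!
# The global count

For a space `W` of cocycles without coboundaries at a level unramified outside `T`, the duality map
shows that the order of `W` times the local cokernels at `S` is at most the cokernel of restriction
for the classes modulo unit families times the local images of `W`.

The main theorem is `global_count`.
-/

set_option autoImplicit false

noncomputable section

namespace Fermat.Agent.CFT.TWPrimes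

open Fermat.Agent.Arith IntermediateField Fermat.Agent.CFT.Local Fermat.Agent.CFT.Idele
open Fermat.Agent.CFT.Duality Fermat.Agent.CFT.Euler Fermat.Agent.CFT.TUnit

/-! ### Algebra of counting -/

section Algebra

theorem index_pi_eq {τ : Type} [Fintype τ] {H : τ → Type} [∀ i, AddCommGroup (H i)]
    (E : ∀ i, AddSubgroup (H i)) :
    (AddSubgroup.pi Set.univ E).index = ∏ i, (E i).index := by
  let φ : (∀ i, H i) →+ ∀ i, H i ⧸ E i :=
    AddMonoidHom.pi fun i => (QuotientAddGroup.mk' _).comp (Pi.evalAddMonoidHom H i)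
  have hφ : Function.Surjective φ := fun z => by
    choose y hy using fun i => QuotientAddGroup.mk'_surjective (E i) (z i)
    exact ⟨y, funext hy⟩
  have hker : AddSubgroup.pi Set.univ E = φ.ker := by
    ext y
    exact ⟨fun h => funext fun i => (QuotientAddGroup.eq_zero_iff _).mpr (h i (Set.mem_univ i)),
      fun h i _ => (QuotientAddGroup.eq_zero_iff _).mp (congrFun h i)⟩
  rw [hker, AddSubgroup.index_ker, AddMonoidHom.range_eq_top.mpr hφ, AddSubgroup.card_top,
    Nat.card_pi]
  rfl

/-- Counting through a map factoring a surjection. -/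
theorem card_mul_le_of_factor {H Q C Y : Type} [AddCommGroup H] [AddCommGroup Q] [AddCommGroup C]
    [AddCommGroup Y] [Finite Q] (Φ : H →+ Q) (R : H →+ C) (hR : Function.Surjective R)
    (hker : Φ.ker ≤ R.ker) (j : Y →+ H) :
    Nat.card C * Nat.card (Φ.comp j).range ≤ Nat.card Q * Nat.card (R.comp j).range := by
  let R' : Φ.range →+ C :=
    AddMonoidHom.liftOfSurjective Φ.rangeRestrict Φ.rangeRestrict_surjective
      ⟨R, fun x hx => hker (congrArg Subtype.val (AddMonoidHom.mem_ker.mp hx))⟩
  have hR' : ∀ x, R' (Φ.rangeRestrict x) = R x := fun x =>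
    AddMonoidHom.liftOfRightInverse_comp_apply Φ.rangeRestrict _ _ ⟨R, _⟩ x
  let I : AddSubgroup Φ.range := (Φ.rangeRestrict.comp j).range
  have hI : Nat.card (Φ.comp j).range = Nat.card I := by
    have e : (Φ.comp j).range = I.map Φ.range.subtype := by
      rw [AddMonoidHom.map_range]; rfl
    rw [e]
    exact Nat.card_congr (I.equivMapOfInjective _ Φ.range.subtype_injective).toEquiv.symm
  have hRI : (R.comp j).range = I.map R' := by
    rw [AddMonoidHom.map_range]
    congr 1
    exact AddMonoidHom.ext fun y => (hR' (j y)).symm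
  have hsurj : R'.range = ⊤ := AddMonoidHom.range_eq_top.mpr fun c => by
    obtain ⟨x, rfl⟩ := hR c
    exact ⟨_, hR' x⟩
  have h1 : Nat.card Φ.range = Nat.card R'.ker * Nat.card C := by
    rw [← R'.ker.card_mul_index, AddSubgroup.index_ker, hsurj, AddSubgroup.card_top]
  let RI := R'.comp I.subtype
  have h2 : Nat.card I = Nat.card RI.ker * Nat.card (I.map R') := by
    rw [← RI.ker.card_mul_index, AddSubgroup.index_ker]
    congr 2
    rw [AddMonoidHom.range_comp, AddSubgroup.range_subtype]
  have h3 : Nat.card RI.ker ≤ Nat.card R'.ker :=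
    Nat.card_le_card_of_injective (fun x => (⟨x.1.1, x.2⟩ : R'.ker)) fun x y e =>
      Subtype.ext (Subtype.ext (congrArg Subtype.val e :))
  have h4 : Nat.card Φ.range ≤ Nat.card Q :=
    Nat.card_le_card_of_injective _ Subtype.val_injective
  rw [hI, hRI, h2]
  calc Nat.card C * (Nat.card RI.ker * Nat.card (I.map R'))
      ≤ Nat.card C * (Nat.card R'.ker * Nat.card (I.map R')) := by gcongr
    _ = Nat.card Φ.range * Nat.card (I.map R') := by rw [h1]; ring
    _ ≤ _ := by gcongr

theorem prod_index_le {τ : Type} [Fintype τ] {H : τ → Type} [∀ i, AddCommGroup (H i)]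
    (E : ∀ i, AddSubgroup (H i)) {Q : Type} [AddCommGroup Q] [Finite Q] (ψ : (∀ i, H i) →+ Q)
    (hψ : ∀ y, ψ y = 0 → ∀ i, y i ∈ E i) : ∏ i, (E i).index ≤ Nat.card ψ.range := by
  rw [← index_pi_eq, ← AddSubgroup.index_ker]
  refine Nat.le_of_dvd (Nat.pos_of_ne_zero ?_) (AddSubgroup.index_dvd_of_le fun y hy i _ => ?_)
  · rw [AddSubgroup.index_ker]; exact Nat.card_pos.ne'
  · exact hψ y (AddMonoidHom.mem_ker.mp hy) i

theorem card_range_le_prod {τ : Type} [Fintype τ] {Y V : Type} [AddCommGroup Y] [AddCommGroup V]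
    [Finite V] (B : τ → AddSubgroup V) (f : Y →+ V)
    (hf : ∀ y, ∃ μ : ∀ i, B i, ∑ i, (μ i : V) = f y) :
    Nat.card f.range ≤ ∏ i, Nat.card (B i) := by
  classical
  rw [← Nat.card_pi]
  refine Nat.card_le_card_of_surjective
    (fun μ : ∀ i, B i => if hμ : ∑ i, (μ i : V) ∈ f.range then (⟨_, hμ⟩ : f.range) else 0)
    fun ⟨v, y, e⟩ => ?_
  obtain ⟨μ, hμ⟩ := hf y
  exact ⟨μ, (dif_pos (show ∑ i, (μ i : V) ∈ f.range from ⟨y, hμ.symm⟩)).trans
    (Subtype.ext (hμ.trans e))⟩

variable {p : ℕ} [hp : Fact p.Prime]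

/-- Functionals killing a subgroup. -/
def annSub {W : Type} [AddCommGroup W] (N : AddSubgroup W) : AddSubgroup (W →+ ZMod p) where
  carrier := {μ | ∀ x ∈ N, μ x = 0}
  add_mem' {μ ν} hμ hν x hx := by rw [AddMonoidHom.add_apply, hμ x hx, hν x hx, add_zero]
  zero_mem' _ _ := rfl
  neg_mem' {μ} hμ x hx := by rw [AddMonoidHom.neg_apply, hμ x hx, neg_zero]

theorem card_annSub_le {W : Type} [AddCommGroup W] [Finite W] (hW : ∀ x : W, p • x = 0)
    (N : AddSubgroup W) : Nat.card (annSub (p := p) N) ≤ N.index := by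
  have hq : ∀ x : W ⧸ N, p • x = 0 := fun x => by
    obtain ⟨y, rfl⟩ := QuotientAddGroup.mk'_surjective N x
    rw [← map_nsmul, hW, map_zero]
  have := finite_dual (p := p) (A := W ⧸ N)
  rw [AddSubgroup.index, ← card_dual (p := p) hq]
  refine Nat.card_le_card_of_injective
    (fun μ : annSub (p := p) N => QuotientAddGroup.lift N μ.1 fun x hx => μ.2 x hx)
    fun μ ν e => Subtype.ext (AddMonoidHom.ext fun x => ?_)
  exact DFunLike.congr_fun e (QuotientAddGroup.mk' N x)

end Algebra

variable {K L : IntermediateField ℚ QBar} [FiniteDimensional ℚ K] [Normal ℚ K]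
  [FiniteDimensional ℚ L] [Normal ℚ L] (h : K ≤ L)
  {A ι : Type} [AddCommGroup A] [DistribMulAction (K ≃ₐ[ℚ] K) A] [Fintype ι]
  {ε : CFT.Lat (K ≃ₐ[ℚ] K) ι →+ A} {p : ℕ} [hp : Fact p.Prime]

/-! ### Cocycles locally trivial and padding -/

/-- The cocycles which are coboundaries on the decomposition group of `q`. -/
def locTrivW (W : AddSubgroup (levelCocycles (levelRes h) A)) (q : Nat.Primes) : AddSubgroup W where
  carrier := {a | ∃ x : A, ∀ g ∈ Duality.decomp L q,
    (a.1 : (L ≃ₐ[ℚ] L) → A) g = levelRes h g • x - x}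
  add_mem' := by
    rintro a b ⟨x, hx⟩ ⟨y, hy⟩
    refine ⟨x + y, fun g hg => ?_⟩
    show (a.1 : (L ≃ₐ[ℚ] L) → A) g + (b.1 : (L ≃ₐ[ℚ] L) → A) g = _
    rw [hx g hg, hy g hg, smul_add]
    abel
  zero_mem' := ⟨0, fun g _ => by rw [smul_zero, sub_zero]; rfl⟩
  neg_mem' := by
    rintro a ⟨x, hx⟩
    refine ⟨-x, fun g hg => ?_⟩
    show -(a.1 : (L ≃ₐ[ℚ] L) → A) g = _
    rw [hx g hg, smul_neg]
    abel

omit [FiniteDimensional ℚ ↥K] in
theorem proj_unitsOff_injective {T : Finset Nat.Primes} (hT : T.Nonempty) {x : J K}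
    (hx : x ∈ unitsOff K (T : Set Nat.Primes)) (h0 : proj K x = 0) : x = 0 := by
  obtain ⟨a, ha⟩ := (proj_eq_zero_iff K).mp h0
  obtain ⟨q, hq⟩ := hT
  have ha' : diag K (Additive.ofMul a) = x := congrArg Additive.ofMul ha
  have h1 := (hx q 1).2 (Finset.mem_coe.mpr hq)
  rw [← ha'] at h1
  have h2 : ((val (prinL K a) q 1 : (E K q)ˣ) : E K q) = 1 :=
    (congrArg Units.val h1).trans Units.val_one
  rw [val_prinL, ← map_one (localEmb (q : ℕ) K)] at h2
  have h3 : a = 1 := Units.ext ((localEmb (q : ℕ) K).injective h2)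
  rw [← ha', h3, ofMul_one, map_zero]

/-- The inclusion of the modules at `S` into those at `T`. -/
def padT (S T : Finset Nat.Primes) :
    (∀ i : S, CoInd (Duality.decomp K i) (LocUnits K i)) →+
      ∀ i : T, CoInd (Duality.decomp K i) (LocUnits K i) :=
  AddMonoidHom.mk' (fun F i => if hi : (i : Nat.Primes) ∈ S then F ⟨i, hi⟩ else 0) fun F F' =>
    funext fun i => by
      simp only [Pi.add_apply]
      split_ifs <;> simp

omit [FiniteDimensional ℚ ↥K] in
theorem padT_smul (S T : Finset Nat.Primes) (g : K ≃ₐ[ℚ] K)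
    (F : ∀ i : S, CoInd (Duality.decomp K i) (LocUnits K i)) :
    padT S T (g • F) = g • padT S T F := funext fun i => by
  simp only [padT, AddMonoidHom.mk'_apply, Pi.smul_apply]
  split_ifs
  · rfl
  · exact (smul_zero g).symm

theorem toJ_padT_mem (S T : Finset Nat.Primes)
    (F : ∀ i : S, CoInd (Duality.decomp K i) (LocUnits K i)) :
    toJ T (padT S T F) ∈ supportedIn K (S : Set Nat.Primes) := fun q hq σ => by
  by_cases hqT : q ∈ T
  · rw [val_toJ T _ hqT]
    simp only [padT, AddMonoidHom.mk'_apply, dif_neg (fun hS => hq (Finset.mem_coe.mpr hS))]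
    rw [map_zero, Pi.zero_apply, map_zero, toMul_zero]
  · exact val_toJ_notMem T _ hqT σ

variable (hε : Presentation p ε) {u : NormCocycle (L ≃ₐ[ℚ] L) (C L)} (hu : IsClassFormation p u)
  (hk : IsPGroup p (levelRes h).ker) {S T : Finset Nat.Primes} (hST : S ⊆ T)

omit [FiniteDimensional ℚ ↥K] [FiniteDimensional ℚ ↥L] [Fintype ι] in
include hε in
omit hp in
theorem levelCocycles_killed (a : levelCocycles (levelRes h) A) : p • a = 0 :=
  Subtype.ext (funext fun g => hε.killed ((a : (L ≃ₐ[ℚ] L) → A) g))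

/-! ### Functionals from equivariant maps -/

include hε hu hk in
/-- Functionals on a space of cocycles without coboundaries come from equivariant maps. -/
theorem exists_dual_restrict (W : AddSubgroup (levelCocycles (levelRes h) A))
    (hW0 : ∀ a ∈ W, ∀ x : A,
      (∀ g, (a : (L ≃ₐ[ℚ] L) → A) g = levelRes h g • x - x) → a = 0) (μ : W →+ ZMod p) :
    ∃ f : equivHom (C := C K) hε.isStable_ker, ∀ a : W, dual hε h hu hk f a.1 = μ a := by
  let Cb : AddSubgroup (levelCocycles (levelRes h) A) :=
    { carrier := {a | ∃ x : A, ∀ g, (a : (L ≃ₐ[ℚ] L) → A) g = levelRes h g • x - x}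
      add_mem' := by
        rintro a b ⟨x, hx⟩ ⟨y, hy⟩
        refine ⟨x + y, fun g => ?_⟩
        show (a : (L ≃ₐ[ℚ] L) → A) g + (b : (L ≃ₐ[ℚ] L) → A) g = _
        rw [hx g, hy g, smul_add]
        abel
      zero_mem' := ⟨0, fun g => by rw [smul_zero, sub_zero]; rfl⟩
      neg_mem' := by
        rintro a ⟨x, hx⟩
        refine ⟨-x, fun g => ?_⟩
        show -(a : (L ≃ₐ[ℚ] L) → A) g = _
        rw [hx g, smul_neg]
        abel }
  let : Module (ZMod p) (_ ⧸ Cb) := AddCommGroup.zmodModule fun x => by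
    obtain ⟨a, rfl⟩ := QuotientAddGroup.mk'_surjective Cb x
    rw [← map_nsmul, levelCocycles_killed h hε, map_zero]
  let i : W →+ _ ⧸ Cb := (QuotientAddGroup.mk' Cb).comp W.subtype
  have hi : Function.Injective i := by
    rw [injective_iff_map_eq_zero]
    intro a ha
    obtain ⟨x, hx⟩ := (QuotientAddGroup.eq_zero_iff _).mp ha
    exact Subtype.ext (hW0 a.1 a.2 x hx)
  let e := AddMonoidHom.ofInjective hi
  obtain ⟨M, hM⟩ := exists_extend_zmod (p := p) i.range (μ.comp e.symm.toAddMonoidHom)
  obtain ⟨f, hf⟩ := exists_dual_eq hε h hu hk (M.comp (QuotientAddGroup.mk' Cb)) fun a x hx => by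
    show M (QuotientAddGroup.mk' Cb a) = 0
    rw [show QuotientAddGroup.mk' Cb a = 0 from (QuotientAddGroup.eq_zero_iff _).mpr ⟨x, hx⟩,
      map_zero]
  refine ⟨f, fun a => ?_⟩
  rw [hf]
  refine (hM (e a)).trans ?_
  show μ (e.symm (e a)) = μ a
  rw [AddEquiv.symm_apply_apply]

omit [FiniteDimensional ℚ ↥K] in
theorem eq_of_proj_eq {T : Finset Nat.Primes} (hT : T.Nonempty) {a b : J K}
    (ha : a ∈ unitsOff K (T : Set Nat.Primes)) (hb : b ∈ unitsOff K (T : Set Nat.Primes))
    (e : proj K a = proj K b) : a = b :=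
  sub_eq_zero.mp (proj_unitsOff_injective hT (sub_mem ha hb) (by rw [map_sub, e, sub_self]))

include hε hu hk in
/-- Maps which are restrictions modulo the unit families off `T` are killed by the duality map. -/
theorem dual_eq_zero_of_toCMod (hT : T.Nonempty)
    (hTur : ∀ q ∉ T, inertia (E L q) = ⊥) (f : equivHom (C := C K) hε.isStable_ker)
    (hf : compHom hε.isStable_ker (toCMod K T) (toCMod_smul K T) f ∈
      extSub (M := CMod K T) hε.isStable_ker) :
    dual hε h hu hk f = 0 := by
  obtain ⟨Y, hY, hfY⟩ := hf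
  obtain ⟨Z, hZ, hZY⟩ := exists_lat_lift (toCMod K T) (toCMod_smul K T) (toCMod_surjective K T) Y hY
  have hw : ∀ s : ε.ker, ∃ w ∈ unitsOff K (T : Set Nat.Primes), proj K w = f.1 s - Z s := fun s =>
    (toCMod_eq_zero_iff K T _).mp (by
      rw [map_sub, sub_eq_zero]
      exact (hfY s).trans (DFunLike.congr_fun hZY (s : CFT.Lat (K ≃ₐ[ℚ] K) ι)).symm)
  choose w hwu hw using hw
  have hadd : ∀ s t, w (s + t) = w s + w t := fun s t =>
    eq_of_proj_eq hT (hwu _) (add_mem (hwu s) (hwu t)) (by
      rw [map_add (proj K), hw, hw, hw, map_add, AddSubgroup.coe_add, map_add]; abel)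
  have hsm : ∀ g s, w (smulS hε.isStable_ker g s) = g • w s := fun g s =>
    eq_of_proj_eq hT (hwu _) (smul_mem_unitsOff g (hwu s)) (by
      rw [hw, proj_smul, hw, smul_sub, coe_smulS, hZ]
      congr 1
      exact f.2 g s)
  let w' : equivHom (C := J K) hε.isStable_ker := ⟨AddMonoidHom.mk' w hadd, hsm⟩
  let z : equivHom (C := C K) hε.isStable_ker := ⟨Z.comp ε.ker.subtype, fun g s => hZ g s.1⟩
  have e : f = z + projHom hε w' := Subtype.ext (AddMonoidHom.ext fun s => by
    show f.1 s = Z s + proj K (w s)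
    rw [hw, add_sub_cancel])
  have h1 : dual hε h hu hk z = 0 :=
    theta_eq_zero_of_ext (levelSystem h hu hk) hε z Z hZ fun _ => rfl
  have h2 : dual hε h hu hk (projHom hε w') = 0 :=
    dual_unitsOff hε h hu hk (T := (T : Set Nat.Primes))
      (fun q hq => hTur q fun hm => hq (Finset.mem_coe.mpr hm)) w' hwu
  exact (congrArg (dual hε h hu hk) e).trans ((map_add _ z _).trans (by rw [h1, h2, add_zero]))

/-! ### Families of local maps and the count -/

/-- Families of equivariant maps into the local modules at `S`. -/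
abbrev LocFam (hS : IsStable (K ≃ₐ[ℚ] K) ε.ker) (S : Finset Nat.Primes) :=
  ∀ i : S, equivHom (C := CoInd (Duality.decomp K i) (LocUnits K i)) hS

/-- The product of a family as one map. -/
def totHom (hS : IsStable (K ≃ₐ[ℚ] K) ε.ker) (S : Finset Nat.Primes) :
    LocFam hS S →+ equivHom (C := ∀ i : S, CoInd (Duality.decomp K i) (LocUnits K i)) hS :=
  AddMonoidHom.mk' (fun y => ⟨AddMonoidHom.pi fun i => (y i).1,
    fun g s => funext fun i => (y i).2 g s⟩) fun _ _ => Subtype.ext (AddMonoidHom.ext fun _ => rfl)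

theorem wS_smul (S T : Finset Nat.Primes) (g : K ≃ₐ[ℚ] K)
    (F : ∀ i : S, CoInd (Duality.decomp K i) (LocUnits K i)) :
    ((toJ T).comp (padT S T)) (g • F) = g • ((toJ T).comp (padT S T)) F := by
  rw [AddMonoidHom.comp_apply, AddMonoidHom.comp_apply, padT_smul, toJ_smul]

/-- A family as a map into the ideles. -/
def famHom (hS : IsStable (K ≃ₐ[ℚ] K) ε.ker) (S T : Finset Nat.Primes) :
    LocFam hS S →+ equivHom (C := J K) hS :=
  (compHom hS ((toJ T).comp (padT S T)) (wS_smul S T)).comp (totHom hS S)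

omit hp in
include hε hST in
/-- A family killed modulo unit families off `T` consists of restrictions. -/
theorem mem_extSub_of_famHom (hT : T.Nonempty) (hgenT : Generates K T)
    (hdet : DetectedOff hε (iT K T) (iT_smul K T) (fun i : T => (i : Nat.Primes) ∈ S))
    (y : LocFam hε.isStable_ker S)
    (hy : compHom hε.isStable_ker (toCMod K T) (toCMod_smul K T)
      (projHom hε (famHom hε.isStable_ker S T y)) ∈ extSub (M := CMod K T) hε.isStable_ker)
    (i : S) : y i ∈ extSub hε.isStable_ker := by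
  let yT := compHom hε.isStable_ker (padT S T) (padT_smul S T) (totHom hε.isStable_ker S y)
  have h0 : compHom hε.isStable_ker (qT K T) (qT_smul K T) yT ∈ extSub hε.isStable_ker := hy
  have hyT := mem_extSub_of_qD hε (iT K T) (iT_smul K T) (qT K T) (qT_smul K T) _
    (iT_injective hT) (fun y hy => exists_iT_eq hy) (qT_surjective hgenT) hdet yT
    (fun i hi s => dif_neg hi) h0
  have hc := compHom_mem_extSub hε.isStable_ker
    (Pi.evalAddMonoidHom (fun i : T => CoInd (Duality.decomp K i) (LocUnits K i)) ⟨i, hST i.2⟩)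
    (fun _ _ => rfl) hyT
  have e : compHom hε.isStable_ker
      (Pi.evalAddMonoidHom (fun i : T => CoInd (Duality.decomp K i) (LocUnits K i)) ⟨i, hST i.2⟩)
      (fun _ _ => rfl) yT = y i :=
    Subtype.ext (AddMonoidHom.ext fun s => (dif_pos i.2 : _))
  rwa [e] at hc

include hε hu hk in
/-- The image of a family is a sum of functionals killing the local classes. -/
theorem exists_annSub_sum (W : AddSubgroup (levelCocycles (levelRes h) A))
    (y : LocFam hε.isStable_ker S) :
    ∃ μ : ∀ i : S, annSub (p := p) (locTrivW h W i),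
      ∀ a : W, (∑ i : S, (μ i).1) a =
        dual hε h hu hk (projHom hε (famHom hε.isStable_ker S T y)) a.1 := by
  let w := famHom hε.isStable_ker S T y
  have hws : ∀ s, w.1 s ∈ supportedIn K (S : Set Nat.Primes) := fun s => toJ_padT_mem S T _
  refine ⟨fun i => ⟨(dual hε h hu hk (projHom hε (partHom hε {(i : Nat.Primes)} w))).comp W.subtype,
    fun a ha => dual_supported hε h hu hk i _
      (fun s => partAt_mem_supportedIn {(i : Nat.Primes)} _) a.1 ha⟩, fun a => ?_⟩
  refine (AddMonoidHom.finsetSum_apply _ _ _).trans ?_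
  show ∑ i : S, dual hε h hu hk (projHom hε (partHom hε {(i : Nat.Primes)} w)) a.1 = _
  refine (map_sum ((AddMonoidHom.eval a.1).comp ((dual hε h hu hk).comp (projHom hε)))
    _ _).symm.trans
    (congrArg (fun v => dual hε h hu hk (projHom hε v) a.1)
      (Subtype.ext (AddMonoidHom.ext fun s => ?_)))
  rw [AddSubgroup.val_finsetSum, AddMonoidHom.finsetSum_apply]
  exact (Finset.sum_coe_sort S (fun q => partAt {q} (w.1 s))).trans (sum_partAt S (hws s))

include hε hu hk hST in
/-- The global count. -/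
theorem global_count (hT : T.Nonempty) (hgenT : Generates K T)
    (hTur : ∀ q ∉ T, inertia (E L q) = ⊥) (hDfin : ModPFinite p (CMod K T))
    (hdet : DetectedOff hε (iT K T) (iT_smul K T) (fun i : T => (i : Nat.Primes) ∈ S))
    (W : AddSubgroup (levelCocycles (levelRes h) A)) [Finite W]
    (hW0 : ∀ a ∈ W, ∀ x : A,
      (∀ g, (a : (L ≃ₐ[ℚ] L) → A) g = levelRes h g • x - x) → a = 0) :
    Nat.card W *
        ∏ i : S, (extSub (M := CoInd (Duality.decomp K i) (LocUnits K i)) hε.isStable_ker).index ≤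
      (extSub (M := CMod K T) hε.isStable_ker).index * ∏ i : S, (locTrivW h W i).index := by
  classical
  have := finite_dual (p := p) (A := W)
  have hWk : ∀ a : W, p • a = 0 := fun a => Subtype.ext (levelCocycles_killed h hε a.1)
  let R : equivHom (C := C K) hε.isStable_ker →+ (W →+ ZMod p) :=
    AddMonoidHom.mk' (fun f => (dual hε h hu hk f).comp W.subtype) fun f f' =>
      (congrArg (fun g => g.comp W.subtype) (map_add (dual hε h hu hk) f f')).trans
        (AddMonoidHom.add_comp _ _ _)
  have hR : Function.Surjective R := fun μ => by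
    obtain ⟨f, hf⟩ := exists_dual_restrict h hε hu hk W hW0 μ
    exact ⟨f, AddMonoidHom.ext hf⟩
  let E := extSub (M := CMod K T) hε.isStable_ker
  have : E.FiniteIndex := ⟨index_extSub_ne_zero hε _ hDfin⟩
  have : Finite (_ ⧸ E) := AddSubgroup.finite_quotient_of_finiteIndex
  let Φ : equivHom (C := C K) hε.isStable_ker →+ _ ⧸ E :=
    (QuotientAddGroup.mk' E).comp (compHom hε.isStable_ker (toCMod K T) (toCMod_smul K T))
  have hker : Φ.ker ≤ R.ker := fun f hf => by
    show (dual hε h hu hk f).comp W.subtype = 0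
    rw [dual_eq_zero_of_toCMod h hε hu hk hT hTur f ((QuotientAddGroup.eq_zero_iff _).mp hf)]
    rfl
  let j : LocFam hε.isStable_ker S →+ equivHom (C := C K) hε.isStable_ker :=
    (projHom hε).comp (famHom hε.isStable_ker S T)
  have key := card_mul_le_of_factor Φ R hR hker j
  have h1 : ∏ i : S, (extSub (M := CoInd (Duality.decomp K i) (LocUnits K i))
    hε.isStable_ker).index ≤
      Nat.card (Φ.comp j).range :=
    prod_index_le _ (Φ.comp j) fun y hy i =>
      mem_extSub_of_famHom hε hST hT hgenT hdet y ((QuotientAddGroup.eq_zero_iff _).mp hy) i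
  have h2 : Nat.card (R.comp j).range ≤ ∏ i : S, (locTrivW h W i).index :=
    (card_range_le_prod (fun i : S => annSub (p := p) (locTrivW h W i)) (R.comp j) fun y =>
      (exists_annSub_sum h hε hu hk (T := T) W y).imp fun _ hμ => AddMonoidHom.ext hμ).trans
      (Finset.prod_le_prod' fun i _ => card_annSub_le hWk _)
  calc Nat.card W * _ ≤ Nat.card (W →+ ZMod p) * Nat.card (Φ.comp j).range :=
        Nat.mul_le_mul (card_dual hWk).ge h1
    _ ≤ _ := key
    _ ≤ _ := Nat.mul_le_mul le_rfl h2

end Fermat.Agent.CFT.TWPrimes
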