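import Fermat.Agent.CFT.TWPrimes.Phi
import Mathlib.LinearAlgebra.Matrix.CharP

/-!
# Cocycles of the image are coboundaries
-/

set_option autoImplicit false

noncomputable section

namespace Fermat.Agent.CFT.TWPrimes

open Matrix

variable {G : Type*} [Group G] {k : Type*} [Field k] {r : G →* Matrix (Fin 2) (Fin 2) k}
  {b : G → Matrix (Fin 2) (Fin 2) k}

local notation "M₂" => Matrix (Fin 2) (Fin 2) k

theorem IsCocycle.sub_cobd_ker (hker : ∀ g, r g = 1 → b g = 0) (X : Matrix (Fin 2) (Fin 2) k)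
    {g : G} (hg : r g = 1) : b g - cobd r X g = 0 := by
  rw [hker g hg, cobd, ad_of_eq_one hg, sub_self, sub_zero]

variable [Finite k]

/-- A cocycle of an image of order prime to the characteristic is a coboundary. -/
theorem exists_coboundary_of_coprime (hb : IsCocycle r b) (hker : ∀ g, r g = 1 → b g = 0)
    (hcard : (Nat.card r.toHomUnits.range : k) ≠ 0) :
    ∃ X : Matrix (Fin 2) (Fin 2) k, X.trace = 0 ∧ ∀ g, b g = cobd r X g := by
  classical
  set Q := r.toHomUnits.range
  have : Fintype Q := Fintype.ofFinite Q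
  choose s hs using fun x : Q => MonoidHom.mem_range.mp x.2
  set T := ∑ x : Q, b (s x) with hT
  have key : ∀ g, T = ad r g T + (Nat.card Q : k) • b g := fun g => by
    calc T = ∑ x : Q, b (s (⟨r.toHomUnits g, ⟨g, rfl⟩⟩ * x)) := by
          rw [hT]
          exact (Fintype.sum_equiv (Equiv.mulLeft (⟨r.toHomUnits g, ⟨g, rfl⟩⟩ : Q)) _ _
            fun x => rfl).symm
      _ = ∑ x : Q, b (g * s x) := by
          refine Finset.sum_congr rfl fun x _ => hb.congr hker ?_
          have h1 := congrArg Units.val (hs (⟨r.toHomUnits g, ⟨g, rfl⟩⟩ * x))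
          have h2 := congrArg Units.val (hs x)
          rw [MonoidHom.coe_toHomUnits] at h1 h2
          rw [h1, _root_.map_mul, h2]
          rfl
      _ = ad r g T + (Nat.card Q : k) • b g := by
          simp only [hb.map_mul, Finset.sum_add_distrib, hT, map_sum, Finset.sum_const,
            Finset.card_univ, Nat.card_eq_fintype_card, Nat.cast_smul_eq_nsmul]
  refine ⟨-((Nat.card Q : k)⁻¹ • T), ?_, fun g => ?_⟩
  · rw [Matrix.trace_neg, Matrix.trace_smul, hT, Matrix.trace_sum,
      Finset.sum_eq_zero fun x _ => hb.trace (s x), smul_zero, neg_zero]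
  · rw [cobd, map_neg, map_smul, eq_sub_of_add_eq (key g).symm]
    simp only [smul_sub, smul_smul, inv_mul_cancel₀ hcard, one_smul]
    abel

/-- A group with image of order divisible by `p` contains an element acting as a nontrivial
unipotent. -/
private theorem exists_unipotent (p : ℕ) [Fact p.Prime] [CharP k p]
    (hcard : (Nat.card r.toHomUnits.range : k) = 0) :
    ∃ u N, r u = 1 + N ∧ N * N = 0 ∧ N ≠ 0 := by
  classical
  have : Fintype r.toHomUnits.range := Fintype.ofFinite _
  rw [CharP.cast_eq_zero_iff k p, Nat.card_eq_fintype_card] at hcard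
  obtain ⟨⟨x, u, rfl⟩, hord⟩ := exists_prime_orderOf_dvd_card p hcard
  rw [← Subgroup.orderOf_coe] at hord
  have hup : r u ^ p = 1 := by
    have := congrArg Units.val (hord ▸ pow_orderOf_eq_one (r.toHomUnits u))
    simpa using this
  have hne : r u ≠ 1 := fun h => (Fact.out : p.Prime).one_lt.ne' (by
    rw [← hord, orderOf_eq_one_iff]
    exact Units.ext (by simpa using h))
  set N := r u - 1 with hNdef
  have hu : r u = 1 + N := by rw [hNdef]; abel
  have hnil : IsNilpotent N := ⟨p, by
    rw [hNdef, sub_pow_char_of_commute (p := p) (Commute.one_right _), hup, one_pow, sub_self]⟩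
  refine ⟨u, N, hu, ?_, fun h => hne (by rw [hu, h, add_zero])⟩
  exact sq_zero_of_trace_det (Matrix.isNilpotent_trace_of_isNilpotent hnil).eq_zero (by
    obtain ⟨n, hn⟩ := hnil
    have := congrArg Matrix.det hn
    rw [det_pow, det_zero] at this
    exact eq_zero_of_pow_eq_zero this)

/-- A cocycle vanishing at a pair of opposite unipotents vanishes in determinant one. -/
private theorem eq_zero_of_det_eq_one (p : ℕ) [Fact p.Prime] [CharP k p]
    (hδ : ∀ a : ℕ, ¬p ∣ a → ∃ g, (r g).det = (a : k)) (hr : TWHyp r) (hb : IsCocycle r b)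
    (hker : ∀ g, r g = 1 → b g = 0) {u v : G} {N M : Matrix (Fin 2) (Fin 2) k} {l : k}
    (hu : r u = 1 + N) (hv' : r v = 1 + l • M) (hN : N * N = 0) (hM : M * M = 0)
    (hNM : (N * M).trace = 1) (hg₀ : l ≠ 0) (hdu : (r u).det = 1) (hdv : (r v).det = 1)
    (hub : b u = 0) (hvb : b v = 0) {g : G} (hg : (r g).det = 1) : b g = 0 := by
  have huvb : b (u * v) = 0 := by rw [hb.map_mul, hub, hvb, map_zero, add_zero]
  have horth : ∀ h : G, b h = 0 → (r h).det = 1 → (b g * r g * r h).trace = 0 := by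
    intro h hh hdh
    have e := hb.phi_mul hg h
    rw [hb.phi_eq_zero p hδ hr hker (by rw [_root_.map_mul, det_mul, hg, hdh, one_mul]), hh,
      mul_zero, zero_mul, Matrix.trace_zero, add_zero, ← mul_assoc] at e
    exact e.symm
  obtain ⟨W, hW⟩ : ∃ W, W = b g * r g := ⟨_, rfl⟩
  rw [← hW] at horth
  have h1 : W.trace = 0 := by simpa using horth 1 hb.map_one (by simp)
  have h2 : (W * N).trace = 0 := by
    have := horth u hub hdu
    rwa [hu, mul_add, mul_one, Matrix.trace_add, h1, zero_add] at this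
  have h3 : (W * M).trace = 0 := by
    have := horth v hvb hdv
    rw [hv', mul_add, mul_one, Matrix.trace_add, h1, zero_add, mul_smul_comm, Matrix.trace_smul,
      smul_eq_mul] at this
    exact (mul_eq_zero.mp this).resolve_left hg₀
  have h4 : (W * (N * M)).trace = 0 := by
    have := horth (u * v) huvb (by rw [_root_.map_mul, det_mul, hdu, hdv, one_mul])
    rw [_root_.map_mul, hu, hv'] at this
    simp only [add_mul, mul_add, one_mul, mul_one, mul_smul_comm, Matrix.trace_add,
      Matrix.trace_smul, smul_eq_mul, h1, h2, h3, add_zero, zero_add] at this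
    exact (mul_eq_zero.mp this).resolve_left hg₀
  have hW0 : W = 0 := by
    rw [decomp hN hM hNM h1, h2, h3, h4]
    simp
  calc b g = b g * (r g * r g⁻¹) := by rw [mul_rinv, mul_one]
    _ = 0 := by rw [← mul_assoc, ← hW, hW0, zero_mul]

omit [Finite k] in
/-- A cocycle vanishing in determinant one vanishes, when the image contains two noncommuting
unipotents. -/
private theorem eq_zero_of_det_one_zero (hr : TWHyp r) (hb : IsCocycle r b)
    (hone' : ∀ g, (r g).det = 1 → b g = 0) {u v : G} {N M₀ : Matrix (Fin 2) (Fin 2) k}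
    (hu : r u = 1 + N) (hv : r v = 1 + M₀) (hN : N * N = 0) (hM₀ : M₀ * M₀ = 0) (hN0 : N ≠ 0)
    (hg₀ : (N * M₀).trace ≠ 0) (g : G) : b g = 0 := by
  have trN := trace_eq_zero_of_sq hN
  have hinv : ∀ w : G, (r w).det = 1 → ad r w (b g) = b g := by
    intro w hw
    have hw' : (r (g⁻¹ * w * g)).det = 1 := by
      rw [_root_.map_mul, _root_.map_mul, det_mul, det_mul, hw, mul_one, ← det_mul, rinv_mul,
        det_one]
    have e := hb.map_mul w g
    rw [hone' w hw, add_zero, show w * g = g * (g⁻¹ * w * g) by group, hb.map_mul,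
      hone' _ hw', map_zero, zero_add] at e
    exact e.symm
  have hcomm : ∀ {w : G} {P : Matrix (Fin 2) (Fin 2) k}, r w = 1 + P → P * P = 0 →
      P * b g = b g * P := by
    intro w P hw hP
    have e := hinv w (det_eq_one hw hP)
    rw [ad_apply, det_eq_one hw hP, one_smul, map_inv_unip hw hP, hw] at e
    have e2 := congrArg (fun Z => Z * (1 + P)) e
    have h1 : (1 - P) * (1 + P) = 1 := by simp [sub_mul, mul_add, hP]
    rw [mul_assoc, h1, mul_one, add_mul, one_mul, mul_add, mul_one, add_right_inj] at e2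
    exact e2
  obtain ⟨c, hc⟩ := exists_smul_of_commute hr.two (hb.trace g) trN hN0 (hcomm hu hN).symm
  have e := hcomm hv hM₀
  rw [hc, mul_smul_comm, smul_mul_assoc] at e
  by_contra hne0
  have hc0 : c ≠ 0 := fun h => hne0 (by rw [hc, h, zero_smul])
  have e2 : M₀ * N = N * M₀ := smul_right_injective _ hc0 e
  have e3 : N * M₀ * N = 0 := by rw [← e2, mul_assoc, hN, mul_zero]
  rw [sandwich hN, smul_eq_zero, Matrix.trace_mul_comm] at e3
  exact hg₀ (e3.resolve_right hN0)

/-- Classes of the image of `r` in the twisted adjoint representation vanish. -/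
theorem exists_coboundary (p : ℕ) [Fact p.Prime] [CharP k p]
    (hδ : ∀ a : ℕ, ¬p ∣ a → ∃ g, (r g).det = (a : k)) (hr : TWHyp r) (hb : IsCocycle r b)
    (hker : ∀ g, r g = 1 → b g = 0) :
    ∃ X : Matrix (Fin 2) (Fin 2) k, X.trace = 0 ∧ ∀ g, b g = cobd r X g := by
  classical
  by_cases hcard : (Nat.card r.toHomUnits.range : k) ≠ 0
  · exact exists_coboundary_of_coprime hb hker hcard
  push Not at hcard
  -- a unipotent element
  obtain ⟨u, N, hu, hN, hN0⟩ := exists_unipotent p hcard
  obtain ⟨g₀, hg₀⟩ := hr.exists_pair hN0 hN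
  have hv := map_conj_unip hu g₀
  have hM₀ := conj_sq (r := r) hN g₀
  set v := g₀ * u * g₀⁻¹
  obtain ⟨M₀, hM₀def⟩ : ∃ M₀, M₀ = r g₀ * N * r g₀⁻¹ := ⟨_, rfl⟩
  rw [← hM₀def] at hv hM₀ hg₀
  set l := (N * M₀).trace with hl
  obtain ⟨M, hMdef⟩ : ∃ M : Matrix (Fin 2) (Fin 2) k, M = l⁻¹ • M₀ := ⟨_, rfl⟩
  have hM : M * M = 0 := by rw [hMdef]; exact smul_sq hM₀ _
  have hv' : r v = 1 + l • M := by rw [hv, hMdef, smul_smul, mul_inv_cancel₀ hg₀, one_smul]
  have hNM : (N * M).trace = 1 := by
    rw [hMdef, mul_smul_comm, Matrix.trace_smul, smul_eq_mul, ← hl, inv_mul_cancel₀ hg₀]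
  have hMN : (M * N).trace = 1 := by rw [Matrix.trace_mul_comm, hNM]
  have hNMN : N * M * N = N := by rw [sandwich hN, hMN, one_smul]
  have hMNM : M * N * M = M := by rw [sandwich hM, hNM, one_smul]
  have hone : N * M + M * N = 1 := by
    rw [polar, trace_eq_zero_of_sq hN, trace_eq_zero_of_sq hM, hNM]
    simp
  have trN := trace_eq_zero_of_sq hN
  have trM := trace_eq_zero_of_sq hM
  have hH : (N * M - M * N).trace = 0 := by rw [Matrix.trace_sub, hNM, hMN, sub_self]
  have hdu := det_eq_one hu hN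
  have hdv := det_eq_one hv hM₀
  have hvinv : r v⁻¹ = 1 - l • M := map_inv_unip hv' (smul_sq hM l)
  have huinv := map_inv_unip hu hN
  -- first normalisation: vanish at `u`
  obtain ⟨X₁, hX₁t, hX₁⟩ : ∃ X₁ : Matrix (Fin 2) (Fin 2) k, X₁.trace = 0 ∧
      b u = cobd r X₁ u := by
    have hdec := decomp hN hM hNM (hb.trace u)
    have hzero : (b u * N).trace = 0 := by
      have h := hb.phi_eq_zero p hδ hr hker hdu
      rwa [phi, hu, mul_add, mul_one, Matrix.trace_add, hb.trace, zero_add] at h
    rw [hzero, zero_smul, add_zero] at hdec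
    generalize hα : (b u * M).trace = α at hdec
    generalize hγ : (b u * (N * M)).trace = γ at hdec
    refine ⟨γ • M + (-(α + γ) / 2) • (N * M - M * N), ?_, ?_⟩
    · rw [Matrix.trace_add, Matrix.trace_smul, Matrix.trace_smul, trM, hH, smul_zero, smul_zero,
        add_zero]
    rw [hdec, cobd, ad_apply, hdu, one_smul, hu, huinv]
    simp only [add_mul, mul_add, mul_sub, sub_mul, one_mul, mul_one, smul_mul_assoc, mul_smul_comm,
      ← mul_assoc, hN, zero_mul, smul_zero, hNMN, smul_sub, smul_add]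
    rw [mul_assoc M N N, hN, mul_zero, smul_zero]
    have h2 := hr.two
    match_scalars <;> field_simp <;> ring
  set b₁ : G → M₂ := fun g => b g - cobd r X₁ g
  have hb₁ : IsCocycle r b₁ := hb.sub (isCocycle_cobd hX₁t)
  have hker₁ : ∀ g, r g = 1 → b₁ g = 0 := fun g hg => IsCocycle.sub_cobd_ker hker X₁ hg
  have hu₁ : b₁ u = 0 := sub_eq_zero.mpr hX₁
  -- second normalisation: vanish at `v`
  obtain ⟨X₂, hX₂t, hX₂u, hX₂⟩ : ∃ X₂ : Matrix (Fin 2) (Fin 2) k, X₂.trace = 0 ∧
      cobd r X₂ u = 0 ∧ b₁ v = cobd r X₂ v := by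
    have hdec := decomp hN hM hNM (hb₁.trace v)
    have hzero : (b₁ v * M).trace = 0 := by
      have h := hb₁.phi_eq_zero p hδ hr hker₁ hdv
      rw [phi, hv', mul_add, mul_one, Matrix.trace_add, hb₁.trace, zero_add, mul_smul_comm,
        Matrix.trace_smul, smul_eq_mul] at h
      exact (mul_eq_zero.mp h).resolve_left hg₀
    rw [hzero, zero_smul, zero_add] at hdec
    generalize hβ : (b₁ v * N).trace = β at hdec
    generalize hc : (b₁ v * (N * M)).trace = c at hdec
    have hsum : (b₁ v * (M * N)).trace = -c := by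
      have := hb₁.trace v
      rw [← mul_one (b₁ v), ← hone, mul_add, Matrix.trace_add, hc] at this
      exact eq_neg_of_add_eq_zero_right this
    have hrel : β = l * c := by
      have h := hb₁.phi_eq_zero p hδ hr hker₁ (h := u * v)
        (by rw [_root_.map_mul, det_mul, hdu, hdv, one_mul])
      rw [hb₁.phi_mul hdu, hu₁, zero_mul, Matrix.trace_zero, zero_add, hu, hv'] at h
      simp only [add_mul, mul_add, one_mul, mul_one, mul_smul_comm, Matrix.trace_add,
        Matrix.trace_smul, smul_eq_mul, hb₁.trace, zero_add, hzero] at h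
      rw [Matrix.trace_mul_comm N, hβ, mul_assoc, Matrix.trace_mul_comm N, mul_assoc, hsum] at h
      linear_combination h
    refine ⟨(-c / l) • N, by rw [Matrix.trace_smul, trN, smul_zero], ?_, ?_⟩
    · rw [cobd, ad_apply, hdu, one_smul, hu, huinv]
      simp only [add_mul, mul_sub, one_mul, mul_one, smul_mul_assoc, mul_smul_comm, hN,
        smul_zero, add_zero, sub_zero, sub_self]
    · rw [hdec, hrel, cobd, ad_apply, hdv, one_smul, hv', hvinv]
      simp only [add_mul, mul_sub, one_mul, mul_one, smul_mul_assoc, mul_smul_comm, smul_smul,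
        hMNM]
      match_scalars <;> field_simp
      ring
  set b₂ : G → M₂ := fun g => b₁ g - cobd r X₂ g
  have hb₂ : IsCocycle r b₂ := hb₁.sub (isCocycle_cobd hX₂t)
  have hker₂ : ∀ g, r g = 1 → b₂ g = 0 := fun g hg => IsCocycle.sub_cobd_ker hker₁ X₂ hg
  have hu₂ : b₂ u = 0 := by show b₁ u - cobd r X₂ u = 0; rw [hu₁, hX₂u, sub_zero]
  have hv₂ : b₂ v = 0 := sub_eq_zero.mpr hX₂
  -- vanishing in determinant one
  have hone' : ∀ g, (r g).det = 1 → b₂ g = 0 := by
    exact fun g hg =>
      eq_zero_of_det_eq_one p hδ hr hb₂ hker₂ hu hv' hN hM hNM hg₀ hdu hdv hu₂ hv₂ hg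
  refine ⟨X₁ + X₂, by rw [Matrix.trace_add, hX₁t, hX₂t, add_zero], fun g => ?_⟩
  suffices h0 : b₂ g = 0 by
    have h : b g - cobd r X₁ g - cobd r X₂ g = 0 := h0
    rw [sub_sub, sub_eq_zero] at h
    rw [h]
    simp only [cobd, map_add]
    abel
  exact eq_zero_of_det_one_zero hr hb₂ hone' hu hv hN hM₀ hN0 hg₀ g

end Fermat.Agent.CFT.TWPrimes
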